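/-
S58 leaf (helper98): a pseudo-character argument in dimension two (Mathlib only).

`h98r_pseudo_irreducible`: let `ρ₁ : G → End_F V₁`, `ρ₂ : G → End_K V₂` be two-dimensional
representations over fields `F → K` of characteristic `≠ 2` with the same trace functions, and
let `c ∈ G` be an involution with `tr ρ₁ c = 0`.  If `ρ₁` is irreducible then so is `ρ₂`.
(No Brauer–Nesbitt: the function `(g, h) ↦ tr (P⁺ ρ(g) P⁻ ρ(h))` is expressed through traces of
group elements and detects the stable lines.)
-/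
import Mathlib

namespace Fermat.Agent.S58

open LinearMap Module

section Alg

variable {F : Type*} [Field F] {V : Type*} [AddCommGroup V] [Module F V]

/-- The projector `(1 + s) / 2`. -/
noncomputable def h98r_projP (s : Module.End F V) : Module.End F V := (2 : F)⁻¹ • (1 + s)

/-- The projector `(1 - s) / 2`. -/
noncomputable def h98r_projQ (s : Module.End F V) : Module.End F V := (2 : F)⁻¹ • (1 - s)

theorem h98r_projP_add_projQ (h2 : (2 : F) ≠ 0) (s : Module.End F V) :
    h98r_projP s + h98r_projQ s = 1 := by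
  unfold h98r_projP h98r_projQ
  rw [← smul_add]
  have : (1 + s) + (1 - s) = (2 : F) • (1 : Module.End F V) := by
    rw [two_smul]; abel
  rw [this, smul_smul, inv_mul_cancel₀ h2, one_smul]

theorem h98r_projP_mul_projQ (s : Module.End F V) (hs : s * s = 1) :
    h98r_projP s * h98r_projQ s = 0 := by
  unfold h98r_projP h98r_projQ
  rw [smul_mul_smul_comm]
  have : (1 + s) * (1 - s) = 0 := by
    simp only [add_mul, mul_sub, one_mul, mul_one, hs]; abel
  rw [this, smul_zero]

theorem h98r_projQ_mul_projP (s : Module.End F V) (hs : s * s = 1) :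
    h98r_projQ s * h98r_projP s = 0 := by
  unfold h98r_projP h98r_projQ
  rw [smul_mul_smul_comm]
  have : (1 - s) * (1 + s) = 0 := by
    simp only [sub_mul, mul_add, one_mul, mul_one, hs]; abel
  rw [this, smul_zero]

theorem h98r_projP_idem (h2 : (2 : F) ≠ 0) (s : Module.End F V) (hs : s * s = 1) :
    IsIdempotentElem (h98r_projP s) := by
  have h := h98r_projP_add_projQ h2 s
  have h' : h98r_projP s * (h98r_projP s + h98r_projQ s) = h98r_projP s := by
    rw [h, mul_one]
  rw [mul_add, h98r_projP_mul_projQ s hs, add_zero] at h'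
  exact h'

theorem h98r_projQ_idem (h2 : (2 : F) ≠ 0) (s : Module.End F V) (hs : s * s = 1) :
    IsIdempotentElem (h98r_projQ s) := by
  have h := h98r_projP_add_projQ h2 s
  have h' : h98r_projQ s * (h98r_projP s + h98r_projQ s) = h98r_projQ s := by
    rw [h, mul_one]
  rw [mul_add, h98r_projQ_mul_projP s hs, zero_add] at h'
  exact h'

/-- `s P = P`. -/
theorem h98r_mul_projP (s : Module.End F V) (hs : s * s = 1) :
    s * h98r_projP s = h98r_projP s := by
  unfold h98r_projP
  rw [mul_smul_comm, mul_add, mul_one, hs, add_comm]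

/-- `s Q = - Q`. -/
theorem h98r_mul_projQ (s : Module.End F V) (hs : s * s = 1) :
    s * h98r_projQ s = -h98r_projQ s := by
  unfold h98r_projQ
  rw [mul_smul_comm, mul_sub, mul_one, hs, ← smul_neg, neg_sub]

variable [Module.Finite F V]

theorem h98r_trace_projP (h2 : (2 : F) ≠ 0) (hV : finrank F V = 2) (s : Module.End F V)
    (hts : LinearMap.trace F V s = 0) : LinearMap.trace F V (h98r_projP s) = 1 := by
  unfold h98r_projP
  rw [map_smul, map_add, hts, add_zero, LinearMap.trace_one, hV, smul_eq_mul]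
  push_cast
  exact inv_mul_cancel₀ h2

theorem h98r_trace_projQ (h2 : (2 : F) ≠ 0) (hV : finrank F V = 2) (s : Module.End F V)
    (hts : LinearMap.trace F V s = 0) : LinearMap.trace F V (h98r_projQ s) = 1 := by
  unfold h98r_projQ
  rw [map_smul, map_sub, hts, sub_zero, LinearMap.trace_one, hV, smul_eq_mul]
  push_cast
  exact inv_mul_cancel₀ h2

/-- An idempotent of trace `1` on a plane has a range of dimension `1`. -/
theorem h98r_finrank_range_of_trace (hV : finrank F V = 2) (P : Module.End F V)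
    (hP : IsIdempotentElem P) (htP : LinearMap.trace F V P = 1) :
    finrank F (LinearMap.range P) = 1 := by
  have h1 := hP.isProj_range.trace
  rw [htP] at h1
  have hle : finrank F (LinearMap.range P) ≤ 2 := hV ▸ Submodule.finrank_le _
  have h012 : finrank F (LinearMap.range P) = 0 ∨ finrank F (LinearMap.range P) = 1 ∨
      finrank F (LinearMap.range P) = 2 := by omega
  rcases h012 with h | h | h
  · rw [h] at h1
    simp at h1
  · exact h
  · exfalso
    rw [h] at h1
    push_cast at h1
    have : (1 : F) = 0 := by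
      linear_combination -h1
    exact one_ne_zero this

/-- `P Y P = tr(P Y) P` for an idempotent `P` with one-dimensional range. -/
theorem h98r_rank_one (P : Module.End F V) (hP : IsIdempotentElem P)
    (hr : finrank F (LinearMap.range P) = 1) (Y : Module.End F V) :
    P * Y * P = LinearMap.trace F V (P * Y) • P := by
  obtain ⟨v, hv0, hv⟩ := finrank_eq_one_iff'.1 hr
  have hPv : P (v : V) = v := by
    obtain ⟨x, hx⟩ := v.2
    rw [← hx, ← Module.End.mul_apply, hP.eq]
  obtain ⟨lam, hlam⟩ := hv ⟨P (Y v), LinearMap.mem_range_self _ _⟩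
  have hlam' : P (Y (v : V)) = lam • (v : V) := by
    have := congrArg Subtype.val hlam
    simpa using this.symm
  have key : P * Y * P = lam • P := by
    apply LinearMap.ext
    intro x
    obtain ⟨mu, hmu⟩ := hv ⟨P x, LinearMap.mem_range_self _ _⟩
    have hmu' : P x = mu • (v : V) := by
      have := congrArg Subtype.val hmu
      simpa using this.symm
    rw [Module.End.mul_apply, Module.End.mul_apply, LinearMap.smul_apply, hmu', map_smul,
      map_smul, hlam', smul_comm]
  have htP : LinearMap.trace F V P = 1 := by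
    have h1 := hP.isProj_range.trace
    rw [hr] at h1
    simpa using h1
  have htr : LinearMap.trace F V (P * Y) = lam := by
    have h1 : LinearMap.trace F V (P * Y * P) = LinearMap.trace F V (P * Y) := by
      rw [LinearMap.trace_mul_comm, ← mul_assoc, hP.eq]
    rw [← h1, key, map_smul, htP, smul_eq_mul, mul_one]
  rw [key, htr]

/-- An involution of determinant `-1` on a plane has trace `0`. -/
theorem h98r_trace_eq_zero_of_det (hV : finrank F V = 2) (s : Module.End F V)
    (hs : s * s = 1) (hdet : LinearMap.det s = -1) : LinearMap.trace F V s = 0 := by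
  let b := Module.finBasisOfFinrankEq F V hV
  have hM : LinearMap.toMatrix b b s * LinearMap.toMatrix b b s = 1 := by
    rw [← LinearMap.toMatrix_mul, hs, LinearMap.toMatrix_one]
  have hd : (LinearMap.toMatrix b b s).det = -1 := by
    rw [LinearMap.det_toMatrix b s, hdet]
  rw [LinearMap.trace_eq_matrix_trace F b s, Matrix.trace_fin_two]
  set M := LinearMap.toMatrix b b s with hMdef
  rw [Matrix.det_fin_two] at hd
  have h00 := congrFun (congrFun hM 0) 0
  have h11 := congrFun (congrFun hM 1) 1
  simp only [Matrix.mul_apply, Fin.sum_univ_two, Matrix.one_apply_eq] at h00 h11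
  have hsq : (M 0 0 + M 1 1) * (M 0 0 + M 1 1) = 0 := by
    linear_combination h00 + h11 + 2 * hd
  exact mul_self_eq_zero.mp hsq

end Alg

section Main

variable {G : Type*} [Group G] {F K : Type*} [Field F] [Field K]
  {V₁ : Type*} [AddCommGroup V₁] [Module F V₁]
  {V₂ : Type*} [AddCommGroup V₂] [Module K V₂]

/-- The trace of `P⁺ ρ(g) P⁻ ρ(h)` in terms of traces of group elements. -/
theorem h98r_trace_formula [Module.Finite F V₁] (ρ : G →* Module.End F V₁) (c g h : G) :
    LinearMap.trace F V₁ (h98r_projP (ρ c) * ρ g * h98r_projQ (ρ c) * ρ h) =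
      (2 : F)⁻¹ * (2 : F)⁻¹ * (LinearMap.trace F V₁ (ρ (g * h))
        - LinearMap.trace F V₁ (ρ (g * c * h)) + LinearMap.trace F V₁ (ρ (c * g * h))
        - LinearMap.trace F V₁ (ρ (c * g * c * h))) := by
  have e : h98r_projP (ρ c) * ρ g * h98r_projQ (ρ c) * ρ h =
      ((2 : F)⁻¹ * (2 : F)⁻¹) • (ρ (g * h) - ρ (g * c * h) + ρ (c * g * h)
        - ρ (c * g * c * h)) := by
    unfold h98r_projP h98r_projQ
    simp only [map_mul, smul_mul_assoc, mul_smul_comm, smul_smul]
    congr 1
    noncomm_ring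
  rw [e, map_smul, smul_eq_mul, map_sub, map_add, map_sub]

/-- A stable line in a plane with an involution of trace `0` forces the vanishing of all
`P⁺ ρ(g) P⁻ ρ(h) P⁺`. -/
theorem h98r_vanish_of_stable [Module.Finite K V₂] (h2 : (2 : K) ≠ 0)
    (hV₂ : finrank K V₂ = 2) (ρ : G →* Module.End K V₂) (c : G) (hc : c * c = 1)
    (htrc : LinearMap.trace K V₂ (ρ c) = 0)
    (N : Submodule K V₂) (hN : ∀ g, ∀ x ∈ N, ρ g x ∈ N) (hbot : N ≠ ⊥) (htop : N ≠ ⊤)
    (g h : G) :
    h98r_projP (ρ c) * ρ g * h98r_projQ (ρ c) * ρ h * h98r_projP (ρ c) = 0 := by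
  have hs : ρ c * ρ c = 1 := by rw [← map_mul, hc, map_one]
  set P := h98r_projP (ρ c) with hPdef
  set Q := h98r_projQ (ρ c) with hQdef
  have hPQ : P + Q = 1 := h98r_projP_add_projQ h2 _
  have hPi : IsIdempotentElem P := h98r_projP_idem h2 _ hs
  have hQi : IsIdempotentElem Q := h98r_projQ_idem h2 _ hs
  have hQP : Q * P = 0 := h98r_projQ_mul_projP _ hs
  have hPQ0 : P * Q = 0 := h98r_projP_mul_projQ _ hs
  have hrP : finrank K (LinearMap.range P) = 1 :=
    h98r_finrank_range_of_trace hV₂ P hPi (h98r_trace_projP h2 hV₂ _ htrc)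
  have hrQ : finrank K (LinearMap.range Q) = 1 :=
    h98r_finrank_range_of_trace hV₂ Q hQi (h98r_trace_projQ h2 hV₂ _ htrc)
  -- `N` is stable under `P` and `Q`
  have hNP : ∀ x ∈ N, P x ∈ N := by
    intro x hx
    have : P x = (2 : K)⁻¹ • (x + ρ c x) := by
      rw [hPdef]; unfold h98r_projP
      rw [LinearMap.smul_apply, LinearMap.add_apply, Module.End.one_apply]
    rw [this]
    exact N.smul_mem _ (N.add_mem hx (hN c x hx))
  have hNQ : ∀ x ∈ N, Q x ∈ N := by
    intro x hx
    have : Q x = (2 : K)⁻¹ • (x - ρ c x) := by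
      rw [hQdef]; unfold h98r_projQ
      rw [LinearMap.smul_apply, LinearMap.sub_apply, Module.End.one_apply]
    rw [this]
    exact N.smul_mem _ (N.sub_mem hx (hN c x hx))
  -- `N` is a line
  have hN1 : finrank K N = 1 := by
    have hle : finrank K N ≤ 2 := hV₂ ▸ Submodule.finrank_le N
    have h0 : finrank K N ≠ 0 := by
      intro h0
      exact hbot (Submodule.finrank_eq_zero.1 h0)
    have h2' : finrank K N ≠ 2 := by
      intro h2'
      exact htop (Submodule.eq_top_of_finrank_eq (h2'.trans hV₂.symm))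
    omega
  obtain ⟨v, hv0, hv⟩ := finrank_eq_one_iff'.1 hN1
  have hv0' : (v : V₂) ≠ 0 := fun h0 => hv0 (Subtype.ext h0)
  have hvsum : (v : V₂) = P v + Q v := by
    rw [← LinearMap.add_apply, hPQ, Module.End.one_apply]
  -- a line contained in a line
  have hline : ∀ (R : Module.End K V₂), finrank K (LinearMap.range R) = 1 →
      ∀ w ∈ LinearMap.range R, w ≠ 0 → ∀ y ∈ LinearMap.range R, ∃ a : K, y = a • w := by
    intro R hR w hw hw0 y hy
    obtain ⟨u, hu0, hu⟩ := finrank_eq_one_iff'.1 hR
    obtain ⟨a, ha⟩ := hu ⟨w, hw⟩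
    obtain ⟨b, hb⟩ := hu ⟨y, hy⟩
    have ha' : a • (u : V₂) = w := by simpa using congrArg Subtype.val ha
    have hb' : b • (u : V₂) = y := by simpa using congrArg Subtype.val hb
    have ha0 : a ≠ 0 := by
      rintro rfl
      rw [zero_smul] at ha'
      exact hw0 ha'.symm
    refine ⟨b * a⁻¹, ?_⟩
    rw [← ha', smul_smul, mul_assoc, inv_mul_cancel₀ ha0, mul_one, hb']
  by_cases hPv : P (v : V₂) = 0
  · -- `v = Q v`, so `range Q = N`, and `P ρ(g) Q = 0`
    have hvQ : Q (v : V₂) = v := by rw [hPv, zero_add] at hvsum; exact hvsum.symm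
    have hPgQ : P * ρ g * Q = 0 := by
      apply LinearMap.ext
      intro x
      obtain ⟨a, ha⟩ := hline Q hrQ v ⟨v, hvQ⟩ hv0' (Q x) (LinearMap.mem_range_self _ _)
      rw [Module.End.mul_apply, Module.End.mul_apply, ha, map_smul, map_smul,
        LinearMap.zero_apply]
      obtain ⟨b, hb⟩ := hv ⟨ρ g v, hN g v v.2⟩
      have hb' : ρ g (v : V₂) = b • (v : V₂) := by
        simpa using (congrArg Subtype.val hb).symm
      rw [hb', map_smul, hPv, smul_zero, smul_zero]
    rw [hPgQ, zero_mul, zero_mul]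
  · -- `P v ≠ 0` lies in `N`, so `N = range P` and `Q ρ(h) P = 0`
    have hPvN : P (v : V₂) ∈ N := hNP v v.2
    obtain ⟨a, ha⟩ := hv ⟨P v, hPvN⟩
    have ha' : a • (v : V₂) = P v := by simpa using congrArg Subtype.val ha
    have ha0 : a ≠ 0 := by
      rintro rfl
      rw [zero_smul] at ha'
      exact hPv ha'.symm
    have hQhP : Q * ρ h * P = 0 := by
      apply LinearMap.ext
      intro x
      obtain ⟨b, hb⟩ := hline P hrP (P v) (LinearMap.mem_range_self _ _) hPv (P x)
        (LinearMap.mem_range_self _ _)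
      rw [Module.End.mul_apply, Module.End.mul_apply, hb, map_smul, map_smul,
        LinearMap.zero_apply]
      -- `ρ h (P v) ∈ N`, so it is a multiple of `P v`, killed by `Q`
      obtain ⟨d, hd⟩ := hv ⟨ρ h (P v), hN h _ hPvN⟩
      have hd' : ρ h (P (v : V₂)) = d • (v : V₂) := by
        simpa using (congrArg Subtype.val hd).symm
      have hvP : (v : V₂) = a⁻¹ • P (v : V₂) := by
        rw [← ha', smul_smul, inv_mul_cancel₀ ha0, one_smul]
      have hQPv : Q (P (v : V₂)) = 0 := by
        rw [← Module.End.mul_apply, hQP, LinearMap.zero_apply]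
      rw [hd', hvP, map_smul, map_smul, hQPv, smul_zero, smul_zero, smul_zero]
    have : P * ρ g * Q * ρ h * P = P * ρ g * (Q * ρ h * P) := by
      simp only [mul_assoc]
    rw [this, hQhP, mul_zero]

/-- **Pseudo-character argument.**  Two plane representations over fields `F → K` of
characteristic `≠ 2` with the same traces, an involution `c` with `tr ρ₁ c = 0`: if `ρ₁` is
irreducible then `ρ₂` is irreducible. -/
theorem h98r_pseudo_irreducible (φ : F →+* K) (h2 : (2 : F) ≠ 0)
    (hV₁ : finrank F V₁ = 2) (hV₂ : finrank K V₂ = 2)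
    (ρ₁ : G →* Module.End F V₁) (ρ₂ : G →* Module.End K V₂)
    (htr : ∀ g, LinearMap.trace K V₂ (ρ₂ g) = φ (LinearMap.trace F V₁ (ρ₁ g)))
    (c : G) (hc : c * c = 1) (htrc : LinearMap.trace F V₁ (ρ₁ c) = 0)
    (hirr : ∀ N : Submodule F V₁, (∀ g, ∀ x ∈ N, ρ₁ g x ∈ N) → N = ⊥ ∨ N = ⊤) :
    ∀ N : Submodule K V₂, (∀ g, ∀ x ∈ N, ρ₂ g x ∈ N) → N = ⊥ ∨ N = ⊤ := by
  have : Module.Finite F V₁ := Module.finite_of_finrank_pos (by omega)
  have : Module.Finite K V₂ := Module.finite_of_finrank_pos (by omega)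
  intro N hN
  by_contra hcon
  rw [not_or] at hcon
  obtain ⟨hbot, htop⟩ := hcon
  have h2K : (2 : K) ≠ 0 := by
    intro h
    apply h2
    apply φ.injective
    rw [map_ofNat, map_zero]
    exact h
  have htrc₂ : LinearMap.trace K V₂ (ρ₂ c) = 0 := by rw [htr, htrc, map_zero]
  have hs₁ : ρ₁ c * ρ₁ c = 1 := by rw [← map_mul, hc, map_one]
  set P := h98r_projP (ρ₁ c) with hPdef
  set Q := h98r_projQ (ρ₁ c) with hQdef
  have hPQ : P + Q = 1 := h98r_projP_add_projQ h2 _
  have hPi : IsIdempotentElem P := h98r_projP_idem h2 _ hs₁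
  have hQi : IsIdempotentElem Q := h98r_projQ_idem h2 _ hs₁
  have hrP : finrank F (LinearMap.range P) = 1 :=
    h98r_finrank_range_of_trace hV₁ P hPi (h98r_trace_projP h2 hV₁ _ htrc)
  have hrQ : finrank F (LinearMap.range Q) = 1 :=
    h98r_finrank_range_of_trace hV₁ Q hQi (h98r_trace_projQ h2 hV₁ _ htrc)
  -- the pseudo-character vanishes on the `ρ₂` side, hence on the `ρ₁` side
  have hx : ∀ g h, LinearMap.trace F V₁ (P * ρ₁ g * Q * ρ₁ h) = 0 := by
    intro g h
    have h0 := h98r_vanish_of_stable h2K hV₂ ρ₂ c hc htrc₂ N hN hbot htop g h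
    have hP₂ : IsIdempotentElem (h98r_projP (ρ₂ c)) :=
      h98r_projP_idem h2K _ (by rw [← map_mul, hc, map_one])
    have h1 : LinearMap.trace K V₂ (h98r_projP (ρ₂ c) * ρ₂ g * h98r_projQ (ρ₂ c) * ρ₂ h) = 0 := by
      have e : LinearMap.trace K V₂ (h98r_projP (ρ₂ c) * ρ₂ g * h98r_projQ (ρ₂ c) * ρ₂ h) =
          LinearMap.trace K V₂
            (h98r_projP (ρ₂ c) * ρ₂ g * h98r_projQ (ρ₂ c) * ρ₂ h * h98r_projP (ρ₂ c)) := by
        rw [LinearMap.trace_mul_comm _ _ (h98r_projP (ρ₂ c))]
        simp only [← mul_assoc]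
        rw [hP₂.eq]
      rw [e, h0, map_zero]
    rw [h98r_trace_formula] at h1
    simp only [htr] at h1
    rw [h98r_trace_formula]
    apply φ.injective
    rw [map_zero, map_mul, map_mul, map_inv₀, map_ofNat, map_sub, map_add, map_sub]
    exact h1
  have hvan : ∀ g h, P * ρ₁ g * Q * ρ₁ h * P = 0 := by
    intro g h
    have := h98r_rank_one P hPi hrP (ρ₁ g * Q * ρ₁ h)
    simp only [← mul_assoc] at this
    rw [this, hx, zero_smul]
  -- ranges of `P`, `Q` are proper nonzero
  have hproper : ∀ R : Module.End F V₁, finrank F (LinearMap.range R) = 1 →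
      LinearMap.range R ≠ ⊥ ∧ LinearMap.range R ≠ ⊤ := by
    intro R hR
    constructor
    · intro h
      rw [h, finrank_bot] at hR
      omega
    · intro h
      rw [h, finrank_top, hV₁] at hR
      omega
  by_cases hcase : ∀ h, Q * ρ₁ h * P = 0
  · -- `range P` is stable
    have hst : ∀ g, ∀ x ∈ LinearMap.range P, ρ₁ g x ∈ LinearMap.range P := by
      rintro g x ⟨y, rfl⟩
      refine ⟨ρ₁ g (P y), ?_⟩
      have h1 : (P + Q) (ρ₁ g (P y)) = ρ₁ g (P y) := by rw [hPQ, Module.End.one_apply]
      have h2' : Q (ρ₁ g (P y)) = 0 := by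
        have := congrArg (fun f : Module.End F V₁ => f y) (hcase g)
        simpa [Module.End.mul_apply] using this
      rw [LinearMap.add_apply, h2', add_zero] at h1
      exact h1
    rcases hirr _ hst with h | h
    · exact (hproper P hrP).1 h
    · exact (hproper P hrP).2 h
  · -- `range Q` is stable
    push Not at hcase
    obtain ⟨h₀, hh₀⟩ := hcase
    obtain ⟨x₀, hx₀⟩ : ∃ x, (Q * ρ₁ h₀ * P) x ≠ 0 := by
      by_contra hall
      push Not at hall
      exact hh₀ (LinearMap.ext hall)
    set u := (Q * ρ₁ h₀ * P) x₀ with hu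
    have huQ : u ∈ LinearMap.range Q := ⟨ρ₁ h₀ (P x₀), by
      rw [hu, Module.End.mul_apply, Module.End.mul_apply]⟩
    have hPgu : ∀ g, P (ρ₁ g u) = 0 := by
      intro g
      have := congrArg (fun f : Module.End F V₁ => f x₀) (hvan g h₀)
      simp only [Module.End.mul_apply, LinearMap.zero_apply] at this
      rw [hu, Module.End.mul_apply, Module.End.mul_apply]
      exact this
    obtain ⟨w, hw0, hw⟩ := finrank_eq_one_iff'.1 hrQ
    obtain ⟨a, ha⟩ := hw ⟨u, huQ⟩
    have ha' : a • (w : V₁) = u := by simpa using congrArg Subtype.val ha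
    have ha0 : a ≠ 0 := by
      rintro rfl
      rw [zero_smul] at ha'
      exact hx₀ ha'.symm
    have hst : ∀ g, ∀ x ∈ LinearMap.range Q, ρ₁ g x ∈ LinearMap.range Q := by
      intro g x hxQ
      obtain ⟨b, hb⟩ := hw ⟨x, hxQ⟩
      have hb' : b • (w : V₁) = x := by simpa using congrArg Subtype.val hb
      have hxu : x = (b * a⁻¹) • u := by
        rw [← ha', smul_smul, mul_assoc, inv_mul_cancel₀ ha0, mul_one, hb']
      refine ⟨ρ₁ g x, ?_⟩
      have h1 : (P + Q) (ρ₁ g x) = ρ₁ g x := by rw [hPQ, Module.End.one_apply]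
      have h2' : P (ρ₁ g x) = 0 := by
        rw [hxu, map_smul, map_smul, hPgu, smul_zero]
      rw [LinearMap.add_apply, h2', zero_add] at h1
      exact h1
    rcases hirr _ hst with h | h
    · exact (hproper Q hrQ).1 h
    · exact (hproper Q hrQ).2 h

end Main

end Fermat.Agent.S58
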