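/-
S58 leaf L6 (helper98): the hypothesis `hres` of S36 for the Galois representations attached to
a newform with the Frobenius traces of an elliptic curve `W` whose mod `p` representation is
irreducible (`p` odd).

`h98r_hres`: if `ρ : GaloisRepAdic O` (`O` local, `p ∈ 𝔪_O`) has Frobenius characteristic
polynomials `X² - a_ℓ(W) X + ℓ` at all primes `ℓ` outside a finite set and `W[p]` is
irreducible, `p ≠ 2`, then `ρ.residual` is absolutely irreducible and odd.
-/
import Fermat.Agent.S58.H98Odd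
import Fermat.Agent.S58.H98Pseudo
import Fermat.Agent.EFrob.DetCyc
import Fermat.Agent.Cheb.CharpolyPow
import Fermat.Prelude.Def_GaloisRep_Adic
import Fermat.Prelude.Def_GaloisRep_ComplexConjugation
import Fermat.Prelude.Def_FLTPrelim_ModularRep

set_option autoImplicit false

namespace Fermat.Agent.S58

open WeierstrassCurve WeierstrassCurve.Affine WeierstrassCurve.Affine.Point Polynomial
open scoped TensorProduct

local notation "Qbar" => AlgebraicClosure ℚ
local notation "Γℚ" => (AlgebraicClosure ℚ ≃ₐ[ℚ] AlgebraicClosure ℚ)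

section LinAlg

variable {F : Type*} [Field F] {V : Type*} [AddCommGroup V] [Module F V]

/-- The characteristic polynomial of an endomorphism of a plane. -/
theorem h98r_charpoly_dim_two (hV : Module.finrank F V = 2) (f : Module.End F V) :
    haveI : Module.Finite F V := Module.finite_of_finrank_pos (by omega)
    f.charpoly = X ^ 2 - C (LinearMap.trace F V f) * X + C (LinearMap.det f) := by
  haveI : Module.Finite F V := Module.finite_of_finrank_pos (by omega)
  let b := Module.finBasisOfFinrankEq F V hV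
  rw [← LinearMap.charpoly_toMatrix f b, Matrix.charpoly_fin_two,
    LinearMap.trace_eq_matrix_trace F b, ← LinearMap.det_toMatrix b]

/-- Endomorphisms of planes with the same characteristic polynomial have powers with the same
trace. -/
theorem h98r_trace_pow_eq {V' : Type*} [AddCommGroup V'] [Module F V']
    [Module.Finite F V] [Module.Finite F V']
    (hV : Module.finrank F V = 2) (hV' : Module.finrank F V' = 2)
    (f : Module.End F V) (f' : Module.End F V')
    (h : f.charpoly = f'.charpoly) (k : ℕ) :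
    LinearMap.trace F V (f ^ k) = LinearMap.trace F V' (f' ^ k) := by
  let b := Module.finBasisOfFinrankEq F V hV
  let b' := Module.finBasisOfFinrankEq F V' hV'
  have hM : (LinearMap.toMatrix b b f).charpoly = (LinearMap.toMatrix b' b' f').charpoly := by
    rw [LinearMap.charpoly_toMatrix f b, LinearMap.charpoly_toMatrix f' b']
    exact h
  have hk := Fermat.Agent.Cheb.charpoly_pow_eq_of_charpoly_eq_fin_two hM k
  rw [Matrix.charpoly_fin_two, Matrix.charpoly_fin_two] at hk
  have h1 := congrArg (fun q => q.coeff 1) hk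
  simp only [coeff_add, coeff_sub, coeff_X_pow, coeff_C_mul, coeff_X_one, coeff_C] at h1
  norm_num at h1
  rw [LinearMap.trace_eq_matrix_trace F b, LinearMap.trace_eq_matrix_trace F b',
    ← LinearMap.toMatrix_pow, ← LinearMap.toMatrix_pow] at *
  exact h1

end LinAlg

section Cheb

/-- The Chebotarev step: every `τ` acts on a given root of unity, on `W[p]` and on a residual
representation as a power of a Frobenius element at a prime outside `S`. -/
theorem h98r_cheb (W : WeierstrassCurve ℤ) (hΔ : W.Δ ≠ 0) (p : ℕ) [Fact p.Prime]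
    {k : Type} [Field k] (ρ : ResidualGaloisRep k) (ζ : Qbar) (S : Finset ℕ) (τ : Γℚ) :
    ∃ (ℓ : ℕ) (A : ValuationSubring Qbar) (σ : Γℚ) (n : ℕ),
      ℓ.Prime ∧ ℓ ∉ S ∧ A.LiesOverPrime ℓ ∧ A.IsFrobeniusAt σ ℓ ∧
      (σ ^ n) ζ = τ ζ ∧
      galoisRepModuleEnd (K := Qbar) ℚ (W.map (Int.castRingHom ℚ)).toAffine p τ =
        (galoisRepModuleEnd (K := Qbar) ℚ (W.map (Int.castRingHom ℚ)).toAffine p σ) ^ n ∧
      ρ.ρ τ = (ρ.ρ σ) ^ n := by
  classical
  have hp : p.Prime := Fact.out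
  have hΔ' : (W.map (Int.castRingHom ℚ)).Δ ≠ 0 := by
    rw [WeierstrassCurve.map_Δ]
    simpa using hΔ
  have : Finite (S13.Tors (W.map (Int.castRingHom ℚ)) p) :=
    Tors.finite_torsionBy_qbar (W.map (Int.castRingHom ℚ)) hΔ' p hp.ne_zero
  obtain ⟨S₁, hS₁⟩ := S13.Asm.exists_finset_fix (W := W.map (Int.castRingHom ℚ)) (p := p)
  obtain ⟨L, hLfin, hL⟩ := ρ.factorsThroughFiniteLevel
  have : Algebra.IsAlgebraic ℚ Qbar := AlgebraicClosure.isAlgebraic ℚ
  have : IsAlgClosure ℚ Qbar := ⟨inferInstance, inferInstance⟩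
  have : Normal ℚ Qbar := IsAlgClosure.normal ℚ Qbar
  let L₁ : IntermediateField ℚ Qbar :=
    IntermediateField.adjoin ℚ ((insert ζ S₁ : Finset Qbar) : Set Qbar)
  have hL₁fin : FiniteDimensional ℚ L₁ :=
    IntermediateField.finiteDimensional_adjoin (fun x _ => (Algebra.IsIntegral.isIntegral x))
  let L₂ : IntermediateField ℚ Qbar := L ⊔ L₁
  have hL₂fin : FiniteDimensional ℚ L₂ := IntermediateField.finiteDimensional_sup L L₁
  let F : IntermediateField ℚ Qbar := IntermediateField.normalClosure ℚ L₂ Qbar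
  have hFfin : FiniteDimensional ℚ F := normalClosure.is_finiteDimensional ℚ L₂ Qbar
  have hFnormal : Normal ℚ F := normalClosure.normal ℚ L₂ Qbar
  have hFgal : IsGalois ℚ F := ⟨⟩
  have hLF : L₂ ≤ F := IntermediateField.le_normalClosure L₂
  obtain ⟨ℓ, A, σ, n, hℓ, hℓS, hA, hσ, hfixL⟩ := Cheb.exists_frobenius_pow_mod F τ S
  refine ⟨ℓ, A, σ, n, hℓ, hℓS, hA, hσ, ?_, ?_, ?_⟩
  · have hζ1 : (τ⁻¹ * σ ^ n) ζ = ζ :=
      hfixL ζ (hLF ((le_sup_right : L₁ ≤ L₂) (IntermediateField.subset_adjoin ℚ _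
        (Finset.mem_coe.2 (Finset.mem_insert_self _ _)))))
    rw [AlgEquiv.mul_apply] at hζ1
    have := congrArg τ hζ1
    rwa [← AlgEquiv.mul_apply, mul_inv_cancel, AlgEquiv.one_apply] at this
  · rw [← map_pow]
    apply LinearMap.ext
    intro Q
    have h1 : (τ⁻¹ * σ ^ n) • Q = Q :=
      hS₁ _ (fun s hs => hfixL s (hLF ((le_sup_right : L₁ ≤ L₂)
        (IntermediateField.subset_adjoin ℚ _
          (Finset.mem_coe.2 (Finset.mem_insert_of_mem hs)))))) Q
    rw [galoisRepModuleEnd_apply, galoisRepModuleEnd_apply]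
    rw [mul_smul, inv_smul_eq_iff] at h1
    exact h1.symm
  · have h1 : ρ.ρ (τ⁻¹ * σ ^ n) = 1 :=
      hL _ (fun x hx => hfixL x (hLF ((le_sup_left : L ≤ L₂) hx)))
    rw [map_mul, map_pow] at h1
    have h2 : ρ.ρ τ * ρ.ρ τ⁻¹ = 1 := by rw [← map_mul, mul_inv_cancel, map_one]
    calc ρ.ρ τ = ρ.ρ τ * (ρ.ρ τ⁻¹ * ρ.ρ σ ^ n) := by rw [h1, mul_one]
      _ = ρ.ρ σ ^ n := by rw [← mul_assoc, h2, one_mul]

end Cheb

section Residual

variable {O : Type} [CommRing O] [IsLocalRing O]

/-- The characteristic polynomial of the residual representation. -/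
theorem h98r_residual_charpoly (ρ : GaloisRepAdic O) (σ : Γℚ) :
    LinearMap.charpoly (ρ.residual.ρ σ) =
      (LinearMap.charpoly (ρ.ρ σ)).map (algebraMap O (IsLocalRing.ResidueField O)) :=
  LinearMap.charpoly_baseChange (ρ.ρ σ) (IsLocalRing.ResidueField O)

/-- Trace and determinant of the residual representation at a Frobenius element. -/
theorem h98r_residual_frob (ρ : GaloisRepAdic O) (σ : Γℚ) (a d : O)
    (h : LinearMap.charpoly (ρ.ρ σ) = X ^ 2 - C a * X + C d) :
    LinearMap.charpoly (ρ.residual.ρ σ) =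
      X ^ 2 - C (algebraMap O (IsLocalRing.ResidueField O) a) * X
        + C (algebraMap O (IsLocalRing.ResidueField O) d) := by
  rw [h98r_residual_charpoly, h]
  simp only [Polynomial.map_add, Polynomial.map_sub, Polynomial.map_mul, Polynomial.map_pow,
    Polynomial.map_X, Polynomial.map_C]

end Residual

section Conj

/-- Complex conjugation is not the identity of `Qbar`. -/
theorem h98r_complexConjugation_ne_one : complexConjugation ≠ 1 := by
  intro h
  obtain ⟨i, hi⟩ := IsAlgClosed.exists_eq_mul_self (-1 : Qbar)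
  have h1 : complexEmbedding (complexConjugation i) = starRingEnd ℂ (complexEmbedding i) :=
    complexEmbedding_complexConjugation i
  rw [h, AlgEquiv.one_apply] at h1
  set z := complexEmbedding i with hz
  have hzz : z * z = -1 := by
    rw [hz, ← map_mul, ← hi, map_neg, map_one]
  have him : z.im = 0 := by
    have := congrArg Complex.im h1
    rw [Complex.conj_im] at this
    linarith
  have hre := congrArg Complex.re hzz
  rw [Complex.mul_re, him] at hre
  simp at hre
  nlinarith [mul_self_nonneg z.re]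

end Conj

section Main

variable (W : WeierstrassCurve ℤ) (p : ℕ) [Fact p.Prime]
  {O : Type} [CommRing O] [IsLocalRing O]

/-- **Oddness** of the residual representation. -/
theorem h98r_residual_isOdd (hΔ : W.Δ ≠ 0) (hp2 : p ≠ 2)
    (hpO : (p : O) ∈ IsLocalRing.maximalIdeal O) (ρ : GaloisRepAdic O) (S : Finset ℕ)
    (hρ : ∀ ℓ : ℕ, ℓ.Prime → ℓ ∉ S → ∀ A : ValuationSubring Qbar, A.LiesOverPrime ℓ →
      ∀ σ : Γℚ, A.IsFrobeniusAt σ ℓ →
        ∃ a : O, LinearMap.charpoly (ρ.ρ σ) = X ^ 2 - C a * X + C (ℓ : O)) :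
    ρ.residual.IsOdd := by
  classical
  intro c hcc hc1
  have hp : p.Prime := Fact.out
  have hpodd : Odd p := hp.odd_of_ne_two hp2
  have : NeZero (p : Qbar) := ⟨Nat.cast_ne_zero.mpr hp.ne_zero⟩
  obtain ⟨ζ, hζ⟩ := HasEnoughRootsOfUnity.exists_primitiveRoot Qbar p
  have hζ0 : ζ ≠ 0 := hζ.ne_zero hp.ne_zero
  have hcζ : c ζ = ζ⁻¹ := h98r_galois_involution_apply_root c hcc hc1 p hpodd ζ hζ.pow_eq_one
  obtain ⟨ℓ, A, σ, n, hℓ, hℓS, hA, hσ, hζσ, -, hρσ⟩ :=
    h98r_cheb W hΔ p ρ.residual ζ (insert p S) c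
  have hℓp : ℓ ≠ p := fun h => hℓS (h ▸ Finset.mem_insert_self _ _)
  have hℓS' : ℓ ∉ S := fun h => hℓS (Finset.mem_insert_of_mem h)
  rw [EFrob.DC_frob_pow_zeta hp hℓ hℓp A hA σ hσ hζ.pow_eq_one, hcζ] at hζσ
  -- `p ∣ ℓ ^ n + 1`
  have hdvd : p ∣ ℓ ^ n + 1 := by
    rw [← hζ.pow_eq_one_iff_dvd, pow_succ, hζσ, inv_mul_cancel₀ hζ0]
  -- `(p : k) = 0`
  have hpk : ((p : ℕ) : IsLocalRing.ResidueField O) = 0 := by
    have := (IsLocalRing.residue_eq_zero_iff (p : O)).2 hpO
    simpa using this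
  have hℓk : ((ℓ : IsLocalRing.ResidueField O)) ^ n = -1 := by
    obtain ⟨m, hm⟩ := hdvd
    have : (((ℓ ^ n + 1 : ℕ)) : IsLocalRing.ResidueField O) = 0 := by
      rw [hm, Nat.cast_mul, hpk, zero_mul]
    push_cast at this
    linear_combination this
  obtain ⟨a, ha⟩ := hρ ℓ hℓ hℓS' A hA σ hσ
  have hch := h98r_residual_frob ρ σ a (ℓ : O) ha
  have hdet : LinearMap.det (ρ.residual.ρ σ) = (ℓ : IsLocalRing.ResidueField O) := by
    rw [LinearMap.det_eq_sign_charpoly_coeff, ρ.residual.finrank_eq, hch]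
    simp
  rw [hρσ, map_pow, hdet, hℓk]

/-- **Absolute irreducibility** of the residual representation. -/
theorem h98r_residual_isAbsolutelyIrreducible (hΔ : W.Δ ≠ 0) (hp2 : p ≠ 2)
    (hirr : W.ModRepIsIrreducible p)
    (hpO : (p : O) ∈ IsLocalRing.maximalIdeal O) (ρ : GaloisRepAdic O) (S : Finset ℕ)
    (hρ : ∀ ℓ : ℕ, ℓ.Prime → ℓ ∉ S → ∀ A : ValuationSubring Qbar, A.LiesOverPrime ℓ →
      ∀ σ : Γℚ, A.IsFrobeniusAt σ ℓ →
        LinearMap.charpoly (ρ.ρ σ) = X ^ 2 - C ((W.apOfModel ℓ : ℤ) : O) * X + C (ℓ : O)) :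
    ρ.residual.IsAbsolutelyIrreducible := by
  classical
  have hp : p.Prime := Fact.out
  have hpodd : Odd p := hp.odd_of_ne_two hp2
  have hΔ' : (W.map (Int.castRingHom ℚ)).Δ ≠ 0 := by
    rw [WeierstrassCurve.map_Δ]
    simpa using hΔ
  have hV₁ := Tors.finrank_torsionBy_qbar (W.map (Int.castRingHom ℚ)) hΔ' p
  -- the fields
  let k := IsLocalRing.ResidueField O
  let K := AlgebraicClosure k
  have hpk : ((p : ℕ) : k) = 0 := by
    have := (IsLocalRing.residue_eq_zero_iff (p : O)).2 hpO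
    simpa using this
  have hpK : ((p : ℕ) : K) = 0 := by
    have := congrArg (algebraMap k K) hpk
    simpa using this
  haveI : CharP K p := (CharP.charP_iff_prime_eq_zero hp).2 hpK
  let φ : ZMod p →+* K := ZMod.castHom (dvd_refl p) K
  letI : Algebra (ZMod p) K := φ.toAlgebra
  have h2 : (2 : ZMod p) ≠ 0 := by
    intro h
    have h' : ((2 : ℕ) : ZMod p) = 0 := by exact_mod_cast h
    rw [ZMod.natCast_eq_zero_iff] at h'
    exact hp2 ((Nat.prime_dvd_prime_iff_eq hp Nat.prime_two).1 h')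
  -- complex conjugation
  have : NeZero (p : Qbar) := ⟨Nat.cast_ne_zero.mpr hp.ne_zero⟩
  obtain ⟨ζ, hζ⟩ := HasEnoughRootsOfUnity.exists_primitiveRoot Qbar p
  have hζ0 : ζ ≠ 0 := hζ.ne_zero hp.ne_zero
  have hcc : complexConjugation * complexConjugation = 1 := complexConjugation_mul_self
  have hcζ : complexConjugation ζ = ζ ^ (p - 1) := by
    rw [h98r_galois_involution_apply_root complexConjugation hcc h98r_complexConjugation_ne_one
      p hpodd ζ hζ.pow_eq_one]
    apply inv_eq_of_mul_eq_one_left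
    rw [← pow_succ, Nat.sub_add_cancel hp.pos, hζ.pow_eq_one]
  -- the two representations
  let ρ₁ := galoisRepModuleEnd (K := Qbar) ℚ (W.map (Int.castRingHom ℚ)).toAffine p
  have hdetc : LinearMap.det (ρ₁ complexConjugation) = -1 := by
    rw [EFrob.galoisDet_eq_of_zeta W hΔ hp hζ complexConjugation (p - 1) hcζ,
      Nat.cast_sub hp.pos, ZMod.natCast_self, zero_sub, Nat.cast_one]
  have hs₁ : ρ₁ complexConjugation * ρ₁ complexConjugation = 1 := by
    rw [← map_mul, hcc, map_one]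
  have : Module.Finite (ZMod p) (Submodule.torsionBy ℤ
      ((W.map (Int.castRingHom ℚ))⁄Qbar).Point p) := Module.finite_of_finrank_pos (by omega)
  have htrc : LinearMap.trace (ZMod p) _ (ρ₁ complexConjugation) = 0 :=
    h98r_trace_eq_zero_of_det hV₁ _ hs₁ hdetc
  have hV₂ : Module.finrank K (ρ.residual.baseChange K).V = 2 :=
    (ρ.residual.baseChange K).finrank_eq
  -- irreducibility of `ρ₁`
  have hirr₁ : ∀ N : Submodule (ZMod p) (Submodule.torsionBy ℤ
      ((W.map (Int.castRingHom ℚ))⁄Qbar).Point p),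
      (∀ g, ∀ x ∈ N, ρ₁ g x ∈ N) → N = ⊥ ∨ N = ⊤ := by
    intro N hN
    exact hirr.2 N (fun σ x hx => hN σ x hx)
  -- equality of traces
  have htr : ∀ g, LinearMap.trace K (ρ.residual.baseChange K).V ((ρ.residual.baseChange K).ρ g)
      = φ (LinearMap.trace (ZMod p) _ (ρ₁ g)) := by
    intro g
    obtain ⟨ℓ, A, σ, n, hℓ, hℓS, hA, hσ, -, hE, hρσ⟩ :=
      h98r_cheb W hΔ p ρ.residual ζ (insert p (S ∪ W.Δ.natAbs.primeFactors)) g
    simp only [Finset.mem_insert, Finset.mem_union, Nat.mem_primeFactors, not_or, not_and,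
      ne_eq, Int.natAbs_eq_zero] at hℓS
    obtain ⟨hℓp, hℓS', hℓΔ⟩ := hℓS
    have hgood : W.IsGoodPrimeFor ℓ := by
      intro hdvd
      exact hℓΔ hℓ (Int.natCast_dvd.1 hdvd) hΔ
    -- the characteristic polynomials at `σ`
    have hch₁ : LinearMap.charpoly (ρ₁ σ) =
        X ^ 2 - C (((W.apOfModel ℓ : ℤ) : ZMod p)) * X + C ((ℓ : ZMod p)) := by
      rw [h98r_charpoly_dim_two hV₁ (ρ₁ σ), ← galoisTrace_def,
        EFrob.galoisTrace_frobenius W hℓ hp hℓp hgood A hA σ hσ,
        EFrob.galoisDet_frobenius W hℓ hp hℓp hgood A hA σ hσ]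
    have hch₂ := h98r_residual_frob ρ σ _ _ (hρ ℓ hℓ hℓS' A hA σ hσ)
    have hb₁ : LinearMap.charpoly ((ρ₁ σ).baseChange K) =
        X ^ 2 - C (((W.apOfModel ℓ : ℤ) : K)) * X + C ((ℓ : K)) := by
      have e1 : algebraMap (ZMod p) K ((W.apOfModel ℓ : ℤ) : ZMod p) =
          ((W.apOfModel ℓ : ℤ) : K) := map_intCast _ _
      have e2 : algebraMap (ZMod p) K ((ℓ : ℕ) : ZMod p) = ((ℓ : ℕ) : K) := map_natCast _ _
      rw [LinearMap.charpoly_baseChange, hch₁]
      simp only [Polynomial.map_add, Polynomial.map_sub, Polynomial.map_mul,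
        Polynomial.map_pow, Polynomial.map_X, Polynomial.map_C, e1, e2]
    have hb₂ : LinearMap.charpoly ((ρ.residual.ρ σ).baseChange K) =
        X ^ 2 - C (((W.apOfModel ℓ : ℤ) : K)) * X + C ((ℓ : K)) := by
      have e1 : algebraMap (IsLocalRing.ResidueField O) K
          (algebraMap O (IsLocalRing.ResidueField O)
          ((W.apOfModel ℓ : ℤ) : O)) = ((W.apOfModel ℓ : ℤ) : K) := by
        rw [map_intCast, map_intCast]
      have e2 : algebraMap (IsLocalRing.ResidueField O) K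
          (algebraMap O (IsLocalRing.ResidueField O) ((ℓ : ℕ) : O)) =
          ((ℓ : ℕ) : K) := by
        rw [map_natCast, map_natCast]
      rw [LinearMap.charpoly_baseChange, hch₂]
      simp only [Polynomial.map_add, Polynomial.map_sub, Polynomial.map_mul,
        Polynomial.map_pow, Polynomial.map_X, Polynomial.map_C, e1, e2]
    have hfr₁ : Module.finrank K (K ⊗[ZMod p] (Submodule.torsionBy ℤ
        ((W.map (Int.castRingHom ℚ))⁄Qbar).Point p)) = 2 := by
      rw [Module.finrank_baseChange, hV₁]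
    have key := h98r_trace_pow_eq hfr₁ hV₂ ((ρ₁ σ).baseChange K)
      ((ρ.residual.ρ σ).baseChange K) (hb₁.trans hb₂.symm) n
    rw [← LinearMap.baseChange_pow, ← LinearMap.baseChange_pow, LinearMap.trace_baseChange,
      LinearMap.trace_baseChange] at key
    have e₂ : (ρ.residual.baseChange K).ρ g = (ρ.residual.ρ g).baseChange K := rfl
    rw [e₂, LinearMap.trace_baseChange, hρσ, ← key, hE]
    rfl
  intro N hN
  exact h98r_pseudo_irreducible φ h2 hV₁ hV₂ ρ₁ (ρ.residual.baseChange K).ρ htr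
    complexConjugation hcc htrc hirr₁ N hN

/-- **L6 (hres of hirr).**  The residual representation of any `ρ` with the Frobenius
characteristic polynomials of `W` outside a finite set is absolutely irreducible and odd, if
`W[p]` is irreducible and `p` is odd. -/
theorem h98r_hres (hΔ : W.Δ ≠ 0) (hp2 : p ≠ 2) (hirr : W.ModRepIsIrreducible p)
    (hpO : (p : O) ∈ IsLocalRing.maximalIdeal O) (ρ : GaloisRepAdic O) (S : Finset ℕ)
    (hρ : ∀ ℓ : ℕ, ℓ.Prime → ℓ ∉ S → ∀ A : ValuationSubring Qbar, A.LiesOverPrime ℓ →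
      ∀ σ : Γℚ, A.IsFrobeniusAt σ ℓ →
        LinearMap.charpoly (ρ.ρ σ) = X ^ 2 - C ((W.apOfModel ℓ : ℤ) : O) * X + C (ℓ : O)) :
    ρ.residual.IsAbsolutelyIrreducible ∧ ρ.residual.IsOdd :=
  ⟨h98r_residual_isAbsolutelyIrreducible W p hΔ hp2 hirr hpO ρ S hρ,
    h98r_residual_isOdd W p hΔ hp2 hpO ρ S
      (fun ℓ hℓ hℓS A hA σ hσ => ⟨_, hρ ℓ hℓ hℓS A hA σ hσ⟩)⟩

end Main

end Fermat.Agent.S58
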