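/-
S58 leaf (helper98): involutions of an algebraically closed field of characteristic `≠ 2`
invert the roots of unity of odd order (Artin–Schreier style, Mathlib only).

Main results:
* `h98r_fixed_pow_odd_eq_one` : a fixed point `η` of a nontrivial involution `c` with
  `η ^ n = 1`, `n` odd, is `1`;
* `h98r_involution_apply_root` : `c ζ = ζ⁻¹` for `ζ ^ n = 1`, `n` odd;
* `h98r_galois_involution_apply_root` : the same for `c : Gal(ℚ̄/ℚ)` with `c * c = 1`, `c ≠ 1`.
-/
import Mathlib

namespace Fermat.Agent.S58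

section Involution

variable {K : Type*} [Field K] [IsAlgClosed K]

omit [IsAlgClosed K] in
/-- There is an anti-invariant nonzero element. -/
theorem h98r_exists_anti (c : K →+* K) (hne : ∃ x, c x ≠ x) (hc : ∀ x, c (c x) = x) :
    ∃ δ : K, δ ≠ 0 ∧ c δ = -δ := by
  obtain ⟨x, hx⟩ := hne
  refine ⟨x - c x, fun h => hx (sub_eq_zero.mp h).symm, ?_⟩
  rw [map_sub, hc]; ring

/-- `-1` has no square root fixed by a nontrivial involution. -/
theorem h98r_sqrt_neg_one_not_fixed (h2 : (2 : K) ≠ 0) (c : K →+* K)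
    (hc : ∀ x, c (c x) = x) (hne : ∃ x, c x ≠ x) (i : K) (hi : i * i = -1) : c i ≠ i := by
  intro hfix
  obtain ⟨δ, hδ0, hδ⟩ := h98r_exists_anti c hne hc
  obtain ⟨γ, hγ⟩ := IsAlgClosed.exists_eq_mul_self δ
  -- `N = γ * c γ` is fixed, `N ^ 2 = - δ ^ 2`
  set N : K := γ * c γ with hN
  have hNsq : N * N = -(δ * δ) := by
    have h1 : c δ = c γ * c γ := by rw [hγ, map_mul]
    have : N * N = (γ * γ) * (c γ * c γ) := by rw [hN]; ring
    rw [this, ← hγ, ← h1, hδ]; ring
  have he : (i * N) * (i * N) = δ * δ := by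
    have : (i * N) * (i * N) = (i * i) * (N * N) := by ring
    rw [this, hi, hNsq]; ring
  have hcN : c N = N := by rw [hN, map_mul, hc]; ring
  have hce : c (i * N) = i * N := by rw [map_mul, hfix, hcN]
  have hprod : (δ - i * N) * (δ + i * N) = 0 := by
    have : (δ - i * N) * (δ + i * N) = δ * δ - (i * N) * (i * N) := by ring
    rw [this, he, sub_self]
  have h2δ : (2 : K) * δ ≠ 0 := mul_ne_zero h2 hδ0
  rcases mul_eq_zero.mp hprod with h | h
  · have hδe : δ = i * N := sub_eq_zero.mp h
    have : c δ = δ := by rw [hδe]; exact hce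
    rw [hδ] at this
    apply h2δ
    linear_combination -this
  · have hδe : δ = -(i * N) := by linear_combination h
    have : c δ = δ := by rw [hδe, map_neg, hce]
    rw [hδ] at this
    apply h2δ
    linear_combination -this

/-- A square root of `-1` is negated by a nontrivial involution. -/
theorem h98r_apply_sqrt_neg_one (h2 : (2 : K) ≠ 0) (c : K →+* K)
    (hc : ∀ x, c (c x) = x) (hne : ∃ x, c x ≠ x) (i : K) (hi : i * i = -1) : c i = -i := by
  have h1 : c i * c i = -1 := by rw [← map_mul, hi, map_neg, map_one]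
  have hprod : (c i - i) * (c i + i) = 0 := by
    have : (c i - i) * (c i + i) = c i * c i - i * i := by ring
    rw [this, h1, hi, sub_self]
  rcases mul_eq_zero.mp hprod with h | h
  · exact absurd (sub_eq_zero.mp h) (h98r_sqrt_neg_one_not_fixed h2 c hc hne i hi)
  · linear_combination h

/-- Every element is `a + b * i` with `a`, `b` fixed. -/
theorem h98r_exists_decomp (h2 : (2 : K) ≠ 0) (c : K →+* K)
    (hc : ∀ x, c (c x) = x) (hne : ∃ x, c x ≠ x) (i : K) (hi : i * i = -1) (y : K) :
    ∃ a b : K, c a = a ∧ c b = b ∧ y = a + b * i := by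
  have hci := h98r_apply_sqrt_neg_one h2 c hc hne i hi
  have hi0 : i ≠ 0 := by
    intro h
    rw [h, mul_zero] at hi
    exact one_ne_zero (neg_eq_zero.mp hi.symm)
  have hc2 : c 2 = 2 := map_ofNat c 2
  refine ⟨(y + c y) / 2, (y - c y) / (2 * i), ?_, ?_, ?_⟩
  · rw [map_div₀, map_add, hc, hc2]; ring
  · rw [map_div₀, map_sub, map_mul, hc, hc2, hci]
    field_simp
    ring
  · field_simp
    ring

/-- In the fixed field of a nontrivial involution, a sum of two squares is a square. -/
theorem h98r_sum_two_squares (h2 : (2 : K) ≠ 0) (c : K →+* K)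
    (hc : ∀ x, c (c x) = x) (hne : ∃ x, c x ≠ x) (a b : K) (ha : c a = a) (hb : c b = b) :
    ∃ s : K, c s = s ∧ s * s = a * a + b * b := by
  obtain ⟨i, hi⟩ := IsAlgClosed.exists_eq_mul_self (-1 : K)
  have hi' : i * i = -1 := hi.symm
  have hci := h98r_apply_sqrt_neg_one h2 c hc hne i hi'
  obtain ⟨w, hw⟩ := IsAlgClosed.exists_eq_mul_self (a + b * i)
  obtain ⟨x, y, hx, hy, hxy⟩ := h98r_exists_decomp h2 c hc hne i hi' w
  refine ⟨x * x + y * y, by rw [map_add, map_mul, map_mul, hx, hy], ?_⟩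
  -- `(x+yi)^2 = a + b i`; apply `c`: `(x - y i)^2 = a - b i`
  have e1 : (x + y * i) * (x + y * i) = a + b * i := by rw [← hxy, ← hw]
  have e2 : (x - y * i) * (x - y * i) = a - b * i := by
    have := congrArg c e1
    simp only [map_mul, map_add, hx, hy, hci, ha, hb] at this
    linear_combination this
  have e3 : (x * x + y * y) = (x + y * i) * (x - y * i) := by
    have : (x + y * i) * (x - y * i) = x * x - y * y * (i * i) := by ring
    rw [this, hi']; ring
  have e4 : a * a + b * b = (a + b * i) * (a - b * i) := by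
    have : (a + b * i) * (a - b * i) = a * a - b * b * (i * i) := by ring
    rw [this, hi']; ring
  rw [e4, ← e1, ← e2, e3]; ring

/-- In the fixed field of a nontrivial involution, a finite sum of squares is a square. -/
theorem h98r_sum_squares (h2 : (2 : K) ≠ 0) (c : K →+* K)
    (hc : ∀ x, c (c x) = x) (hne : ∃ x, c x ≠ x) (n : ℕ) (f : ℕ → K)
    (hf : ∀ k, c (f k) = f k) :
    ∃ s : K, c s = s ∧ s * s = ∑ k ∈ Finset.range n, f k * f k := by
  induction n with
  | zero => exact ⟨0, map_zero c, by simp⟩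
  | succ n ih =>
    obtain ⟨s, hs, hss⟩ := ih
    obtain ⟨t, ht, htt⟩ := h98r_sum_two_squares h2 c hc hne s (f n) hs (hf n)
    exact ⟨t, ht, by rw [Finset.sum_range_succ, htt, hss]⟩

/-- A root of unity of odd order fixed by a nontrivial involution of an algebraically closed
field of characteristic `≠ 2` is trivial. -/
theorem h98r_fixed_pow_odd_eq_one (h2 : (2 : K) ≠ 0) (c : K →+* K)
    (hc : ∀ x, c (c x) = x) (hne : ∃ x, c x ≠ x) (n : ℕ) (hn : Odd n) (η : K)
    (hη : c η = η) (hηn : η ^ n = 1) : η = 1 := by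
  by_contra hη1
  obtain ⟨m, rfl⟩ := hn
  -- geometric sum vanishes
  have hgeom : ∑ k ∈ Finset.range (2 * m + 1), η ^ k = 0 := by
    have h := mul_geom_sum η (2 * m + 1)
    rw [hηn, sub_self] at h
    rcases mul_eq_zero.mp h with h | h
    · exact absurd (sub_eq_zero.mp h) hη1
    · exact h
  set θ : K := η ^ (m + 1) with hθ
  have hθ2 : θ * θ = η := by
    rw [hθ, ← pow_add]
    have : m + 1 + (m + 1) = (2 * m + 1) + 1 := by ring
    rw [this, pow_succ, hηn, one_mul]
  have hcθ : c θ = θ := by rw [hθ, map_pow, hη]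
  obtain ⟨s, hs, hss⟩ := h98r_sum_squares h2 c hc hne (2 * m) (fun k => θ ^ (k + 1))
    (fun k => by rw [map_pow, hcθ])
  have hsum : ∑ k ∈ Finset.range (2 * m), θ ^ (k + 1) * θ ^ (k + 1) = -1 := by
    have h1 : ∀ k, θ ^ (k + 1) * θ ^ (k + 1) = η ^ (k + 1) := by
      intro k
      rw [← mul_pow, hθ2]
    simp only [h1]
    rw [Finset.sum_range_succ'] at hgeom
    simp only [pow_zero] at hgeom
    linear_combination hgeom
  rw [hsum] at hss
  exact h98r_sqrt_neg_one_not_fixed h2 c hc hne s hss hs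

/-- A nontrivial involution of an algebraically closed field of characteristic `≠ 2` inverts
every root of unity of odd order. -/
theorem h98r_involution_apply_root (h2 : (2 : K) ≠ 0) (c : K →+* K)
    (hc : ∀ x, c (c x) = x) (hne : ∃ x, c x ≠ x) (n : ℕ) (hn : Odd n) (ζ : K)
    (hζ : ζ ^ n = 1) : c ζ = ζ⁻¹ := by
  have h1 : ζ * c ζ = 1 := by
    apply h98r_fixed_pow_odd_eq_one h2 c hc hne n hn
    · rw [map_mul, hc, mul_comm]
    · rw [mul_pow, ← map_pow, hζ, map_one, one_mul]
  exact eq_inv_of_mul_eq_one_right h1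

end Involution

/-- Every involution `c ≠ 1` of `Gal(ℚ̄/ℚ)` inverts the roots of unity of odd order. -/
theorem h98r_galois_involution_apply_root
    (c : AlgebraicClosure ℚ ≃ₐ[ℚ] AlgebraicClosure ℚ) (hcc : c * c = 1) (hc1 : c ≠ 1)
    (n : ℕ) (hn : Odd n) (ζ : AlgebraicClosure ℚ) (hζ : ζ ^ n = 1) : c ζ = ζ⁻¹ := by
  have hc : ∀ x, (c : AlgebraicClosure ℚ →+* AlgebraicClosure ℚ) ((c : AlgebraicClosure ℚ →+*
      AlgebraicClosure ℚ) x) = x := by
    intro x
    have := congrArg (fun f : AlgebraicClosure ℚ ≃ₐ[ℚ] AlgebraicClosure ℚ => f x) hcc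
    simpa using this
  have hne : ∃ x, (c : AlgebraicClosure ℚ →+* AlgebraicClosure ℚ) x ≠ x := by
    by_contra h
    exact hc1 (AlgEquiv.ext fun x => by
      by_contra hx
      exact h ⟨x, by simpa using hx⟩)
  exact h98r_involution_apply_root (two_ne_zero) (c : AlgebraicClosure ℚ →+* AlgebraicClosure ℚ)
    hc hne n hn ζ hζ

end Fermat.Agent.S58
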