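import Fermat.Agent.S58.H78Unip2

/-!
# S58, E-side (helper78): nodal translates in residue characteristic `2`, and the final statement

* `h78u_nodal_of_roots` : the translate of `W` by the `2`-torsion point with abscissa `e`
  (an integral root of the `2`-division cubic such that `(e - e')(e - e'')` is a non-unit) is a
  nodal model; no hypothesis on the residue characteristic.
* `h78u_exists_nodal2`  : existence of such a root when `2` is a non-unit (exactly one root of
  the `2`-division cubic is not integral, the two others are congruent).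
* `h78u_unipotent_int`  : **unipotent inertia** on the torsion of order prime to `ℓ` of an
  integral model semistable at `ℓ`, for every prime `ℓ` (including `ℓ = 2`).
-/

set_option autoImplicit false
set_option linter.unusedSectionVars false

namespace Fermat.Agent.S58

open WeierstrassCurve Fermat.Agent.S05 Fermat.Agent.S05.H76 Fermat.Agent.S13 Fermat.Agent.S52
open scoped WeierstrassCurve.Affine

section Nodal

variable {K : Type*} [Field K] [DecidableEq K]

/-- The nodal translate at an integral root `e` of the `2`-division cubic. -/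
theorem h78u_nodal_of_roots [IsAlgClosed K] (A : ValuationSubring K) (W : WeierstrassCurve K)
    (ha₁ : W.a₁ ∈ A) (ha₂ : W.a₂ ∈ A) (h20 : (2 : K) ≠ 0) (hc₄ : A.valuation W.c₄ = 1)
    {e e' e'' : K} (he : e ∈ A)
    (hb : W.b₂ = 4 * -(e + e' + e'')) (hc : 2 * W.b₄ = 4 * (e * e' + e * e'' + e' * e''))
    (hd : W.b₆ = 4 * -(e * e' * e'')) (hne' : e ≠ e') (hne'' : e ≠ e'')
    (hsmall : A.valuation ((e - e') * (e - e'')) < 1) :
    ∃ t r₁ r₂ : K, NodalVal A.valuation (h78_vc e t • W) r₁ r₂ := by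
  obtain ⟨d, hdsq⟩ := IsAlgClosed.exists_pow_nat_eq (W.b₂ + 12 * e) (n := 2) (by norm_num)
  obtain ⟨t, h3⟩ : ∃ t : K, W.a₃ + e * W.a₁ + 2 * t = 0 :=
    ⟨-(W.a₃ + e * W.a₁) / 2, by field_simp; ring⟩
  -- the coefficient `a₄` of the translate
  have hw : (h78_vc e t • W).a₄ = (e - e') * (e - e'') := by
    rw [h78_vc_a₄]
    apply mul_left_cancel₀ (mul_ne_zero h20 h20)
    simp only [WeierstrassCurve.b₂, WeierstrassCurve.b₄] at hb hc
    linear_combination hc + 2 * e * hb - 2 * W.a₁ * h3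
  have hw6 : (h78_vc e t • W).a₆ = 0 := by
    rw [h78_vc_a₆]
    apply mul_left_cancel₀ (mul_ne_zero h20 h20)
    simp only [WeierstrassCurve.b₂, WeierstrassCurve.b₄, WeierstrassCurve.b₆] at hb hc hd
    linear_combination hd + e * hc + e ^ 2 * hb - (W.a₃ + e * W.a₁ + 2 * t) * h3
  have hwv : A.valuation ((h78_vc e t • W).a₄) < 1 := by rw [hw]; exact hsmall
  -- the unit `d`
  have hdv : A.valuation d = 1 := by
    have e1 : (d ^ 2) ^ 2 = W.c₄ + 48 * (h78_vc e t • W).a₄ := by
      rw [hdsq, hw]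
      simp only [WeierstrassCurve.c₄]
      linear_combination (24 : K) * e * hb + 12 * hc
    have h48 : A.valuation (48 * (h78_vc e t • W).a₄) < 1 := by
      rw [map_mul]
      have : A.valuation (48 : K) ≤ 1 := by
        apply (A.valuation_le_one_iff _).mpr
        have : (48 : K) = ((48 : ℕ) : K) := by norm_num
        rw [this]; exact _root_.natCast_mem A 48
      calc A.valuation (48 : K) * A.valuation ((h78_vc e t • W).a₄)
          ≤ 1 * A.valuation ((h78_vc e t • W).a₄) := by gcongr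
        _ < 1 := by rw [one_mul]; exact hwv
    have e2 : A.valuation ((d ^ 2) ^ 2) = 1 := by
      have := Valuation.map_add_eq_of_lt_left A.valuation (x := W.c₄)
        (y := 48 * (h78_vc e t • W).a₄) (by rw [hc₄]; exact h48)
      rw [e1, this, hc₄]
    rw [map_pow, map_pow, ← pow_mul] at e2
    exact (pow_eq_one_iff_of_nonneg zero_le (by norm_num)).mp e2
  have h3A : (3 : K) ∈ A := by
    have : (3 : K) = ((3 : ℕ) : K) := by norm_num
    rw [this]; exact _root_.natCast_mem A 3
  have hcoef : W.a₂ + 3 * e ∈ A := add_mem ha₂ (mul_mem h3A he)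
  have hr₁ : (-W.a₁ + d) / 2 ∈ A := by
    refine H97.root_mem A ha₁ hcoef ?_
    simp only [WeierstrassCurve.b₂] at hdsq
    field_simp
    linear_combination hdsq
  have hr₂ : (-W.a₁ - d) / 2 ∈ A := by
    refine H97.root_mem A ha₁ hcoef ?_
    simp only [WeierstrassCurve.b₂] at hdsq
    field_simp
    linear_combination hdsq
  refine ⟨t, (-W.a₁ + d) / 2, (-W.a₁ - d) / 2, ?_⟩
  refine ⟨⟨?_, ?_, ?_, hw6⟩, ?_, ?_, ?_, hwv, ?_⟩
  · rw [h78_vc_a₁]; field_simp; ring
  · rw [h78_vc_a₂]
    apply mul_left_cancel₀ (mul_ne_zero h20 h20)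
    simp only [WeierstrassCurve.b₂] at hdsq
    field_simp
    linear_combination -hdsq
  · rw [h78_vc_a₃]; exact h3
  · exact (A.valuation_le_one_iff _).mpr hr₁
  · exact (A.valuation_le_one_iff _).mpr hr₂
  · have : (-W.a₁ + d) / 2 - (-W.a₁ - d) / 2 = d := by field_simp; ring
    rw [this]; exact hdv
  · rw [hw]
    exact mul_ne_zero (sub_ne_zero.mpr hne') (sub_ne_zero.mpr hne'')

/-- a non-integral root `r` of the `2`-division cubic satisfies `v (4 r) = 1` (when `b₂` is a
unit) -/
theorem h78u_nonint_root (A : ValuationSubring K) {b c d r : K} (hb : A.valuation b = 1)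
    (hc : c ∈ A) (hd : d ∈ A) (hr : 4 * r ^ 3 + b * r ^ 2 + c * r + d = 0) (hrA : r ∉ A) :
    A.valuation (4 * r) = 1 := by
  have hv : 1 < A.valuation r := by
    by_contra h
    push Not at h
    exact hrA ((A.valuation_le_one_iff r).mp h)
  have hr0 : A.valuation r ≠ 0 := fun h => by rw [h] at hv; exact not_lt_zero hv
  have hpos : 0 < A.valuation r := zero_lt_iff.mpr hr0
  have hc' := (A.valuation_le_one_iff c).mpr hc
  have hd' := (A.valuation_le_one_iff d).mpr hd
  have h1r : A.valuation r < A.valuation r ^ 2 := by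
    rw [pow_two]
    exact lt_mul_of_one_lt_right hpos hv
  have e : 4 * r * r ^ 2 = -(b * r ^ 2 + (c * r + d)) := by linear_combination hr
  have h1 : A.valuation (b * r ^ 2 + (c * r + d)) = A.valuation r ^ 2 := by
    rw [Valuation.map_add_eq_of_lt_left]
    · rw [map_mul, hb, one_mul, map_pow]
    · rw [map_mul, hb, one_mul, map_pow]
      refine Valuation.map_add_lt _ ?_ ?_
      · rw [map_mul]
        exact lt_of_le_of_lt (mul_le_of_le_one_left hpos.le hc') h1r
      · exact lt_of_le_of_lt hd' (hv.trans h1r)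
  have h2 := congrArg A.valuation e
  rw [map_mul, Valuation.map_neg, h1, map_pow] at h2
  have h3 : A.valuation (4 * r) * A.valuation r ^ 2 = 1 * A.valuation r ^ 2 := by
    rw [h2, one_mul]
  exact mul_right_cancel₀ (pow_ne_zero 2 hr0) h3

/-- two roots of the `2`-division cubic cannot both be non-integral -/
theorem h78u_not_two (A : ValuationSubring K) {b c d x y z : K} (h2 : A.valuation (2 : K) < 1)
    (hbv : A.valuation b = 1) (hcA : c ∈ A) (hdA : d ∈ A)
    (hb : b = 4 * -(x + y + z)) (hc : 2 * c = 4 * (x * y + x * z + y * z))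
    (hd : d = 4 * -(x * y * z)) (hx : x ∉ A) (hz : z ∉ A) : False := by
  have h2le : A.valuation (2 : K) ≤ 1 := h2.le
  have h4 : A.valuation (4 : K) < 1 := by
    have : (4 : K) = 2 * 2 := by norm_num
    rw [this, map_mul]
    calc A.valuation (2 : K) * A.valuation (2 : K) ≤ 1 * A.valuation (2 : K) := by gcongr
      _ = A.valuation (2 : K) := one_mul _
      _ < 1 := h2
  have h2A : (2 : K) ∈ A := (A.valuation_le_one_iff _).mp h2le
  have h2cA : 2 * c ∈ A := mul_mem h2A hcA
  have root : ∀ r : K, (r - x) * (r - y) * (r - z) = 0 →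
      4 * r ^ 3 + b * r ^ 2 + 2 * c * r + d = 0 := by
    intro r hr
    rw [hb, hc, hd]
    linear_combination 4 * hr
  have hvx : A.valuation (4 * x) = 1 :=
    h78u_nonint_root A hbv h2cA hdA (root x (by ring)) hx
  have hvz : A.valuation (4 * z) = 1 :=
    h78u_nonint_root A hbv h2cA hdA (root z (by ring)) hz
  by_cases hy : y ∈ A
  · -- the second elementary symmetric function
    have e : 4 * x * (4 * z) = 8 * c - (4 * y * (4 * x) + 4 * y * (4 * z)) := by
      linear_combination -4 * hc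
    have h4y : A.valuation (4 * y) < 1 := by
      rw [map_mul]
      calc A.valuation (4 : K) * A.valuation y ≤ A.valuation (4 : K) * 1 := by
            gcongr
            exact (A.valuation_le_one_iff _).mpr hy
        _ = A.valuation (4 : K) := mul_one _
        _ < 1 := h4
    have h8c : A.valuation (8 * c) < 1 := by
      have : (8 : K) * c = 4 * (2 * c) := by ring
      rw [this, map_mul]
      calc A.valuation (4 : K) * A.valuation (2 * c) ≤ A.valuation (4 : K) * 1 := by
            gcongr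
            exact (A.valuation_le_one_iff _).mpr h2cA
        _ = A.valuation (4 : K) := mul_one _
        _ < 1 := h4
    have hlt : A.valuation (8 * c - (4 * y * (4 * x) + 4 * y * (4 * z))) < 1 := by
      refine Valuation.map_sub_lt _ h8c (Valuation.map_add_lt _ ?_ ?_)
      · rw [map_mul, hvx, mul_one]; exact h4y
      · rw [map_mul, hvz, mul_one]; exact h4y
    rw [← e, map_mul, hvx, hvz, one_mul] at hlt
    exact lt_irrefl _ hlt
  · -- the product of the roots
    have hvy : A.valuation (4 * y) = 1 :=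
      h78u_nonint_root A hbv h2cA hdA (root y (by ring)) hy
    have e : 4 * x * (4 * y) * (4 * z) = -(16 * d) := by
      linear_combination 16 * hd
    have h16 : A.valuation (16 * d) < 1 := by
      have : (16 : K) * d = 4 * (4 * d) := by ring
      rw [this, map_mul]
      have h4A : (4 : K) ∈ A := (A.valuation_le_one_iff _).mp h4.le
      calc A.valuation (4 : K) * A.valuation (4 * d) ≤ A.valuation (4 : K) * 1 := by
            gcongr
            exact (A.valuation_le_one_iff _).mpr (mul_mem h4A hdA)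
        _ = A.valuation (4 : K) := mul_one _
        _ < 1 := h4
    have := congrArg A.valuation e
    rw [map_mul, map_mul, hvx, hvy, hvz, Valuation.map_neg, one_mul, one_mul] at this
    rw [← this] at h16
    exact lt_irrefl _ h16

/-- the core case: `x, y` integral, `z` not integral -/
theorem h78u_nodal_core [IsAlgClosed K] (A : ValuationSubring K) (W : WeierstrassCurve K)
    (ha₁ : W.a₁ ∈ A) (ha₂ : W.a₂ ∈ A) (ha₃ : W.a₃ ∈ A) (ha₄ : W.a₄ ∈ A) (ha₆ : W.a₆ ∈ A)
    (h20 : (2 : K) ≠ 0) (h2 : A.valuation (2 : K) < 1) (hbv : A.valuation W.b₂ = 1)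
    (hΔ : W.Δ ≠ 0) (hΔm : A.valuation W.Δ < 1) (hc₄ : A.valuation W.c₄ = 1) {x y z : K}
    (hb : W.b₂ = 4 * -(x + y + z)) (hc : 2 * W.b₄ = 4 * (x * y + x * z + y * z))
    (hd : W.b₆ = 4 * -(x * y * z))
    (hdisc : (16 : K) * W.Δ = (4 * 4 * (x - y) * (x - z) * (y - z)) ^ 2)
    (hx : x ∈ A) (hy : y ∈ A) (hz : z ∉ A) :
    ∃ e t r₁ r₂ : K, e ∈ A ∧ NodalVal A.valuation (h78_vc e t • W) r₁ r₂ := by
  have h2le : A.valuation (2 : K) ≤ 1 := h2.le
  have h2A : (2 : K) ∈ A := (A.valuation_le_one_iff _).mp h2le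
  have h4eq : A.valuation (4 : K) = A.valuation (2 : K) * A.valuation (2 : K) := by
    have : (4 : K) = 2 * 2 := by norm_num
    rw [this, map_mul]
  have h4 : A.valuation (4 : K) < 1 := by
    rw [h4eq]
    calc A.valuation (2 : K) * A.valuation (2 : K) ≤ 1 * A.valuation (2 : K) := by gcongr
      _ = A.valuation (2 : K) := one_mul _
      _ < 1 := h2
  have h40 : (4 : K) ≠ 0 := by
    have : (4 : K) = 2 * 2 := by norm_num
    rw [this]; exact mul_ne_zero h20 h20
  have h4ne : A.valuation (4 : K) ≠ 0 := (A.valuation.ne_zero_iff).mpr h40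
  have h4A : (4 : K) ∈ A := (A.valuation_le_one_iff _).mp h4.le
  have hb₄ : W.b₄ ∈ A := by
    simp only [WeierstrassCurve.b₄]
    exact add_mem (mul_mem h2A ha₄) (mul_mem ha₁ ha₃)
  have hb₆ : W.b₆ ∈ A := by
    simp only [WeierstrassCurve.b₆]
    exact add_mem (pow_mem ha₃ 2) (mul_mem h4A ha₆)
  have h2b₄ : 2 * W.b₄ ∈ A := mul_mem h2A hb₄
  have hroot : 4 * z ^ 3 + W.b₂ * z ^ 2 + 2 * W.b₄ * z + W.b₆ = 0 := by
    rw [hb, hc, hd]; ring
  have hvz : A.valuation (4 * z) = 1 := h78u_nonint_root A hbv h2b₄ hb₆ hroot hz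
  have hsmall4 : ∀ u : K, u ∈ A → A.valuation (4 * u) < 1 := by
    intro u hu
    rw [map_mul]
    calc A.valuation (4 : K) * A.valuation u ≤ A.valuation (4 : K) * 1 := by
          gcongr
          exact (A.valuation_le_one_iff _).mpr hu
      _ = A.valuation (4 : K) := mul_one _
      _ < 1 := h4
  have hxz : A.valuation (4 * (x - z)) = 1 := by
    have : 4 * (x - z) = 4 * x - 4 * z := by ring
    rw [this, Valuation.map_sub_eq_of_lt_right _ (by rw [hvz]; exact hsmall4 x hx), hvz]
  have hyz : A.valuation (4 * (y - z)) = 1 := by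
    have : 4 * (y - z) = 4 * y - 4 * z := by ring
    rw [this, Valuation.map_sub_eq_of_lt_right _ (by rw [hvz]; exact hsmall4 y hy), hvz]
  -- distinct roots
  have hprod : (x - y) * (x - z) * (y - z) ≠ 0 := by
    intro h0
    apply hΔ
    have h1 : (16 : K) * W.Δ = 0 := by
      rw [hdisc]
      have : 4 * 4 * (x - y) * (x - z) * (y - z) = 4 * 4 * ((x - y) * (x - z) * (y - z)) := by
        ring
      rw [this, h0]; ring
    have h16 : (16 : K) ≠ 0 := by
      have : (16 : K) = 4 * 4 := by norm_num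
      rw [this]; exact mul_ne_zero h40 h40
    exact (mul_eq_zero.mp h1).resolve_left h16
  have hxy : x ≠ y := fun h => hprod (by rw [h]; ring)
  have hxz' : x ≠ z := fun h => hprod (by rw [h]; ring)
  -- the size of `a₄`
  have e1 : A.valuation ((16 : K) * W.Δ) = A.valuation (x - y) ^ 2 := by
    have : (4 * 4 * (x - y) * (x - z) * (y - z)) ^ 2
        = ((x - y) * (4 * (x - z)) * (4 * (y - z))) ^ 2 := by ring
    rw [hdisc, this, map_pow, map_mul, map_mul, hxz, hyz, mul_one, mul_one]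
  have e2 : A.valuation (4 : K) * A.valuation ((x - y) * (x - z)) = A.valuation (x - y) := by
    have : (4 : K) * ((x - y) * (x - z)) = (x - y) * (4 * (x - z)) := by ring
    rw [← map_mul, this, map_mul, hxz, mul_one]
  have e3 : A.valuation ((x - y) * (x - z)) ^ 2 = A.valuation W.Δ := by
    have h16 : A.valuation (16 : K) = A.valuation (4 : K) ^ 2 := by
      have : (16 : K) = 4 ^ 2 := by norm_num
      rw [this, map_pow]
    have h5 : A.valuation (4 : K) ^ 2 * A.valuation ((x - y) * (x - z)) ^ 2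
        = A.valuation (4 : K) ^ 2 * A.valuation W.Δ := by
      rw [← mul_pow, e2, ← e1, map_mul, h16]
    exact mul_left_cancel₀ (pow_ne_zero 2 h4ne) h5
  have hsmall : A.valuation ((x - y) * (x - z)) < 1 := by
    by_contra hcon
    push Not at hcon
    have : (1 : A.ValueGroup) ≤ A.valuation ((x - y) * (x - z)) ^ 2 := one_le_pow₀ hcon
    rw [e3] at this
    exact absurd hΔm (not_lt.mpr this)
  obtain ⟨t, r₁, r₂, hV⟩ := h78u_nodal_of_roots A W ha₁ ha₂ h20 hc₄ hx hb hc hd hxy hxz' hsmall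
  exact ⟨x, t, r₁, r₂, hx, hV⟩

/-- **Existence of a nodal translate** in the case of multiplicative reduction, residue
characteristic `2`. -/
theorem h78u_exists_nodal2 [IsAlgClosed K] (A : ValuationSubring K) (W : WeierstrassCurve K)
    (ha₁ : W.a₁ ∈ A) (ha₂ : W.a₂ ∈ A) (ha₃ : W.a₃ ∈ A) (ha₄ : W.a₄ ∈ A) (ha₆ : W.a₆ ∈ A)
    (h20 : (2 : K) ≠ 0) (h2 : A.valuation (2 : K) < 1) (hΔ : W.Δ ≠ 0)
    (hΔm : A.valuation W.Δ < 1) (hc₄ : A.valuation W.c₄ = 1) :
    ∃ e t r₁ r₂ : K, e ∈ A ∧ NodalVal A.valuation (h78_vc e t • W) r₁ r₂ := by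
  have h2le : A.valuation (2 : K) ≤ 1 := h2.le
  have h2A : (2 : K) ∈ A := (A.valuation_le_one_iff _).mp h2le
  have h4 : A.valuation (4 : K) < 1 := by
    have : (4 : K) = 2 * 2 := by norm_num
    rw [this, map_mul]
    calc A.valuation (2 : K) * A.valuation (2 : K) ≤ 1 * A.valuation (2 : K) := by gcongr
      _ = A.valuation (2 : K) := one_mul _
      _ < 1 := h2
  have h40 : (4 : K) ≠ 0 := by
    have : (4 : K) = 2 * 2 := by norm_num
    rw [this]; exact mul_ne_zero h20 h20
  have h4A : (4 : K) ∈ A := (A.valuation_le_one_iff _).mp h4.le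
  have hb₄ : W.b₄ ∈ A := by
    simp only [WeierstrassCurve.b₄]
    exact add_mem (mul_mem h2A ha₄) (mul_mem ha₁ ha₃)
  have hb₆ : W.b₆ ∈ A := by
    simp only [WeierstrassCurve.b₆]
    exact add_mem (pow_mem ha₃ 2) (mul_mem h4A ha₆)
  -- `b₂` is a unit
  have hbv : A.valuation W.b₂ = 1 := by
    have e1 : W.b₂ ^ 2 = W.c₄ + 24 * W.b₄ := by
      simp only [WeierstrassCurve.c₄]; ring
    have h24 : A.valuation (24 * W.b₄) < 1 := by
      have : (24 : K) * W.b₄ = 4 * (6 * W.b₄) := by ring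
      rw [this, map_mul]
      have h6 : (6 : K) ∈ A := by
        have : (6 : K) = ((6 : ℕ) : K) := by norm_num
        rw [this]; exact _root_.natCast_mem A 6
      calc A.valuation (4 : K) * A.valuation (6 * W.b₄) ≤ A.valuation (4 : K) * 1 := by
            gcongr
            exact (A.valuation_le_one_iff _).mpr (mul_mem h6 hb₄)
        _ = A.valuation (4 : K) := mul_one _
        _ < 1 := h4
    have e2 : A.valuation (W.b₂ ^ 2) = 1 := by
      rw [e1, Valuation.map_add_eq_of_lt_left _ (by rw [hc₄]; exact h24), hc₄]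
    rw [map_pow] at e2
    exact (pow_eq_one_iff_of_nonneg zero_le (by norm_num)).mp e2
  set P := W.twoTorsionPolynomial with hP
  have ha : P.a ≠ 0 := h40
  have hsplit : (P.toPoly.map (RingHom.id K)).Splits := IsAlgClosed.splits _
  obtain ⟨x, y, z, h3⟩ := (Cubic.splits_iff_roots_eq_three ha).mp hsplit
  have hb : W.b₂ = 4 * -(x + y + z) := Cubic.b_eq_three_roots ha h3
  have hc : 2 * W.b₄ = 4 * (x * y + x * z + y * z) := Cubic.c_eq_three_roots ha h3
  have hd : W.b₆ = 4 * -(x * y * z) := Cubic.d_eq_three_roots ha h3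
  have hdisc : (16 : K) * W.Δ = (4 * 4 * (x - y) * (x - z) * (y - z)) ^ 2 := by
    rw [← W.twoTorsionPolynomial_discr]
    exact Cubic.discr_eq_prod_three_roots ha h3
  -- not all roots are integral
  have hnot : ¬ (x ∈ A ∧ y ∈ A ∧ z ∈ A) := by
    rintro ⟨hx, hy, hz⟩
    have : A.valuation W.b₂ < 1 := by
      rw [hb, map_mul]
      calc A.valuation (4 : K) * A.valuation (-(x + y + z)) ≤ A.valuation (4 : K) * 1 := by
            gcongr
            exact (A.valuation_le_one_iff _).mpr (neg_mem (add_mem (add_mem hx hy) hz))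
        _ = A.valuation (4 : K) := mul_one _
        _ < 1 := h4
    rw [hbv] at this
    exact lt_irrefl _ this
  by_cases hz : z ∈ A
  · by_cases hy : y ∈ A
    · -- `x` is the non-integral root
      have hx : x ∉ A := fun hx => hnot ⟨hx, hy, hz⟩
      obtain ⟨e, t, r₁, r₂, he, hV⟩ := h78u_nodal_core A W ha₁ ha₂ ha₃ ha₄ ha₆ h20 h2 hbv hΔ hΔm
        hc₄ (x := y) (y := z) (z := x) (by rw [hb]; ring) (by rw [hc]; ring) (by rw [hd]; ring)
        (by rw [hdisc]; ring) hy hz hx
      exact ⟨e, t, r₁, r₂, he, hV⟩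
    · -- `y` is the non-integral root
      have hx : x ∈ A := by
        by_contra hx
        exact h78u_not_two A h2 hbv hb₄ hb₆ (x := x) (y := z) (z := y) (by rw [hb]; ring)
          (by rw [hc]; ring) (by rw [hd]; ring) hx hy
      obtain ⟨e, t, r₁, r₂, he, hV⟩ := h78u_nodal_core A W ha₁ ha₂ ha₃ ha₄ ha₆ h20 h2 hbv hΔ hΔm
        hc₄ (x := x) (y := z) (z := y) (by rw [hb]; ring) (by rw [hc]; ring) (by rw [hd]; ring)
        (by rw [hdisc]; ring) hx hz hy
      exact ⟨e, t, r₁, r₂, he, hV⟩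
  · -- `z` is the non-integral root
    have hx : x ∈ A := by
      by_contra hx
      exact h78u_not_two A h2 hbv hb₄ hb₆ hb hc hd hx hz
    have hy : y ∈ A := by
      by_contra hy
      exact h78u_not_two A h2 hbv hb₄ hb₆ (x := y) (y := x) (z := z) (by rw [hb]; ring)
        (by rw [hc]; ring) (by rw [hd]; ring) hy hz
    exact h78u_nodal_core A W ha₁ ha₂ ha₃ ha₄ ha₆ h20 h2 hbv hΔ hΔm hc₄ hb hc hd hdisc hx hy hz

end Nodal

local notation "Qbar" => AlgebraicClosure ℚ

/-- **Unipotent inertia** for an integral model semistable at the prime `ℓ` (any `ℓ`, including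
`ℓ = 2`): for `σ` in the inertia group of a place `A` over `ℓ` and every point `P` of order prime
to `ℓ`, `(σ - 1)² P = 0`. -/
theorem h78u_unipotent_int (W : WeierstrassCurve ℤ) (hΔ : W.Δ ≠ 0) {ℓ : ℕ} (hℓ : ℓ.Prime)
    (hss : (ℓ : ℤ) ∣ W.Δ → ¬ (ℓ : ℤ) ∣ W.c₄) (A : ValuationSubring Qbar)
    (hA : A.LiesOverPrime ℓ) {n : ℕ} (hn : ¬ ℓ ∣ n) {σ : Qbar ≃ₐ[ℚ] Qbar}
    (hσ : σ ∈ A.inertiaSubgroupIn ℚ) (P : ((W.map (Int.castRingHom ℚ))⁄Qbar).Point)
    (hP : n • P = 0) : σ • (σ • P - P) = σ • P - P := by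
  by_cases hℓ2 : ℓ = 2
  swap
  · exact h78_unipotent_int W hΔ hℓ hℓ2 hss A hA hn hσ P hP
  have hAq : ((ℓ : ℕ) : Qbar) ∈ A.nonunits := hA
  obtain ⟨ha₁, ha₂, ha₃, ha₄, ha₆⟩ := h78_coeff_mem W A
  have h2 : A.valuation (2 : Qbar) < 1 := by
    have h := A.mem_nonunits_iff.mp hAq
    rw [hℓ2] at h
    simpa using h
  have h20 : (2 : Qbar) ≠ 0 := two_ne_zero
  have hnu : ((n : ℕ) : Qbar) ∉ A.nonunits := by
    have h : ¬ (ℓ : ℤ) ∣ (n : ℤ) := by
      intro h; exact hn (by exact_mod_cast h)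
    have := intCast_isUnitOf_of_not_dvd (K := Qbar) hℓ hAq h
    have h' := this.not_nonunit A
    simpa using h'
  have hII := kernelTorsionFree A (W := ((W.map (Int.castRingHom ℚ))⁄Qbar)) ha₁ ha₂ ha₃ ha₄ ha₆
    hnu
  by_cases hdvd : (ℓ : ℤ) ∣ W.Δ
  · -- multiplicative reduction
    have hc₄ : A.valuation ((W.map (Int.castRingHom ℚ))⁄Qbar).c₄ = 1 := by
      rw [h78_c₄_eq]
      exact intCast_isUnitOf_of_not_dvd (K := Qbar) hℓ hAq (hss hdvd)
    have hΔ0 : ((W.map (Int.castRingHom ℚ))⁄Qbar).Δ ≠ 0 := by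
      rw [h78_Δ_eq]
      exact_mod_cast hΔ
    have hΔm : A.valuation ((W.map (Int.castRingHom ℚ))⁄Qbar).Δ < 1 := by
      rw [h78_Δ_eq]
      obtain ⟨k, hk⟩ := hdvd
      rw [hk]
      push_cast
      rw [map_mul]
      have h1 : A.valuation ((ℓ : ℕ) : Qbar) < 1 := A.mem_nonunits_iff.mp hAq
      have h2' : A.valuation ((k : ℤ) : Qbar) ≤ 1 :=
        (A.valuation_le_one_iff _).mpr (_root_.intCast_mem A k)
      calc A.valuation ((ℓ : ℕ) : Qbar) * A.valuation ((k : ℤ) : Qbar)
          ≤ A.valuation ((ℓ : ℕ) : Qbar) * 1 := by gcongr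
        _ < 1 := by rw [mul_one]; exact h1
    obtain ⟨e, t, r₁, r₂, he, hV⟩ := h78u_exists_nodal2 A ((W.map (Int.castRingHom ℚ))⁄Qbar)
      ha₁ ha₂ ha₃ ha₄ ha₆ h20 h2 hΔ0 hΔm hc₄
    exact h78u_inertia_unipotent (R := ℚ) (S := ℚ) (W.map (Int.castRingHom ℚ)) A ha₁ ha₂ ha₃ ha₄
      ha₆ hV h20 he hσ (L2.inertia_valuation_eq A hℓ hA hσ) hnu P hP
  · -- good reduction
    have hΔu : ((W.map (Int.castRingHom ℚ))⁄Qbar).Δ ∉ A.nonunits := by
      rw [h78_Δ_eq]
      exact (intCast_isUnitOf_of_not_dvd (K := Qbar) hℓ hAq hdvd).not_nonunit A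
    have key : ∀ Q : ((W.map (Int.castRingHom ℚ))⁄Qbar).Point, n • Q = 0 → σ • Q = Q :=
      fun Q hQ => H86.inertia_smul_eq_of_good (R := ℚ) (S := ℚ) (W.map (Int.castRingHom ℚ)) A
        ha₁ ha₂ ha₃ ha₄ ha₆ hΔu n hII hσ Q hQ
    rw [key P hP, sub_self]
    exact smul_zero σ

end Fermat.Agent.S58
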