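import Fermat.Agent.EFrob.Main

/-!
# S58, E-side (helper78): the Eichler–Shimura relation on `E[m]`, every `m` prime to `ℓ`

`Fermat.Agent.EFrob.finalRelU` gives `σ² Q - a_ℓ σ Q + ℓ Q = 0` on `E[p](Qbar)`, `p` prime.  The
generic transfer lemma `T_rel_of_core` works for every torsion order prime to `ℓ`; here is the
resulting statement, as needed for the `λ`-adic Tate module (`m = λ ^ n`).
-/

set_option autoImplicit false

namespace Fermat.Agent.S58

open WeierstrassCurve WeierstrassCurve.Affine Fermat.Agent.EFrob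

local notation "Qbar" => AlgebraicClosure ℚ

/-- **Eichler–Shimura relation on `E[m](Qbar)`** for a Frobenius element `σ` at a place `A` over a
good prime `ℓ ∤ m`: `σ² Q - a_ℓ σ Q + ℓ Q = 0`. -/
theorem h78e_frobRel (W : WeierstrassCurve ℤ) {ℓ : ℕ} (hℓ : ℓ.Prime)
    (hgood : W.IsGoodPrimeFor ℓ) (A : ValuationSubring Qbar) (hA : A.LiesOverPrime ℓ)
    (σ : Qbar ≃ₐ[ℚ] Qbar) (hσ : A.IsFrobeniusAt σ ℓ) {m : ℕ} (hm : ¬ ℓ ∣ m)
    (Q : ((W.map (Int.castRingHom ℚ))⁄Qbar).Point) (hQ : m • Q = 0) :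
    σ • σ • Q - (W.apOfModel ℓ) • σ • Q + (ℓ : ℤ) • Q = 0 := by
  let _ : DecidableEq (IsLocalRing.ResidueField A) := Classical.decEq _
  have : Fact ℓ.Prime := ⟨hℓ⟩
  have : CharP (IsLocalRing.ResidueField A) ℓ := T_charP_residueField A hℓ hA
  have : IsAlgClosed (IsLocalRing.ResidueField A) := T_isAlgClosed_residueField A
  obtain ⟨red, hred1, hred2⟩ := Fermat.Agent.EFrob.red Qbar A (IsLocalRing.ResidueField A)
    (IsLocalRing.residue A) (T_residue_eq_zero_iff A) W (T_Δ_notMem_nonunits A W hℓ hgood hA)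
  have hcore := coreU ℓ (IsLocalRing.ResidueField A) W
    (T_good_of_charP W (IsLocalRing.ResidueField A) ℓ hgood)
  have hQ' : m • pointCongr (T_baseChange_eq W) Q = 0 := by
    rw [← map_nsmul, hQ, map_zero]
  have hmu : (m : Qbar) ∉ A.nonunits := by
    intro h
    have h1 : ((m : ℤ) : Qbar) ∈ A.nonunits := by exact_mod_cast h
    rw [T_intCast_mem_nonunits_iff A hℓ hA] at h1
    exact hm (by exact_mod_cast h1)
  have key := T_rel_of_core (V := A) (π := IsLocalRing.residue A) red hred1 hred2 ℓ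
    (σ : Qbar →+* Qbar).toIntAlgHom
    (T_apply_mem_iff_of_mem_decomp hσ.mem_decompositionSubgroup)
    (fun x hx _ => T_residue_apply_of_isFrobeniusAt hσ hx)
    (W.apOfModel ℓ) hcore hmu
    (pointCongr (T_baseChange_eq W) Q) hQ'
  apply (pointCongr (T_baseChange_eq W)).injective
  rw [map_zero, map_add, map_sub, map_zsmul, map_zsmul, T_congr_smul, T_congr_smul]
  exact key

end Fermat.Agent.S58
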