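import Fermat.Agent.S58.H78TransAlg
import Fermat.Agent.S58.H78FrobRel
import Fermat.Agent.S34.DetInertia
import Fermat.Agent.S30.CycCharAdic
import Fermat.Agent.Cheb.WeakChebotarev
import Fermat.Agent.S13.AsmGroups

/-!
# S58, leaf L2 (helper78): charpoly transfer from `E[lam ^ n]` to a `lam`-adic representation

Let `ρ : GaloisRepAdic O` (`O` noetherian local, `lam` a non-unit) be such that for every prime
`r` outside a finite set `S₀` every Frobenius element at `r` has characteristic polynomial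
`X² - a_r(W) X + r` (hypothesis `HCP`).  Then for **every** `σ ∈ Gal(Qbar/ℚ)`:

`h78t_trace_det` : if `σ² - t₀ σ + d₀ = 0` on `E[lam ^ n](Qbar)` for all `n` (`t₀ d₀ : ℤ`) and the
`lam`-adic cyclotomic character takes the value `d₀` at `σ`, then `tr ρ(σ) = t₀` and
`det ρ(σ) = d₀`.

Proof: weak Chebotarev (`σ = f ^ k` on a finite extension, `f` a Frobenius at a good prime
`ℓ ∉ S₀`), the Lucas identity on both sides, and the Krull intersection theorem.  No comparison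
of representations, no irreducibility.
-/

set_option autoImplicit false

open Polynomial

namespace Fermat.Agent.S58

open WeierstrassCurve WeierstrassCurve.Affine
open Fermat.Agent.S29 (GQ)
open Fermat.Agent.S30 (acTrace)
open Fermat.Agent.S31 (TI_Small TI_approx_T TI_map_acTrace)
open Fermat.Agent.S34 (DI_det_sub_one_mem DI_det_of_charpoly)

local notation "Qbar" => AlgebraicClosure ℚ

/-- The hypothesis `HCP`: Frobenius characteristic polynomials of `ρ` are those of `W` outside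
the finite set `S₀`. -/
def h78t_HCP (W : WeierstrassCurve ℤ) {O : Type} [CommRing O] [IsLocalRing O]
    (ρ : GaloisRepAdic O) (S₀ : Finset ℕ) : Prop :=
  ∀ r : ℕ, r.Prime → r ∉ S₀ → ∀ A : ValuationSubring Qbar, A.LiesOverPrime r →
    ∀ f : Qbar ≃ₐ[ℚ] Qbar, A.IsFrobeniusAt f r →
      LinearMap.charpoly (ρ.ρ f) = X ^ 2 - C ((W.apOfModel r : ℤ) : O) * X + C ((r : ℕ) : O)

/-- An integer divisible by `lam ^ n` lies in the `n`-th power of the maximal ideal. -/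
theorem h78t_cast_mem {lam : ℕ} {O : Type} [CommRing O] [IsLocalRing O]
    (hlamO : (lam : O) ∈ IsLocalRing.maximalIdeal O) {n : ℕ} {c : ℤ}
    (h : ((lam ^ n : ℕ) : ℤ) ∣ c) : (c : O) ∈ IsLocalRing.maximalIdeal O ^ n := by
  obtain ⟨e, he⟩ := h
  have h2 : (c : O) = (lam : O) ^ n * (e : O) := by
    have := congrArg (Int.cast : ℤ → O) he
    push_cast at this
    exact this
  rw [h2]
  exact Ideal.mul_mem_right _ _ (Ideal.pow_mem_pow hlamO n)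

/-- Membership of an integer in `m ^ n ⊆ ℤ_[lam]` is divisibility by `lam ^ n`. -/
theorem h78t_dvd_of_mem {lam : ℕ} [Fact lam.Prime] {n : ℕ} {c : ℤ}
    (h : (c : ℤ_[lam]) ∈ IsLocalRing.maximalIdeal ℤ_[lam] ^ n) : ((lam ^ n : ℕ) : ℤ) ∣ c := by
  rw [PadicInt.maximalIdeal_eq_span_p, Ideal.span_singleton_pow, Ideal.mem_span_singleton] at h
  have := (PadicInt.pow_p_dvd_int_iff n c).mp h
  exact_mod_cast this

/-- Evaluation of a quadratic expression in the endomorphism ring of an abelian group. -/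
theorem h78t_end_eval {M : Type*} [AddCommGroup M] (φ ψ : AddMonoid.End M) (a d : ℤ) (x : M) :
    (φ * ψ - (a : AddMonoid.End M) * ψ + (d : AddMonoid.End M)) x
      = φ (ψ x) - a • ψ x + d • x := rfl

/-- The Lucas form of the Eichler–Shimura relation: for a Frobenius element `f` at a good prime
`ℓ ∤ m`, `f ^ k` satisfies `X² - V_k X + ℓ ^ k` on `E[m](Qbar)`. -/
theorem h78t_frobPowRel (W : WeierstrassCurve ℤ) {ℓ : ℕ} (hℓ : ℓ.Prime)
    (hgood : W.IsGoodPrimeFor ℓ) (A : ValuationSubring Qbar) (hA : A.LiesOverPrime ℓ)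
    (f : Qbar ≃ₐ[ℚ] Qbar) (hf : A.IsFrobeniusAt f ℓ) {m : ℕ} (hm : ¬ ℓ ∣ m) (k : ℕ)
    (Q : ((W.map (Int.castRingHom ℚ))⁄Qbar).Point) (hQ : m • Q = 0) :
    (f ^ k) • (f ^ k) • Q - (acTrace (W.apOfModel ℓ) (ℓ : ℤ) k) • (f ^ k) • Q
      + ((ℓ : ℤ) ^ k) • Q = 0 := by
  set T := Submodule.torsionBy ℤ ((W.map (Int.castRingHom ℚ))⁄Qbar).Point (m : ℕ) with hT
  set φ : AddMonoid.End T := DistribMulAction.toAddMonoidEnd (Qbar ≃ₐ[ℚ] Qbar) T f with hφ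
  have hrel : φ * φ - ((W.apOfModel ℓ : ℤ) : AddMonoid.End T) * φ
      + (((ℓ : ℤ) : ℤ) : AddMonoid.End T) = 0 := by
    refine DFunLike.ext _ _ fun x => ?_
    refine (h78t_end_eval φ φ _ _ x).trans ?_
    apply Subtype.ext
    have hx : m • (x : ((W.map (Int.castRingHom ℚ))⁄Qbar).Point) = 0 := by
      have := x.2
      rw [Submodule.mem_torsionBy_iff] at this
      rw [← natCast_zsmul]
      exact this
    exact h78e_frobRel W hℓ hgood A hA f hf hm (x : _) hx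
  have hluc := h78t_lucas φ (W.apOfModel ℓ) (ℓ : ℤ) hrel k
  have hQm : Q ∈ T := by
    rw [hT, Submodule.mem_torsionBy_iff, natCast_zsmul]
    exact hQ
  have hφk : φ ^ k = DistribMulAction.toAddMonoidEnd (Qbar ≃ₐ[ℚ] Qbar) T (f ^ k) := by
    rw [hφ, map_pow]
  rw [hφk] at hluc
  have h1 := (h78t_end_eval (DistribMulAction.toAddMonoidEnd (Qbar ≃ₐ[ℚ] Qbar) T (f ^ k))
    (DistribMulAction.toAddMonoidEnd (Qbar ≃ₐ[ℚ] Qbar) T (f ^ k))
    (acTrace (W.apOfModel ℓ) (ℓ : ℤ) k) ((ℓ : ℤ) ^ k) ⟨Q, hQm⟩).symm.trans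
    (congrArg (fun g : AddMonoid.End T => g ⟨Q, hQm⟩) hluc)
  exact congrArg Subtype.val h1

/-- The `E`-side of the transfer at level `m`: if `σ` acts on `E[m]` as `f ^ k` (`f` a Frobenius
element at a good prime `ℓ ∤ m`), satisfies `σ² - t₀ σ + d₀ = 0` on `E[m]`, and `d₀ ≡ ℓ ^ k` mod `m`,
then `t₀ ≡ V_k(a_ℓ, ℓ)` mod `m`. -/
theorem h78t_Eside (W : WeierstrassCurve ℤ) (hΔ : W.Δ ≠ 0) {ℓ : ℕ} (hℓ : ℓ.Prime)
    (hgood : W.IsGoodPrimeFor ℓ) (A : ValuationSubring Qbar) (hA : A.LiesOverPrime ℓ)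
    (f : Qbar ≃ₐ[ℚ] Qbar) (hf : A.IsFrobeniusAt f ℓ) {m : ℕ} (hm0 : m ≠ 0) (hm : ¬ ℓ ∣ m)
    (σ : Qbar ≃ₐ[ℚ] Qbar) (k : ℕ)
    (hσ : ∀ Q : ((W.map (Int.castRingHom ℚ))⁄Qbar).Point, m • Q = 0 → σ • Q = (f ^ k) • Q)
    (t₀ d₀ : ℤ) (hd : (m : ℤ) ∣ d₀ - (ℓ : ℤ) ^ k)
    (hrel : ∀ Q : ((W.map (Int.castRingHom ℚ))⁄Qbar).Point, m • Q = 0 →
        σ • σ • Q - t₀ • σ • Q + d₀ • Q = 0) :
    (m : ℤ) ∣ acTrace (W.apOfModel ℓ) (ℓ : ℤ) k - t₀ := by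
  have hΔ' : (W.map (Int.castRingHom ℚ)).Δ ≠ 0 := by
    rw [WeierstrassCurve.map_Δ]
    simpa using hΔ
  refine h78t_dvd_of_kills (W.map (Int.castRingHom ℚ)) hΔ' hm0 _ ?_
  intro Q' hQ'
  have hcomm : ∀ (τ : Qbar ≃ₐ[ℚ] Qbar) (P : ((W.map (Int.castRingHom ℚ))⁄Qbar).Point),
      m • P = 0 → m • (τ • P) = 0 := by
    intro τ P hP
    have h := map_nsmul (DistribSMul.toAddMonoidHom
      ((W.map (Int.castRingHom ℚ))⁄Qbar).Point τ) m P
    rw [hP, map_zero] at h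
    exact h.symm
  set Q := σ⁻¹ • Q' with hQdef
  have hQ : m • Q = 0 := hcomm σ⁻¹ Q' hQ'
  have hσQ : σ • Q = Q' := smul_inv_smul σ Q'
  have hσQm : m • (σ • Q) = 0 := hcomm σ Q hQ
  have h1 := h78t_frobPowRel W hℓ hgood A hA f hf hm k Q hQ
  rw [← hσ Q hQ, ← hσ (σ • Q) hσQm] at h1
  have h2 := hrel Q hQ
  have hdQ : (d₀ - (ℓ : ℤ) ^ k) • Q = 0 := by
    obtain ⟨e, he⟩ := hd
    rw [he, mul_comm, mul_smul, natCast_zsmul, hQ]
    exact zsmul_zero _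
  have key : (acTrace (W.apOfModel ℓ) (ℓ : ℤ) k - t₀) • (σ • Q) =
      (σ • σ • Q - t₀ • σ • Q + d₀ • Q)
        - (σ • σ • Q - (acTrace (W.apOfModel ℓ) (ℓ : ℤ) k) • σ • Q + ((ℓ : ℤ) ^ k) • Q)
        - (d₀ - (ℓ : ℤ) ^ k) • Q := by
    simp only [sub_smul]
    abel
  rw [← hσQ, key, h1, h2, hdQ]
  simp

/-- **Charpoly transfer, trace/determinant form.** -/
theorem h78t_trace_det (W : WeierstrassCurve ℤ) (hΔ : W.Δ ≠ 0) {lam : ℕ} [Fact lam.Prime]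
    {O : Type} [CommRing O] [IsLocalRing O] [IsNoetherianRing O]
    (hlamO : (lam : O) ∈ IsLocalRing.maximalIdeal O)
    (ρ : GaloisRepAdic O) (S₀ : Finset ℕ) (hcp : h78t_HCP W ρ S₀)
    (χ : GQ →* ℤ_[lam]ˣ)
    (hχcont : ∀ n : ℕ, ∃ L : IntermediateField ℚ Qbar, FiniteDimensional ℚ L ∧
        ∀ σ : GQ, (∀ x ∈ L, σ x = x) →
          ((χ σ : ℤ_[lam]ˣ) : ℤ_[lam]) - 1 ∈ IsLocalRing.maximalIdeal ℤ_[lam] ^ n)
    (hχfrob : ∀ ℓ : ℕ, ℓ.Prime → ℓ ≠ lam → ∀ A : ValuationSubring Qbar, A.LiesOverPrime ℓ →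
          ∀ σ : GQ, A.IsFrobeniusAt σ ℓ → ((χ σ : ℤ_[lam]ˣ) : ℤ_[lam]) = (ℓ : ℤ_[lam]))
    (σ : GQ) (t₀ d₀ : ℤ) (hχσ : ((χ σ : ℤ_[lam]ˣ) : ℤ_[lam]) = (d₀ : ℤ_[lam]))
    (hrel : ∀ (n : ℕ) (Q : ((W.map (Int.castRingHom ℚ))⁄Qbar).Point), (lam ^ n) • Q = 0 →
        σ • σ • Q - t₀ • σ • Q + d₀ • Q = 0) :
    LinearMap.trace O ρ.V (ρ.ρ σ) = (t₀ : O) ∧ LinearMap.det (ρ.ρ σ) = (d₀ : O) := by
  have hlam : lam.Prime := Fact.out
  have hΔ' : (W.map (Int.castRingHom ℚ)).Δ ≠ 0 := by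
    rw [WeierstrassCurve.map_Δ]
    simpa using hΔ
  have key : ∀ n : ℕ,
      LinearMap.trace O ρ.V (ρ.ρ σ) - (t₀ : O) ∈ IsLocalRing.maximalIdeal O ^ n ∧
      LinearMap.det (ρ.ρ σ) - (d₀ : O) ∈ IsLocalRing.maximalIdeal O ^ n := by
    intro n
    obtain ⟨L₁, hL₁, h₁⟩ := ρ.isAdicContinuous n
    obtain ⟨L₂, hL₂, h₂⟩ := hχcont n
    have hm0 : lam ^ n ≠ 0 := pow_ne_zero n hlam.ne_zero
    have : Finite (S13.Tors (W.map (Int.castRingHom ℚ)) (lam ^ n)) :=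
      Tors.finite_torsionBy_qbar (W.map (Int.castRingHom ℚ)) hΔ' (lam ^ n) hm0
    obtain ⟨S₁, hS₁⟩ := S13.Asm.exists_finset_fix (W := W.map (Int.castRingHom ℚ))
      (p := lam ^ n)
    have : Algebra.IsAlgebraic ℚ Qbar := AlgebraicClosure.isAlgebraic ℚ
    let L₃ : IntermediateField ℚ Qbar := IntermediateField.adjoin ℚ ((S₁ : Finset Qbar) : Set Qbar)
    have hL₃ : FiniteDimensional ℚ L₃ :=
      IntermediateField.finiteDimensional_adjoin (fun x _ => (Algebra.IsIntegral.isIntegral x))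
    have hfd12 : FiniteDimensional ℚ ↥(L₁ ⊔ L₂) := IntermediateField.finiteDimensional_sup L₁ L₂
    have hfd : FiniteDimensional ℚ ↥(L₁ ⊔ L₂ ⊔ L₃) :=
      IntermediateField.finiteDimensional_sup (L₁ ⊔ L₂) L₃
    obtain ⟨ℓ, hℓ, hℓS, A', hA', f, hf, k, hk⟩ := Fermat.Agent.Cheb.weakChebotarev
      (L₁ ⊔ L₂ ⊔ L₃) hfd σ (S₀ ∪ {lam} ∪ W.Δ.natAbs.primeFactors)
    simp only [Finset.mem_union, Finset.mem_singleton, Nat.mem_primeFactors, not_or, not_and,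
      ne_eq, Int.natAbs_eq_zero] at hℓS
    obtain ⟨⟨hℓS₀, hℓlam⟩, hℓΔ⟩ := hℓS
    have hgood : W.IsGoodPrimeFor ℓ := by
      intro hdvd
      exact hℓΔ hℓ (Int.natCast_dvd.1 hdvd) hΔ
    -- `s' = (f ^ k)⁻¹ * σ` fixes the compositum
    have hs' : ∀ x ∈ L₁ ⊔ L₂ ⊔ L₃, ((f ^ k)⁻¹ * σ) x = x := fun x hx => by
      rw [AlgEquiv.mul_apply, hk x hx]
      exact (f ^ k).symm_apply_apply x
    have hσeq : σ = f ^ k * ((f ^ k)⁻¹ * σ) := by rw [mul_inv_cancel_left]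
    have hle₁ : L₁ ≤ L₁ ⊔ L₂ ⊔ L₃ := le_sup_left.trans le_sup_left
    have hle₂ : L₂ ≤ L₁ ⊔ L₂ ⊔ L₃ := le_sup_right.trans le_sup_left
    have hle₃ : L₃ ≤ L₁ ⊔ L₂ ⊔ L₃ := le_sup_right
    have hs₁ : TI_Small (IsLocalRing.maximalIdeal O ^ n) (ρ.ρ ((f ^ k)⁻¹ * σ) - 1) :=
      fun v => by
        rw [LinearMap.sub_apply, Module.End.one_apply]
        exact h₁ _ (fun x hx => hs' x (hle₁ hx)) v
    have hs₂ := h₂ ((f ^ k)⁻¹ * σ) fun x hx => hs' x (hle₂ hx)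
    have hcpf := hcp ℓ hℓ hℓS₀ A' hA' f hf
    -- (1) the trace
    have htr : LinearMap.trace O ρ.V (ρ.ρ σ) -
        ((acTrace (W.apOfModel ℓ) (ℓ : ℤ) k : ℤ) : O) ∈ IsLocalRing.maximalIdeal O ^ n := by
      have h := TI_approx_T ρ.finrank_eq (IsLocalRing.maximalIdeal O ^ n) ρ.ρ f
        ((f ^ k)⁻¹ * σ) k _ _ hcpf hs₁
      rw [← hσeq] at h
      have e := TI_map_acTrace (Int.castRingHom O) (W.apOfModel ℓ) (ℓ : ℤ) k
      simp only [eq_intCast, Int.cast_natCast] at e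
      rw [e]
      exact h
    -- (2) the determinant
    have hdet : LinearMap.det (ρ.ρ σ) - (((ℓ : ℤ) ^ k : ℤ) : O) ∈
        IsLocalRing.maximalIdeal O ^ n := by
      have hdf : LinearMap.det (ρ.ρ f) = ((ℓ : ℕ) : O) :=
        DI_det_of_charpoly ρ.finrank_eq (ρ.ρ f) _ _ hcpf
      have hds : LinearMap.det (ρ.ρ ((f ^ k)⁻¹ * σ)) - 1 ∈ IsLocalRing.maximalIdeal O ^ n :=
        DI_det_sub_one_mem hs₁
      have e : LinearMap.det (ρ.ρ σ) - (((ℓ : ℤ) ^ k : ℤ) : O) =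
          ((ℓ : ℕ) : O) ^ k * (LinearMap.det (ρ.ρ ((f ^ k)⁻¹ * σ)) - 1) := by
        conv_lhs => rw [hσeq]
        rw [map_mul, map_pow, map_mul, map_pow, hdf]
        push_cast
        ring
      rw [e]
      exact Ideal.mul_mem_left _ _ hds
    -- (3) the cyclotomic character
    have hdvd : ((lam ^ n : ℕ) : ℤ) ∣ d₀ - (ℓ : ℤ) ^ k := by
      apply h78t_dvd_of_mem
      have hχf := hχfrob ℓ hℓ hℓlam A' hA' f hf
      have e : ((d₀ - (ℓ : ℤ) ^ k : ℤ) : ℤ_[lam]) =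
          (ℓ : ℤ_[lam]) ^ k * (((χ ((f ^ k)⁻¹ * σ) : ℤ_[lam]ˣ) : ℤ_[lam]) - 1) := by
        have h1 : (d₀ : ℤ_[lam]) =
            (ℓ : ℤ_[lam]) ^ k * ((χ ((f ^ k)⁻¹ * σ) : ℤ_[lam]ˣ) : ℤ_[lam]) := by
          rw [← hχσ]
          conv_lhs => rw [hσeq]
          rw [map_mul, map_pow, Units.val_mul, Units.val_pow_eq_pow_val, hχf]
        push_cast
        rw [h1]
        ring
      rw [e]
      exact Ideal.mul_mem_left _ _ hs₂
    -- (4) the `E`-side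
    have hℓm : ¬ ℓ ∣ lam ^ n := fun h =>
      hℓlam ((Nat.prime_dvd_prime_iff_eq hℓ hlam).mp (hℓ.dvd_of_dvd_pow h))
    have hσE : ∀ Q : ((W.map (Int.castRingHom ℚ))⁄Qbar).Point, (lam ^ n) • Q = 0 →
        σ • Q = (f ^ k) • Q := by
      intro Q hQ
      have hQm : Q ∈ Submodule.torsionBy ℤ ((W.map (Int.castRingHom ℚ))⁄Qbar).Point
          ((lam ^ n : ℕ) : ℤ) := by
        rw [Submodule.mem_torsionBy_iff, natCast_zsmul]
        exact hQ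
      have h := hS₁ ((f ^ k)⁻¹ * σ) (fun s hs => hs' s (hle₃
        (IntermediateField.subset_adjoin ℚ _ (Finset.mem_coe.2 hs)))) ⟨Q, hQm⟩
      have h' : ((f ^ k)⁻¹ * σ) • Q = Q := congrArg Subtype.val h
      conv_lhs => rw [hσeq]
      rw [mul_smul, h']
    have hE := h78t_Eside W hΔ hℓ hgood A' hA' f hf hm0 hℓm σ k hσE t₀ d₀ hdvd (hrel n)
    -- (5) conclusion
    constructor
    · have e : LinearMap.trace O ρ.V (ρ.ρ σ) - (t₀ : O) =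
          (LinearMap.trace O ρ.V (ρ.ρ σ) - ((acTrace (W.apOfModel ℓ) (ℓ : ℤ) k : ℤ) : O))
            + ((acTrace (W.apOfModel ℓ) (ℓ : ℤ) k - t₀ : ℤ) : O) := by
        push_cast
        ring
      rw [e]
      exact Ideal.add_mem _ htr (h78t_cast_mem hlamO hE)
    · have e : LinearMap.det (ρ.ρ σ) - (d₀ : O) =
          (LinearMap.det (ρ.ρ σ) - (((ℓ : ℤ) ^ k : ℤ) : O))
            - ((d₀ - (ℓ : ℤ) ^ k : ℤ) : O) := by
        push_cast
        ring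
      rw [e]
      exact Ideal.sub_mem _ hdet (h78t_cast_mem hlamO hdvd)
  have hbot : (⨅ i : ℕ, IsLocalRing.maximalIdeal O ^ i) = ⊥ :=
    Ideal.iInf_pow_eq_bot_of_isLocalRing _ (IsLocalRing.maximalIdeal.isMaximal O).ne_top
  constructor
  · have h0 : LinearMap.trace O ρ.V (ρ.ρ σ) - (t₀ : O) ∈
        (⨅ i : ℕ, IsLocalRing.maximalIdeal O ^ i) := by
      rw [Ideal.mem_iInf]
      exact fun n => (key n).1
    rw [hbot, Ideal.mem_bot] at h0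
    exact sub_eq_zero.mp h0
  · have h0 : LinearMap.det (ρ.ρ σ) - (d₀ : O) ∈
        (⨅ i : ℕ, IsLocalRing.maximalIdeal O ^ i) := by
      rw [Ideal.mem_iInf]
      exact fun n => (key n).2
    rw [hbot, Ideal.mem_bot] at h0
    exact sub_eq_zero.mp h0

end Fermat.Agent.S58
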