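import Fermat.Agent.S58.H54Iface
import Fermat.Agent.S58.H78Trans
import Fermat.Agent.S58.H78Nodal2

/-!
# S58 (helper78): the two E-side interface Props of `S58/H54Iface.lean`

* `h78c_eCoreFrob : h54s_ECoreFrob`
* `h78c_eCoreInertia : h54s_ECoreInertia`

Both follow from the common statement `h78c_core`: if `σ₀² - t₀ σ₀ + d₀ = 0` on `E[lam ^ n]` and
the `lam`-adic cyclotomic character takes the value `d₀` at `σ₀`, then there is a number field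
`L` such that `σ₀ = f ^ k` on `L` (`f` a Frobenius element at a good prime `ℓ ≠ lam`) implies
`V_k(a_ℓ, ℓ) ≡ t₀` and `ℓ ^ k ≡ d₀` modulo `lam ^ n`.
-/

set_option autoImplicit false

namespace Fermat.Agent.S58

open WeierstrassCurve WeierstrassCurve.Affine
open Fermat.Agent.S29 (GQ)
open Fermat.Agent.S30 (acTrace)

local notation "Qbar" => AlgebraicClosure ℚ

/-- The common core of the two E-side statements. -/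
theorem h78c_core (W : WeierstrassCurve ℤ) (hΔ : W.Δ ≠ 0) {lam : ℕ} [Fact lam.Prime] (n : ℕ)
    (χ : GQ →* ℤ_[lam]ˣ)
    (hχcont : ∀ n : ℕ, ∃ L : IntermediateField ℚ Qbar, FiniteDimensional ℚ L ∧
        ∀ σ : GQ, (∀ x ∈ L, σ x = x) →
          ((χ σ : ℤ_[lam]ˣ) : ℤ_[lam]) - 1 ∈ IsLocalRing.maximalIdeal ℤ_[lam] ^ n)
    (hχfrob : ∀ ℓ : ℕ, ℓ.Prime → ℓ ≠ lam → ∀ A : ValuationSubring Qbar, A.LiesOverPrime ℓ →
          ∀ σ : GQ, A.IsFrobeniusAt σ ℓ → ((χ σ : ℤ_[lam]ˣ) : ℤ_[lam]) = (ℓ : ℤ_[lam]))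
    (σ : GQ) (t₀ d₀ : ℤ) (hχσ : ((χ σ : ℤ_[lam]ˣ) : ℤ_[lam]) = (d₀ : ℤ_[lam]))
    (hrel : ∀ (Q : ((W.map (Int.castRingHom ℚ))⁄Qbar).Point), (lam ^ n) • Q = 0 →
        σ • σ • Q - t₀ • σ • Q + d₀ • Q = 0) :
    ∃ L : IntermediateField ℚ Qbar, FiniteDimensional ℚ L ∧
      ∀ ℓ : ℕ, ℓ.Prime → W.IsGoodPrimeFor ℓ → ℓ ≠ lam →
      ∀ A : ValuationSubring Qbar, A.LiesOverPrime ℓ → ∀ f : GQ, A.IsFrobeniusAt f ℓ →
      ∀ k : ℕ, (∀ x ∈ L, σ x = (f ^ k) x) →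
        (lam : ℤ) ^ n ∣ acTrace (W.apOfModel ℓ) (ℓ : ℤ) k - t₀ ∧
        (lam : ℤ) ^ n ∣ (ℓ : ℤ) ^ k - d₀ := by
  have hlam : lam.Prime := Fact.out
  have hΔ' : (W.map (Int.castRingHom ℚ)).Δ ≠ 0 := by
    rw [WeierstrassCurve.map_Δ]
    simpa using hΔ
  obtain ⟨L₂, hL₂, h₂⟩ := hχcont n
  have hm0 : lam ^ n ≠ 0 := pow_ne_zero n hlam.ne_zero
  have : Finite (S13.Tors (W.map (Int.castRingHom ℚ)) (lam ^ n)) :=
    Tors.finite_torsionBy_qbar (W.map (Int.castRingHom ℚ)) hΔ' (lam ^ n) hm0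
  obtain ⟨S₁, hS₁⟩ := S13.Asm.exists_finset_fix (W := W.map (Int.castRingHom ℚ))
    (p := lam ^ n)
  have : Algebra.IsAlgebraic ℚ Qbar := AlgebraicClosure.isAlgebraic ℚ
  let L₃ : IntermediateField ℚ Qbar := IntermediateField.adjoin ℚ ((S₁ : Finset Qbar) : Set Qbar)
  have hL₃ : FiniteDimensional ℚ L₃ :=
    IntermediateField.finiteDimensional_adjoin (fun x _ => (Algebra.IsIntegral.isIntegral x))
  have hfd : FiniteDimensional ℚ ↥(L₂ ⊔ L₃) := IntermediateField.finiteDimensional_sup L₂ L₃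
  refine ⟨L₂ ⊔ L₃, hfd, ?_⟩
  intro ℓ hℓ hgood hℓlam A' hA' f hf k hk
  -- `s' = (f ^ k)⁻¹ * σ` fixes the compositum
  have hs' : ∀ x ∈ L₂ ⊔ L₃, ((f ^ k)⁻¹ * σ) x = x := fun x hx => by
    rw [AlgEquiv.mul_apply, hk x hx]
    exact (f ^ k).symm_apply_apply x
  have hσeq : σ = f ^ k * ((f ^ k)⁻¹ * σ) := by rw [mul_inv_cancel_left]
  have hle₂ : L₂ ≤ L₂ ⊔ L₃ := le_sup_left
  have hle₃ : L₃ ≤ L₂ ⊔ L₃ := le_sup_right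
  have hs₂ := h₂ ((f ^ k)⁻¹ * σ) fun x hx => hs' x (hle₂ hx)
  -- the cyclotomic character
  have hdvd : ((lam ^ n : ℕ) : ℤ) ∣ d₀ - (ℓ : ℤ) ^ k := by
    apply h78t_dvd_of_mem
    have hχf := hχfrob ℓ hℓ hℓlam A' hA' f hf
    have e : ((d₀ - (ℓ : ℤ) ^ k : ℤ) : ℤ_[lam]) =
        (ℓ : ℤ_[lam]) ^ k * (((χ ((f ^ k)⁻¹ * σ) : ℤ_[lam]ˣ) : ℤ_[lam]) - 1) := by
      have h1 : (d₀ : ℤ_[lam]) =
          (ℓ : ℤ_[lam]) ^ k * ((χ ((f ^ k)⁻¹ * σ) : ℤ_[lam]ˣ) : ℤ_[lam]) := by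
        rw [← hχσ]
        conv_lhs => rw [hσeq]
        rw [map_mul, map_pow, Units.val_mul, Units.val_pow_eq_pow_val, hχf]
      push_cast
      rw [h1]
      ring
    rw [e]
    exact Ideal.mul_mem_left _ _ hs₂
  -- the `E`-side
  have hℓm : ¬ ℓ ∣ lam ^ n := fun h =>
    hℓlam ((Nat.prime_dvd_prime_iff_eq hℓ hlam).mp (hℓ.dvd_of_dvd_pow h))
  have hσE : ∀ Q : ((W.map (Int.castRingHom ℚ))⁄Qbar).Point, (lam ^ n) • Q = 0 →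
      σ • Q = (f ^ k) • Q := by
    intro Q hQ
    have hQm : Q ∈ Submodule.torsionBy ℤ ((W.map (Int.castRingHom ℚ))⁄Qbar).Point
        ((lam ^ n : ℕ) : ℤ) := by
      rw [Submodule.mem_torsionBy_iff, natCast_zsmul]
      exact hQ
    have h := hS₁ ((f ^ k)⁻¹ * σ) (fun s hs => hs' s (hle₃
      (IntermediateField.subset_adjoin ℚ _ (Finset.mem_coe.2 hs)))) ⟨Q, hQm⟩
    have h' : ((f ^ k)⁻¹ * σ) • Q = Q := congrArg Subtype.val h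
    conv_lhs => rw [hσeq]
    rw [mul_smul, h']
  have hE := h78t_Eside W hΔ hℓ hgood A' hA' f hf hm0 hℓm σ k hσE t₀ d₀ hdvd hrel
  have hcast : ((lam ^ n : ℕ) : ℤ) = (lam : ℤ) ^ n := by push_cast; rfl
  rw [hcast] at hE hdvd
  exact ⟨hE, (dvd_sub_comm).mp hdvd⟩

/-- **E-CORE at a Frobenius element.** -/
theorem h78c_eCoreFrob : h54s_ECoreFrob := by
  intro W hΔ lam hlam n ℓ₀ hℓ₀ hgood₀ hℓ₀lam A₀ hA₀ σ₀ hσ₀
  have : Fact lam.Prime := ⟨hlam⟩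
  have hpZ : (lam : ℤ_[lam]) ∈ IsLocalRing.maximalIdeal ℤ_[lam] := by
    rw [PadicInt.maximalIdeal_eq_span_p]
    exact Ideal.mem_span_singleton_self _
  obtain ⟨χ, hχcont, -, hχfrob, -⟩ := Fermat.Agent.S30.cycCharAdic lam hlam ℤ_[lam] hpZ
  have hχσ : ((χ σ₀ : ℤ_[lam]ˣ) : ℤ_[lam]) = (((ℓ₀ : ℕ) : ℤ) : ℤ_[lam]) := by
    rw [hχfrob ℓ₀ hℓ₀ hℓ₀lam A₀ hA₀ σ₀ hσ₀, Int.cast_natCast]
  have hrel : ∀ (Q : ((W.map (Int.castRingHom ℚ))⁄Qbar).Point), (lam ^ n) • Q = 0 →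
      σ₀ • σ₀ • Q - (W.apOfModel ℓ₀) • σ₀ • Q + ((ℓ₀ : ℕ) : ℤ) • Q = 0 := by
    intro Q hQ
    have hn : ¬ ℓ₀ ∣ lam ^ n := fun h =>
      hℓ₀lam ((Nat.prime_dvd_prime_iff_eq hℓ₀ hlam).mp (hℓ₀.dvd_of_dvd_pow h))
    exact h78e_frobRel W hℓ₀ hgood₀ A₀ hA₀ σ₀ hσ₀ hn Q hQ
  exact h78c_core W hΔ n χ hχcont hχfrob σ₀ (W.apOfModel ℓ₀) ((ℓ₀ : ℕ) : ℤ) hχσ hrel

/-- **E-CORE on inertia.** -/
theorem h78c_eCoreInertia : h54s_ECoreInertia := by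
  intro W hΔ lam hlam n q hq hqlam hss A₀ hA₀ σ₀ hσ₀
  have : Fact lam.Prime := ⟨hlam⟩
  have hpZ : (lam : ℤ_[lam]) ∈ IsLocalRing.maximalIdeal ℤ_[lam] := by
    rw [PadicInt.maximalIdeal_eq_span_p]
    exact Ideal.mem_span_singleton_self _
  obtain ⟨χ, hχcont, hχin, hχfrob, -⟩ := Fermat.Agent.S30.cycCharAdic lam hlam ℤ_[lam] hpZ
  have hχσ : ((χ σ₀ : ℤ_[lam]ˣ) : ℤ_[lam]) = ((1 : ℤ) : ℤ_[lam]) := by
    rw [hχin q hq hqlam A₀ hA₀ σ₀ hσ₀, Units.val_one, Int.cast_one]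
  have hrel : ∀ (Q : ((W.map (Int.castRingHom ℚ))⁄Qbar).Point), (lam ^ n) • Q = 0 →
      σ₀ • σ₀ • Q - (2 : ℤ) • σ₀ • Q + (1 : ℤ) • Q = 0 := by
    intro Q hQ
    have hn : ¬ q ∣ lam ^ n := fun h =>
      hqlam ((Nat.prime_dvd_prime_iff_eq hq hlam).mp (hq.dvd_of_dvd_pow h))
    have h := h78u_unipotent_int W hΔ hq hss A₀ hA₀ hn hσ₀ Q hQ
    rw [smul_sub] at h
    have e2 : (2 : ℤ) • σ₀ • Q = σ₀ • Q + σ₀ • Q := two_zsmul _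
    have e1 : (1 : ℤ) • Q = Q := one_zsmul _
    rw [e2, e1]
    have h' : σ₀ • σ₀ • Q - (σ₀ • Q + σ₀ • Q) + Q = (σ₀ • σ₀ • Q - σ₀ • Q) - (σ₀ • Q - Q) := by
      abel
    rw [h', h, sub_self]
  exact h78c_core W hΔ n χ hχcont hχfrob σ₀ 2 1 hχσ hrel

end Fermat.Agent.S58
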