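import Fermat.Agent.S58.H54Top
import Fermat.Agent.S58.H78ECore
import Fermat.Agent.S58.H98Hres
import Fermat.Prelude.Def_GaloisRep_Residual
import Fermat.Prelude.Def_FLTPrelim_ModularRep

/-!
# S58 from the frozen statement of S36 itself (helper54)

`h54s_S36Stmt` : the frozen statement of S36, verbatim (with `hres` and `lam ≠ 2`).
`h54s_s58_of_s36 : h54s_S36Stmt → ` the frozen statement of S58.

Here S36 is applied with `lam = p`; the hypothesis `hres` of S36 is discharged by the landed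
`h98r_hres` (helper98) from `W.ModRepIsIrreducible p` and `p ≠ 2`; `q ≠ p` for `q² ∣ M` follows
from `¬ p² ∣ N`.  So `Fermat/Agent/S58.lean` needs nothing but `Fermat.Agent.S36.result`.
-/

set_option autoImplicit false

open Polynomial

noncomputable section

namespace Fermat.Agent.S58

open Fermat.Agent.S29 (GQ)
open Fermat.Agent.S30 (acTrace)
open WeierstrassCurve

local notation "Qbar" => AlgebraicClosure ℚ

/-- The frozen statement of S36, verbatim. -/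
def h54s_S36Stmt : Prop :=
  ∀ {M : ℕ} [NeZero M] {g : CuspForm (CongruenceSubgroup.Gamma0 M) 2} (_ : g.IsNewform)
    (lam : ℕ) [Fact lam.Prime]
    (S : Finset ℕ)
    (O' : Type) [CommRing O'] [IsDomain O'] [IsDiscreteValuationRing O']
    [IsAdicComplete (IsLocalRing.maximalIdeal O') O'] [Finite (IsLocalRing.ResidueField O')]
    [CharZero O'] (_ : (lam : O') ∈ IsLocalRing.maximalIdeal O')
    (_ : lam ≠ 2)
    (chig : CuspForm.heckeAlgebra M 2 (↑S : Set ℕ) →+* ℂ)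
    (_ : ∀ (ℓ : ℕ) (hℓ : ℓ.Prime) (hℓM : ¬ ℓ ∣ M) (hℓS : ℓ ∉ (↑S : Set ℕ)),
      chig (CuspForm.heckeAlgebra.T hℓ hℓM hℓS) = ModularFormClass.qCoeff g ℓ)
    (iota : chig.range →+* O')
    (_ : lam ∈ S) (_ : ∀ q : ℕ, q.Prime → q ∣ M → q ∈ S)
    (_ : ∀ (O'' : Type) [CommRing O''] [IsDomain O''] [IsDiscreteValuationRing O'']
      [IsAdicComplete (IsLocalRing.maximalIdeal O'') O'']
      [Finite (IsLocalRing.ResidueField O'')] [CharZero O'']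
      [Algebra O' O''] [Module.Finite O' O''] [IsLocalHom (algebraMap O' O'')],
      Function.Injective (algebraMap O' O'') → ∀ (ρ : GaloisRepAdic O''),
      (∀ (ℓ : ℕ) (hℓ : ℓ.Prime) (_ : ℓ ≠ lam) (hℓM : ¬ ℓ ∣ M) (hℓS : ℓ ∉ (↑S : Set ℕ)),
        ∀ A : ValuationSubring (AlgebraicClosure ℚ), A.LiesOverPrime ℓ →
          ∀ σ : AlgebraicClosure ℚ ≃ₐ[ℚ] AlgebraicClosure ℚ, A.IsFrobeniusAt σ ℓ →
            LinearMap.charpoly (ρ.ρ σ) =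
              X ^ 2 - C (algebraMap O' O'' ((iota.comp chig.rangeRestrict)
                (CuspForm.heckeAlgebra.T hℓ hℓM hℓS))) * X + C ((ℓ : O'')))
      → ρ.residual.IsAbsolutelyIrreducible ∧ ρ.residual.IsOdd),
    ∃ (O'' : Type) (_ : CommRing O'') (_ : IsDomain O'') (_ : IsDiscreteValuationRing O'')
      (_ : IsAdicComplete (IsLocalRing.maximalIdeal O'') O'')
      (_ : Finite (IsLocalRing.ResidueField O''))
      (_ : CharZero O'') (_ : Algebra O' O'') (_ : Module.Finite O' O'')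
      (_ : IsLocalHom (algebraMap O' O'')),
      Function.Injective (algebraMap O' O'') ∧
      ∃ ρ : GaloisRepAdic O'',
        (∀ (ℓ : ℕ) (hℓ : ℓ.Prime) (hℓM : ¬ ℓ ∣ M) (hℓS : ℓ ∉ (↑S : Set ℕ)),
          ∀ A : ValuationSubring (AlgebraicClosure ℚ), A.LiesOverPrime ℓ →
            ∀ σ : AlgebraicClosure ℚ ≃ₐ[ℚ] AlgebraicClosure ℚ, A.IsFrobeniusAt σ ℓ →
              LinearMap.charpoly (ρ.ρ σ) =
                X ^ 2 - C (algebraMap O' O'' ((iota.comp chig.rangeRestrict)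
                  (CuspForm.heckeAlgebra.T hℓ hℓM hℓS))) * X + C ((ℓ : O''))) ∧
        (∀ q : ℕ, q.Prime → q ≠ lam → M.factorization q = 2 →
          ¬ ρ.IsUnipotentOnInertiaAt q)

/-- **B2 with `lam = p`.**  The level `M` of the newform is not divisible by the square of a
prime. -/
theorem h54s_not_sq_dvd_of_s36 (h36 : h54s_S36Stmt) (hEI : h54s_ECoreInertia)
    (W : WeierstrassCurve ℤ) (hss : W.IsSemistableModel) (hΔ : W.Δ ≠ 0)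
    {N : ℕ} (hN0 : N ≠ 0) (hbad : ∀ ℓ : ℕ, ℓ.Prime → (ℓ : ℤ) ∣ W.Δ → ℓ ∣ N)
    (hN3 : ∀ q : ℕ, q.Prime → ¬ q ^ 3 ∣ N)
    (p : ℕ) [Fact p.Prime] (hp2 : p ≠ 2) (hirr : W.ModRepIsIrreducible p)
    (hp2N : ¬ p ^ 2 ∣ N)
    {M : ℕ} [NeZero M] (hMN : M ∣ N)
    {g : CuspForm (CongruenceSubgroup.Gamma0 M) 2} (hg : g.IsNewform)
    (hga : ∀ ℓ : ℕ, ℓ.Prime → ¬ ℓ ∣ N →
      ModularFormClass.qCoeff g ℓ = ((W.apOfModel ℓ : ℤ) : ℂ))
    (q : ℕ) (hq : q.Prime) : ¬ q ^ 2 ∣ M := by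
  intro hq2
  have hp : p.Prime := Fact.out
  have hM0 : M ≠ 0 := NeZero.ne M
  have hqp : q ≠ p := by
    rintro rfl
    exact hp2N (hq2.trans hMN)
  have hfact : M.factorization q = 2 := by
    have h2 : 2 ≤ M.factorization q := (hq.pow_dvd_iff_le_factorization hM0).mp hq2
    have h3 : ¬ 3 ≤ M.factorization q := fun hle =>
      hN3 q hq (((hq.pow_dvd_iff_le_factorization hM0).mpr hle).trans hMN)
    omega
  obtain ⟨chig, iota, hchig, hiota⟩ := h54s_setup W hN0 hMN hg hga p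
  have hMS : ∀ r : ℕ, r.Prime → r ∣ M → r ∈ (insert p N.primeFactors : Finset ℕ) :=
    fun r hr hrM => Finset.mem_insert_of_mem (Nat.mem_primeFactors.mpr ⟨hr, hrM.trans hMN, hN0⟩)
  have hnotN : ∀ ℓ : ℕ, ℓ.Prime → ℓ ∉ (insert p N.primeFactors : Finset ℕ) → ¬ ℓ ∣ N :=
    fun ℓ hℓ hℓS h =>
      hℓS (Finset.mem_insert_of_mem (Nat.mem_primeFactors.mpr ⟨hℓ, h, hN0⟩))
  -- the hypothesis `hres` of S36
  have hres : ∀ (O'' : Type) [CommRing O''] [IsDomain O''] [IsDiscreteValuationRing O'']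
      [IsAdicComplete (IsLocalRing.maximalIdeal O'') O'']
      [Finite (IsLocalRing.ResidueField O'')] [CharZero O'']
      [Algebra ℤ_[p] O''] [Module.Finite ℤ_[p] O''] [IsLocalHom (algebraMap ℤ_[p] O'')],
      Function.Injective (algebraMap ℤ_[p] O'') → ∀ (ρ : GaloisRepAdic O''),
      (∀ (ℓ : ℕ) (hℓ : ℓ.Prime) (_ : ℓ ≠ p) (hℓM : ¬ ℓ ∣ M)
        (hℓS : ℓ ∉ (↑(insert p N.primeFactors : Finset ℕ) : Set ℕ)),
        ∀ A : ValuationSubring (AlgebraicClosure ℚ), A.LiesOverPrime ℓ →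
          ∀ σ : AlgebraicClosure ℚ ≃ₐ[ℚ] AlgebraicClosure ℚ, A.IsFrobeniusAt σ ℓ →
            LinearMap.charpoly (ρ.ρ σ) =
              X ^ 2 - C (algebraMap ℤ_[p] O'' ((iota.comp chig.rangeRestrict)
                (CuspForm.heckeAlgebra.T hℓ hℓM hℓS))) * X + C ((ℓ : O'')))
      → ρ.residual.IsAbsolutelyIrreducible ∧ ρ.residual.IsOdd := by
    intro O'' _ _ _ _ _ _ _ _ _ _ ρ hρ
    have hpO : (p : O'') ∈ IsLocalRing.maximalIdeal O'' := h54s_lam_mem_of_local p O''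
    refine h98r_hres W p hΔ hp2 hirr hpO ρ (insert p N.primeFactors) ?_
    intro ℓ hℓ hℓS A hA σ hσ
    have hℓM : ¬ ℓ ∣ M := fun h => hnotN ℓ hℓ hℓS (h.trans hMN)
    have hℓS' : ℓ ∉ (↑(insert p N.primeFactors : Finset ℕ) : Set ℕ) :=
      fun h => hℓS (Finset.mem_coe.mp h)
    have hℓp : ℓ ≠ p := fun h => hℓS (h ▸ Finset.mem_insert_self _ _)
    rw [hρ ℓ hℓ hℓp hℓM hℓS' A hA σ hσ, hiota ℓ hℓ hℓM hℓS', map_intCast]
  obtain ⟨O'', i1, i2, i3, i4, i5, i6, i7, i8, i9, -, ρ, hcp, hnu⟩ :=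
    h36 hg p (insert p N.primeFactors) ℤ_[p] (h54s_lam_mem p) hp2 chig hchig iota
      (Finset.mem_insert_self _ _) hMS hres
  have hlamO : (p : O'') ∈ IsLocalRing.maximalIdeal O'' := h54s_lam_mem_of_local p O''
  have hcp' : ∀ ℓ : ℕ, ℓ.Prime → ℓ ∉ (insert p N.primeFactors : Finset ℕ) →
      ∀ A : ValuationSubring Qbar, A.LiesOverPrime ℓ → ∀ f : GQ, A.IsFrobeniusAt f ℓ →
        LinearMap.charpoly (ρ.ρ f)
          = X ^ 2 - C ((W.apOfModel ℓ : ℤ) : O'') * X + C ((ℓ : ℕ) : O'') := by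
    intro ℓ hℓ hℓS A hA f hf
    have hℓM : ¬ ℓ ∣ M := fun h => hnotN ℓ hℓ hℓS (h.trans hMN)
    have hℓS' : ℓ ∉ (↑(insert p N.primeFactors : Finset ℕ) : Set ℕ) :=
      fun h => hℓS (Finset.mem_coe.mp h)
    rw [hcp ℓ hℓ hℓM hℓS' A hA f hf, hiota ℓ hℓ hℓM hℓS', map_intCast]
  apply hnu q hq hqp hfact
  intro P hP σ hσ
  have hE : ∀ n : ℕ, ∃ L : IntermediateField ℚ Qbar, FiniteDimensional ℚ L ∧
      ∀ ℓ : ℕ, ℓ.Prime → ℓ ∉ (insert p N.primeFactors : Finset ℕ) →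
      ∀ A : ValuationSubring Qbar, A.LiesOverPrime ℓ → ∀ f : GQ, A.IsFrobeniusAt f ℓ →
      ∀ k : ℕ, (∀ x ∈ L, σ x = (f ^ k) x) →
        (p : ℤ) ^ n ∣ acTrace (W.apOfModel ℓ) (ℓ : ℤ) k - 2 ∧
        (p : ℤ) ^ n ∣ (ℓ : ℤ) ^ k - 1 := by
    intro n
    obtain ⟨L, hL, hLE⟩ := hEI W hΔ p hp n q hq hqp (hss q hq) P hP σ hσ
    refine ⟨L, hL, fun ℓ hℓ hℓS A hA f hf k hk => ?_⟩
    have hgood : W.IsGoodPrimeFor ℓ := fun hdvd => hnotN ℓ hℓ hℓS (hbad ℓ hℓ hdvd)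
    have hℓlam : ℓ ≠ p := fun h => hℓS (h ▸ Finset.mem_insert_self _ _)
    exact hLE ℓ hℓ hgood hℓlam A hA f hf k hk
  obtain ⟨htr, hdet⟩ := h54s_rho_transfer hlamO ρ W.apOfModel _ hcp' σ 2 1 hE
  rw [h54s_charpoly_rank_two ρ.finrank_eq, htr, hdet]
  simp only [Int.cast_ofNat, Int.cast_one, map_one, map_ofNat]
  ring

/-- **S58 from the frozen statement of S36.** -/
theorem h54s_s58_of_s36 (h36 : h54s_S36Stmt)
    (W : WeierstrassCurve ℤ) (hss : W.IsSemistableModel) (N : ℕ)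
    (p : ℕ) [Fact p.Prime] (hp2 : p ≠ 2) (hirr : W.ModRepIsIrreducible p)
    (hp2N : ¬ p ^ 2 ∣ N)
    (hN : W.IsModularModelOfLevel N) (hbad : ∀ ℓ : ℕ, ℓ.Prime → (ℓ : ℤ) ∣ W.Δ → ℓ ∣ N)
    (hN3 : ∀ q : ℕ, q.Prime → ¬ q ^ 3 ∣ N) :
    W.IsModularModelOfLevel W.conductorLevel := by
  obtain ⟨hN0, hΔ⟩ := h54s_ne_zero W N hbad hN3
  obtain ⟨f, hf, hfa⟩ := hN
  obtain ⟨M, hMN, g, hg, hgf⟩ := h52s_exists_newform N (Nat.pos_of_ne_zero hN0) f hf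
  have hM0 : M ≠ 0 := fun h => hN0 (by rw [h] at hMN; exact zero_dvd_iff.mp hMN)
  have : NeZero M := ⟨hM0⟩
  have hgoodN : ∀ ℓ : ℕ, ℓ.Prime → ¬ ℓ ∣ N → W.IsGoodPrimeFor ℓ :=
    fun ℓ hℓ hℓN hdvd => hℓN (hbad ℓ hℓ hdvd)
  have hga : ∀ ℓ : ℕ, ℓ.Prime → ¬ ℓ ∣ N →
      ModularFormClass.qCoeff g ℓ = ((W.apOfModel ℓ : ℤ) : ℂ) :=
    fun ℓ hℓ hℓN => (hgf ℓ hℓ hℓN).trans (hfa ℓ hℓ (hgoodN ℓ hℓ hℓN) hℓN)
  have hR0 : W.conductorLevel ≠ 0 := W.conductorLevel_pos.ne'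
  have hMR : M ∣ W.conductorLevel := by
    refine h54s_dvd_of_primes hM0 hR0 fun q hq hqM => ?_
    have h2 : ¬ q ^ 2 ∣ M :=
      h54s_not_sq_dvd_of_s36 h36 h78c_eCoreInertia W hss hΔ hN0 hbad hN3 p hp2 hirr hp2N
        hMN hg hga q hq
    exact ⟨h2, (W.prime_dvd_conductorLevel_iff hΔ hq).mpr
      (h54s_dvd_disc h78c_eCoreFrob W hΔ hN0 hbad hMN hg hga q hq hqM h2)⟩
  obtain ⟨h, hh, hha⟩ := h52s_levelUp hMR g hg.1
  refine ⟨h, hh, fun ℓ₀ hℓ₀ hgood hℓ₀R => ?_⟩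
  refine h54s_step5 h78c_eCoreFrob W hΔ W.conductorLevel h hh N.primeFactors ?_ ℓ₀ hℓ₀ hℓ₀R
    hgood
  intro ℓ hℓ hℓT
  have hℓN : ¬ ℓ ∣ N := fun h => hℓT (Nat.mem_primeFactors.mpr ⟨hℓ, h, hN0⟩)
  have hℓR : ¬ ℓ ∣ W.conductorLevel := fun h =>
    hℓN (hbad ℓ hℓ ((W.prime_dvd_conductorLevel_iff hΔ hℓ).mp h))
  exact (hha ℓ hℓ hℓR).trans (hga ℓ hℓ hℓN)

end Fermat.Agent.S58
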