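import Mathlib
import Fermat.Prelude.Def_FLTPrelim_Modularity

/-!
# S58 leaf L3 (helper42): the elementary point-count bound

For a Weierstrass curve `W` over a finite field `F` with `q` elements the prelude count
`W.card = Nat.card W.toAffine.Point` satisfies `1 ≤ W.card ≤ 2 q + 1`
(the point at infinity; at most two `y` for every `x`).  Hence for every integral
model `W` and every prime `q`: `|W.apOfModel q| ≤ q`; in particular
`W.apOfModel q ≠ ± (q + 1)`, i.e. `X ^ 2 - a_q X + q ≠ (X ∓ 1) (X ∓ q)`.
No goodness hypothesis is needed.  Mathlib + the prelude definitions only.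
-/

set_option autoImplicit false

noncomputable section

namespace Fermat.Agent.S58

open WeierstrassCurve Polynomial

/-- The quadratic in `Y` cut out by the Weierstrass equation at a fixed `x`. -/
def h42pc_quad {F : Type*} [Field F] (W : WeierstrassCurve F) (x : F) : F[X] :=
  X ^ 2 + C (W.a₁ * x + W.a₃) * X - C (x ^ 3 + W.a₂ * x ^ 2 + W.a₄ * x + W.a₆)

theorem h42pc_quad_natDegree {F : Type*} [Field F] (W : WeierstrassCurve F) (x : F) :
    (h42pc_quad W x).natDegree = 2 := by
  unfold h42pc_quad
  compute_degree!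

theorem h42pc_quad_ne_zero {F : Type*} [Field F] (W : WeierstrassCurve F) (x : F) :
    h42pc_quad W x ≠ 0 := by
  intro h
  have := h42pc_quad_natDegree W x
  rw [h] at this
  simp at this

theorem h42pc_quad_isRoot {F : Type*} [Field F] (W : WeierstrassCurve F) (x y : F)
    (h : W.toAffine.Equation x y) : (h42pc_quad W x).IsRoot y := by
  rw [Affine.equation_iff] at h
  simp only [h42pc_quad, IsRoot.def, eval_sub, eval_add, eval_pow, eval_X, eval_mul, eval_C]
  linear_combination h

/-- The map forgetting nonsingularity. -/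
def h42pc_toOpt {F : Type*} [Field F] (W : WeierstrassCurve F) :
    W.toAffine.Point → Option (Σ x : F, {y : F // (h42pc_quad W x).IsRoot y})
  | .zero => none
  | .some x y h => some ⟨x, ⟨y, h42pc_quad_isRoot W x y h.1⟩⟩

theorem h42pc_toOpt_injective {F : Type*} [Field F] (W : WeierstrassCurve F) :
    Function.Injective (h42pc_toOpt W) := by
  rintro (_ | ⟨x₁, y₁, h₁⟩) (_ | ⟨x₂, y₂, h₂⟩) h
  · rfl
  · simp [h42pc_toOpt] at h
  · simp [h42pc_toOpt] at h
  · simp only [h42pc_toOpt, Option.some.injEq, Sigma.mk.injEq] at h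
    obtain ⟨rfl, h⟩ := h
    have := congrArg Subtype.val (eq_of_heq h)
    simp only at this
    subst this
    rfl

theorem h42pc_card_roots_le {F : Type*} [Field F] [Fintype F] [DecidableEq F]
    (W : WeierstrassCurve F) (x : F) :
    Nat.card {y : F // (h42pc_quad W x).IsRoot y} ≤ 2 := by
  classical
  have h1 : Nat.card {y : F // (h42pc_quad W x).IsRoot y}
      = (h42pc_quad W x).roots.toFinset.card := by
    rw [Nat.card_eq_fintype_card, Fintype.card_subtype]
    congr 1
    ext y
    simp [h42pc_quad_ne_zero W x]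
  rw [h1]
  calc (h42pc_quad W x).roots.toFinset.card
      ≤ Multiset.card (h42pc_quad W x).roots := Multiset.toFinset_card_le _
    _ ≤ (h42pc_quad W x).natDegree := Polynomial.card_roots' _
    _ = 2 := h42pc_quad_natDegree W x

/-- **Upper bound**: at most `2 q + 1` points. -/
theorem h42pc_card_le {F : Type*} [Field F] [Finite F] (W : WeierstrassCurve F) :
    Nat.card W.toAffine.Point ≤ 2 * Nat.card F + 1 := by
  classical
  let _ : Fintype F := Fintype.ofFinite F
  have hinj := h42pc_toOpt_injective W
  have h1 : Nat.card W.toAffine.Point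
      ≤ Nat.card (Option (Σ x : F, {y : F // (h42pc_quad W x).IsRoot y})) :=
    Nat.card_le_card_of_injective _ hinj
  have h2 : Nat.card (Option (Σ x : F, {y : F // (h42pc_quad W x).IsRoot y}))
      = Nat.card (Σ x : F, {y : F // (h42pc_quad W x).IsRoot y}) + 1 := by
    rw [Nat.card_eq_fintype_card, Nat.card_eq_fintype_card, Fintype.card_option]
  have h3 : Nat.card (Σ x : F, {y : F // (h42pc_quad W x).IsRoot y}) ≤ 2 * Nat.card F := by
    rw [Nat.card_eq_fintype_card, Fintype.card_sigma, Nat.card_eq_fintype_card]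
    calc ∑ x : F, Fintype.card {y : F // (h42pc_quad W x).IsRoot y}
        ≤ ∑ _x : F, 2 := Finset.sum_le_sum (fun x _ => by
          have := h42pc_card_roots_le W x
          rwa [Nat.card_eq_fintype_card] at this)
      _ = 2 * Fintype.card F := by
          rw [Finset.sum_const, Finset.card_univ, smul_eq_mul, mul_comm]
  omega

/-- **Lower bound**: the point at infinity. -/
theorem h42pc_one_le_card {F : Type*} [Field F] [Finite F] (W : WeierstrassCurve F) :
    1 ≤ Nat.card W.toAffine.Point := by
  exact Nat.card_pos_iff.mpr ⟨⟨Affine.Point.zero⟩, inferInstance⟩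

/-- The trace of Frobenius of a Weierstrass curve over a finite field with `q` elements
lies in `[-q, q]`. -/
theorem h42pc_abs_traceOfFrobenius_le {F : Type*} [Field F] [Finite F]
    (W : WeierstrassCurve F) : |W.traceOfFrobenius| ≤ (Nat.card F : ℤ) := by
  have h1 := h42pc_card_le W
  have h2 := h42pc_one_le_card W
  unfold WeierstrassCurve.traceOfFrobenius WeierstrassCurve.card
  rw [abs_le]
  constructor <;> omega

/-- **L3**: `|a_q(W)| ≤ q` for every integral Weierstrass model and every prime `q`. -/
theorem h42pc_abs_apOfModel_le (W : WeierstrassCurve ℤ) (q : ℕ) (hq : q.Prime) :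
    |W.apOfModel q| ≤ (q : ℤ) := by
  have : Fact q.Prime := ⟨hq⟩
  have h := h42pc_abs_traceOfFrobenius_le (W.reductionMod q)
  rw [Nat.card_eq_fintype_card, ZMod.card] at h
  exact h

theorem h42pc_apOfModel_le (W : WeierstrassCurve ℤ) (q : ℕ) (hq : q.Prime) :
    W.apOfModel q ≤ (q : ℤ) :=
  (abs_le.mp (h42pc_abs_apOfModel_le W q hq)).2

theorem h42pc_neg_le_apOfModel (W : WeierstrassCurve ℤ) (q : ℕ) (hq : q.Prime) :
    -(q : ℤ) ≤ W.apOfModel q :=
  (abs_le.mp (h42pc_abs_apOfModel_le W q hq)).1

/-- `a_q(W) ≠ e (q + 1)` for `e = ± 1`. -/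
theorem h42pc_apOfModel_ne (W : WeierstrassCurve ℤ) (q : ℕ) (hq : q.Prime)
    (e : ℤ) (he : e = 1 ∨ e = -1) : W.apOfModel q ≠ e * ((q : ℤ) + 1) := by
  have h1 := h42pc_apOfModel_le W q hq
  have h2 := h42pc_neg_le_apOfModel W q hq
  rcases he with rfl | rfl <;> intro h <;> omega

/-- Polynomial form: the Frobenius polynomial `X ^ 2 - a_q X + q` of an integral model is
never `(X - e) (X - e q)` with `e = ± 1` (over any commutative ring of characteristic
zero). -/
theorem h42pc_frobPoly_ne (W : WeierstrassCurve ℤ) (q : ℕ) (hq : q.Prime)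
    (R : Type*) [CommRing R] [CharZero R] (e : ℤ) (he : e = 1 ∨ e = -1) :
    (X ^ 2 - C ((W.apOfModel q : ℤ) : R) * X + C (q : R) : R[X])
      ≠ (X - C (e : R)) * (X - C ((e : R) * (q : R))) := by
  intro h
  have h1 := congrArg (fun P : R[X] => P.eval (e : R)) h
  simp only [eval_sub, eval_add, eval_pow, eval_X, eval_mul, eval_C, sub_self, zero_mul] at h1
  have h4 : ((W.apOfModel q : ℤ) : R) = ((e * ((q : ℤ) + 1) : ℤ) : R) := by
    rcases he with rfl | rfl
    · push_cast at h1 ⊢
      linear_combination -h1
    · push_cast at h1 ⊢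
      linear_combination h1
  exact h42pc_apOfModel_ne W q hq e he (Int.cast_injective h4)

end Fermat.Agent.S58
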