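import Mathlib
import Fermat.Agent.S29.Integral
import Fermat.Agent.S35.HK.Eig16

/-!
# S58, leaf LEVEL-UP (helper52)

`h52s_levelUp` : for `M ∣ N` and a normalised eigenform `g` of level `M` there is a normalised
eigenform `g'` of level `N` with `a_ℓ(g') = a_ℓ(g)` for all primes `ℓ ∤ N`
(this replaces the `q`-stabilisation `g(z) - β g(q z)`; no operator `V_q` is needed).

Route:
* `h52s_res` : the restriction `S₂(Γ₀(M)) → S₂(Γ₀(N))` (same function, same `q`-expansion);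
* `h52s_heckeTLin_res` : `res g` is an eigenvector of `T_ℓ` of level `N` (`ℓ ∤ N`) with
  eigenvalue `a_ℓ(g)` (`q`-expansion of `T_ℓ` + the relations of `g`);
* `h52s_eigenChar` : the eigencharacter of the Hecke algebra of level `N` away from the primes
  of `N` on the line spanned by `res g`;
* the landed `hk16_eigenOfChar N`.
-/

set_option autoImplicit false
set_option linter.style.haveILetI false

open CongruenceSubgroup ModularFormClass UpperHalfPlane

noncomputable section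

namespace Fermat.Agent.S58

theorem h52s_Gamma0_le {M N : ℕ} (h : M ∣ N) : Gamma0 N ≤ Gamma0 M := by
  intro A hA
  rw [Gamma0_mem] at hA ⊢
  rw [ZMod.intCast_zmod_eq_zero_iff_dvd] at hA ⊢
  exact (Int.natCast_dvd_natCast.mpr h).trans hA

/-- a cusp form of level `M`, regarded as a cusp form of level `N` (`M ∣ N`). -/
def h52s_res {M N : ℕ} (h : M ∣ N) (g : CuspForm (Gamma0 M) 2) : CuspForm (Gamma0 N) 2 where
  toFun := g
  slash_action_eq' γ hγ := by
    obtain ⟨γ', hγ', rfl⟩ := hγ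
    exact SlashInvariantFormClass.slash_action_eq g _ ⟨γ', h52s_Gamma0_le h hγ', rfl⟩
  holo' := CuspFormClass.holo g
  zero_at_cusps' hc := CuspFormClass.zero_at_cusps g
    (hc.mono (fun x hx => by
      obtain ⟨γ', hγ', rfl⟩ := hx
      exact ⟨γ', h52s_Gamma0_le h hγ', rfl⟩))

@[simp] theorem h52s_coe_res {M N : ℕ} (h : M ∣ N) (g : CuspForm (Gamma0 M) 2) :
    (h52s_res h g : ℍ → ℂ) = g := rfl

theorem h52s_qCoeff_res {M N : ℕ} (h : M ∣ N) (g : CuspForm (Gamma0 M) 2) (n : ℕ) :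
    qCoeff ⇑(h52s_res h g) n = qCoeff ⇑g n := rfl

theorem h52s_res_ne_zero {M N : ℕ} [NeZero M] (h : M ∣ N) {g : CuspForm (Gamma0 M) 2}
    (hg : g.IsNormalizedEigenform) : h52s_res h g ≠ 0 := by
  intro h0
  have h1 : qCoeff ⇑(h52s_res h g) 1 = 0 := by
    rw [h0]
    exact (Fermat.Agent.S49.qCoeffLin N 2 1).map_zero
  rw [h52s_qCoeff_res, hg.qCoeff_one] at h1
  exact one_ne_zero h1

/-- `res g` is an eigenvector of `T_ℓ` of level `N`, `ℓ ∤ N`, with eigenvalue `a_ℓ(g)`. -/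
theorem h52s_heckeTLin_res {M N : ℕ} [NeZero M] [NeZero N] (h : M ∣ N)
    {g : CuspForm (Gamma0 M) 2} (hg : g.IsNormalizedEigenform)
    {ℓ : ℕ} (hℓ : ℓ.Prime) (hℓN : ¬ ℓ ∣ N) :
    CuspForm.heckeTLin 2 hℓ hℓN (h52s_res h g) = qCoeff ⇑g ℓ • h52s_res h g := by
  have hℓM : ¬ ℓ ∣ M := fun hd => hℓN (hd.trans h)
  rw [← sub_eq_zero]
  apply Fermat.Agent.S49.eq_zero_of_forall_qCoeff
  intro n
  have h1 : qCoeff ⇑(CuspForm.heckeTLin 2 hℓ hℓN (h52s_res h g) - qCoeff ⇑g ℓ • h52s_res h g) n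
      = qCoeff ⇑(CuspForm.heckeTLin 2 hℓ hℓN (h52s_res h g)) n
        - qCoeff ⇑g ℓ * qCoeff ⇑g n := by
    have := (Fermat.Agent.S49.qCoeffLin N 2 n).map_sub
      (CuspForm.heckeTLin 2 hℓ hℓN (h52s_res h g)) (qCoeff ⇑g ℓ • h52s_res h g)
    simp only [Fermat.Agent.S49.qCoeffLin_apply] at this
    rw [this, Fermat.Agent.S49.qCoeff_smul_cusp, h52s_qCoeff_res]
  rw [h1, Fermat.Agent.S49.qCoeff_heckeTLin hℓ hℓN (h52s_res h g) n, h52s_qCoeff_res,
    h52s_qCoeff_res, ← Fermat.Agent.S29.Integral.qCoeff_rel_T hg hℓ hℓM n]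
  norm_num

/-- every element of the Hecke algebra of level `N` away from a set `S` containing the primes of
`N` acts on `res g` by a scalar. -/
theorem h52s_exists_scalar {M N : ℕ} [NeZero M] [NeZero N] (h : M ∣ N)
    {g : CuspForm (Gamma0 M) 2} (hg : g.IsNormalizedEigenform) (S : Set ℕ)
    (hS : ∀ r : ℕ, r.Prime → r ∣ N → r ∈ S)
    (T : Module.End ℂ (CuspForm (Gamma0 N) 2)) (hT : T ∈ CuspForm.heckeAlgebra N 2 S) :
    ∃ c : ℂ, T (h52s_res h g) = c • h52s_res h g := by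
  induction hT using Algebra.adjoin_induction with
  | mem x hx =>
    rcases hx with ⟨ℓ, hℓ, hℓN, -, rfl⟩ | ⟨q, hqN, hq, hqS, rfl⟩
    · exact ⟨_, h52s_heckeTLin_res h hg hℓ hℓN⟩
    · exact absurd (hS q hq hqN) hqS
  | algebraMap r =>
    refine ⟨(r : ℂ), ?_⟩
    rw [Algebra.algebraMap_eq_smul_one, LinearMap.smul_apply, Module.End.one_apply]
    exact (Int.cast_smul_eq_zsmul ℂ r _).symm
  | add x y _ _ hx hy =>
    obtain ⟨c, hc⟩ := hx
    obtain ⟨d, hd⟩ := hy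
    exact ⟨c + d, by rw [LinearMap.add_apply, hc, hd, add_smul]⟩
  | mul x y _ _ hx hy =>
    obtain ⟨c, hc⟩ := hx
    obtain ⟨d, hd⟩ := hy
    exact ⟨d * c, by rw [Module.End.mul_apply, hd, map_smul, hc, smul_smul]⟩

/-- the scalar by which an element of the Hecke algebra acts on `res g`. -/
def h52s_scalar {M N : ℕ} [NeZero M] [NeZero N] (h : M ∣ N)
    {g : CuspForm (Gamma0 M) 2} (hg : g.IsNormalizedEigenform) (S : Set ℕ)
    (hS : ∀ r : ℕ, r.Prime → r ∣ N → r ∈ S) (T : CuspForm.heckeAlgebra N 2 S) : ℂ :=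
  Classical.choose (h52s_exists_scalar h hg S hS T.1 T.2)

theorem h52s_scalar_spec {M N : ℕ} [NeZero M] [NeZero N] (h : M ∣ N)
    {g : CuspForm (Gamma0 M) 2} (hg : g.IsNormalizedEigenform) (S : Set ℕ)
    (hS : ∀ r : ℕ, r.Prime → r ∣ N → r ∈ S) (T : CuspForm.heckeAlgebra N 2 S) :
    (T : Module.End ℂ (CuspForm (Gamma0 N) 2)) (h52s_res h g)
      = h52s_scalar h hg S hS T • h52s_res h g :=
  Classical.choose_spec (h52s_exists_scalar h hg S hS T.1 T.2)

theorem h52s_scalar_unique {M N : ℕ} [NeZero M] [NeZero N] (h : M ∣ N)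
    {g : CuspForm (Gamma0 M) 2} (hg : g.IsNormalizedEigenform) (S : Set ℕ)
    (hS : ∀ r : ℕ, r.Prime → r ∣ N → r ∈ S) (T : CuspForm.heckeAlgebra N 2 S) {c : ℂ}
    (hc : (T : Module.End ℂ (CuspForm (Gamma0 N) 2)) (h52s_res h g) = c • h52s_res h g) :
    h52s_scalar h hg S hS T = c := by
  have h1 := h52s_scalar_spec h hg S hS T
  rw [hc] at h1
  exact (smul_left_injective ℂ (h52s_res_ne_zero h hg) h1).symm

/-- **the eigencharacter** of the Hecke algebra of level `N` away from `S ⊇ primes(N)` on the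
line spanned by `res g`. -/
def h52s_eigenChar {M N : ℕ} [NeZero M] [NeZero N] (h : M ∣ N)
    {g : CuspForm (Gamma0 M) 2} (hg : g.IsNormalizedEigenform) (S : Set ℕ)
    (hS : ∀ r : ℕ, r.Prime → r ∣ N → r ∈ S) : CuspForm.heckeAlgebra N 2 S →+* ℂ where
  toFun := h52s_scalar h hg S hS
  map_one' := by
    apply h52s_scalar_unique
    rw [one_smul]
    rfl
  map_mul' x y := by
    apply h52s_scalar_unique
    rw [Subalgebra.coe_mul, Module.End.mul_apply, h52s_scalar_spec h hg S hS y, map_smul,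
      h52s_scalar_spec h hg S hS x, smul_smul, mul_comm]
  map_zero' := by
    apply h52s_scalar_unique
    rw [zero_smul]
    rfl
  map_add' x y := by
    apply h52s_scalar_unique
    rw [Subalgebra.coe_add, LinearMap.add_apply, h52s_scalar_spec h hg S hS x,
      h52s_scalar_spec h hg S hS y, add_smul]

theorem h52s_eigenChar_T {M N : ℕ} [NeZero M] [NeZero N] (h : M ∣ N)
    {g : CuspForm (Gamma0 M) 2} (hg : g.IsNormalizedEigenform) (S : Set ℕ)
    (hS : ∀ r : ℕ, r.Prime → r ∣ N → r ∈ S)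
    {ℓ : ℕ} (hℓ : ℓ.Prime) (hℓN : ¬ ℓ ∣ N) (hℓS : ℓ ∉ S) :
    h52s_eigenChar h hg S hS (CuspForm.heckeAlgebra.T hℓ hℓN hℓS) = qCoeff ⇑g ℓ := by
  refine h52s_scalar_unique h hg S hS _ ?_
  rw [CuspForm.heckeAlgebra.coe_T]
  exact h52s_heckeTLin_res h hg hℓ hℓN

/-- **LEVEL-UP.**  For `M ∣ N`, a normalised eigenform of level `M` has a companion normalised
eigenform of level `N` with the same eigenvalues at all primes not dividing `N`. -/
theorem h52s_levelUp {M N : ℕ} [NeZero M] [NeZero N] (h : M ∣ N)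
    (g : CuspForm (Gamma0 M) 2) (hg : g.IsNormalizedEigenform) :
    ∃ g' : CuspForm (Gamma0 N) 2, g'.IsNormalizedEigenform ∧
      ∀ ℓ : ℕ, ℓ.Prime → ¬ ℓ ∣ N → qCoeff ⇑g' ℓ = qCoeff ⇑g ℓ := by
  classical
  have hS : ∀ r : ℕ, r.Prime → r ∣ N → r ∈ ((N.primeFactors : Finset ℕ) : Set ℕ) := by
    intro r hr hrN
    exact Finset.mem_coe.mpr (Nat.mem_primeFactors.mpr ⟨hr, hrN, NeZero.ne N⟩)
  obtain ⟨g', hg', hg'χ⟩ := Fermat.Agent.S35.hk16_eigenOfChar N N.primeFactors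
    (fun r hr hrN => Nat.mem_primeFactors.mpr ⟨hr, hrN, NeZero.ne N⟩)
    (h52s_eigenChar h hg _ hS)
  refine ⟨g', hg', fun ℓ hℓ hℓN => ?_⟩
  have hℓS : ℓ ∉ ((N.primeFactors : Finset ℕ) : Set ℕ) := by
    intro hmem
    exact hℓN (Nat.dvd_of_mem_primeFactors (Finset.mem_coe.mp hmem))
  rw [hg'χ ℓ hℓ hℓN hℓS, h52s_eigenChar_T h hg _ hS hℓ hℓN hℓS]

end Fermat.Agent.S58
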