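import Fermat.Agent.S58.H52IotaPrime
import Fermat.Agent.S58.H52LevelUp

/-!
# S58, leaf IOTA (helper52), parts B and C: producing the `iota` of S35 / S36

To *call* S35 / S36 one has to produce a complete discrete valuation ring `O'` and a ring
homomorphism `iota : chig.range →+* O'`.

* `h52i_range_le` : if `S` contains the primes of the level, `chig.range` is contained in every
  subring of `ℂ` containing the values `chig (T_ℓ)`;
* `h52i_exists_iota_of_int` : if all `chig (T_ℓ)` are integers, there is an `iota` to *any* ring;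
* `h52i_exists_iota_adjoin` : if all `chig (T_ℓ)` lie in `ℤ[α]`, `α` an algebraic integer, there
  is an `iota` to `ℤ_[lam]` for some prime `lam` outside any given finite set
  (a degree-one prime of `ℤ[α]`);
* `h52i_iota_int`, `h52i_iota_root` : what every `iota` does on integers and on roots;
* `h52i_eq_int_of_iota` : **rationality**: if `iota (chig x)` is the integer `a` and `chig x` is
  integral over `ℤ`, then `chig x = a`.
-/

set_option autoImplicit false
set_option linter.style.haveILetI false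

open Polynomial CongruenceSubgroup ModularFormClass

noncomputable section

namespace Fermat.Agent.S58

variable {M : ℕ} [NeZero M]

/-- If `S` contains the primes of the level, the range of an eigencharacter is contained in every
subring of `ℂ` containing its values on the `T_ℓ`. -/
theorem h52i_range_le (S : Set ℕ) (chig : CuspForm.heckeAlgebra M 2 S →+* ℂ)
    (hMS : ∀ q : ℕ, q.Prime → q ∣ M → q ∈ S) (R₀ : Subring ℂ)
    (h : ∀ (ℓ : ℕ) (hℓ : ℓ.Prime) (hℓM : ¬ ℓ ∣ M) (hℓS : ℓ ∉ S),
      chig (CuspForm.heckeAlgebra.T hℓ hℓM hℓS) ∈ R₀) : chig.range ≤ R₀ := by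
  rintro _ ⟨⟨T, hT⟩, rfl⟩
  induction hT using Algebra.adjoin_induction with
  | mem x hx =>
    rcases hx with ⟨ℓ, hℓ, hℓN, hℓS, rfl⟩ | ⟨q, hqN, hq, hqS, rfl⟩
    · exact h ℓ hℓ hℓN hℓS
    · exact absurd (hMS q hq hqN) hqS
  | algebraMap r =>
    have : (⟨algebraMap ℤ _ r, Subalgebra.algebraMap_mem _ r⟩ : CuspForm.heckeAlgebra M 2 S)
        = ((r : ℤ) : CuspForm.heckeAlgebra M 2 S) := by
      apply Subtype.ext
      simp
    rw [this, map_intCast]
    exact intCast_mem R₀ r
  | add x y hx hy ihx ihy =>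
    have : (⟨x + y, Subalgebra.add_mem _ hx hy⟩ : CuspForm.heckeAlgebra M 2 S)
        = ⟨x, hx⟩ + ⟨y, hy⟩ := rfl
    rw [this, map_add]
    exact R₀.add_mem ihx ihy
  | mul x y hx hy ihx ihy =>
    have : (⟨x * y, Subalgebra.mul_mem _ hx hy⟩ : CuspForm.heckeAlgebra M 2 S)
        = ⟨x, hx⟩ * ⟨y, hy⟩ := rfl
    rw [this, map_mul]
    exact R₀.mul_mem ihx ihy

/-- every ring homomorphism on `chig.range` sends integers to integers. -/
theorem h52i_iota_int {R : Type*} [Ring R] {O' : Type*} [Ring O'] (chig : R →+* ℂ)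
    (iota : chig.range →+* O') (x : R) (n : ℤ) (hx : chig x = n) :
    iota (chig.rangeRestrict x) = n := by
  have : chig.rangeRestrict x = ((n : ℤ) : chig.range) := by
    apply Subtype.ext
    rw [RingHom.coe_rangeRestrict, hx]
    simp
  rw [this, map_intCast]

/-- every ring homomorphism on `chig.range` sends roots to roots. -/
theorem h52i_iota_root {R : Type*} [CommRing R] {O' : Type*} [CommRing O'] (chig : R →+* ℂ)
    (iota : chig.range →+* O') (x : R) (P : ℤ[X]) (hx : Polynomial.aeval (chig x) P = 0) :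
    Polynomial.aeval (iota (chig.rangeRestrict x)) P = 0 := by
  have h1 : Polynomial.aeval (chig.rangeRestrict x) P = 0 := by
    apply Subtype.ext
    have := Polynomial.aeval_algHom_apply (chig.range.subtype.toIntAlgHom)
      (chig.rangeRestrict x) P
    simp only [RingHom.toIntAlgHom_apply, Subring.subtype_apply,
      RingHom.coe_rangeRestrict] at this
    rw [← this, hx]
    simp
  have h2 := Polynomial.aeval_algHom_apply iota.toIntAlgHom (chig.rangeRestrict x) P
  simp only [RingHom.toIntAlgHom_apply] at h2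
  rw [h2, h1, map_zero]

/-- **Rationality.**  If `chig x` is an algebraic integer and some `iota` with values in a
domain of characteristic zero sends it to the integer `a`, then `chig x = a`. -/
theorem h52i_eq_int_of_iota {R : Type*} [CommRing R] {O' : Type*} [CommRing O'] [IsDomain O']
    [CharZero O'] (chig : R →+* ℂ) (iota : chig.range →+* O') (x : R)
    (hint : IsIntegral ℤ (chig x)) (a : ℤ) (h : iota (chig.rangeRestrict x) = a) :
    chig x = a := by
  set α : ℂ := chig x with hα
  set P : ℤ[X] := minpoly ℤ α with hP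
  have hroot : Polynomial.aeval α P = 0 := minpoly.aeval ℤ α
  have h1 := h52i_iota_root chig iota x P hroot
  rw [h] at h1
  have h2 : Polynomial.aeval ((a : ℤ) : O') P = (((P.eval a : ℤ)) : O') := by
    have := Polynomial.aeval_algebraMap_apply_eq_algebraMap_eval (R := ℤ) (A := O') a P
    simpa using this
  rw [h2] at h1
  have h3 : P.eval a = 0 := by exact_mod_cast h1
  have hdvd : (X - C a) ∣ P := Polynomial.dvd_iff_isRoot.mpr h3
  obtain ⟨Q, hQ⟩ := hdvd
  have hirr : Irreducible P := minpoly.irreducible hint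
  have hQu : IsUnit Q := by
    rcases hirr.isUnit_or_isUnit hQ with hu | hu
    · exact absurd hu (Polynomial.not_isUnit_X_sub_C a)
    · exact hu
  have h4 : Polynomial.aeval α P = (α - a) * Polynomial.aeval α Q := by
    rw [hQ, map_mul]
    simp
  rw [hroot] at h4
  have h5 : IsUnit (Polynomial.aeval α Q) := hQu.map (Polynomial.aeval α)
  rcases mul_eq_zero.mp h4.symm with h6 | h6
  · exact sub_eq_zero.mp h6
  · exact absurd h6 h5.ne_zero

/-- If all the `chig (T_ℓ)` are integers there is an `iota` with values in any ring. -/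
theorem h52i_exists_iota_of_int (O' : Type*) [Ring O'] (S : Set ℕ)
    (chig : CuspForm.heckeAlgebra M 2 S →+* ℂ)
    (hMS : ∀ q : ℕ, q.Prime → q ∣ M → q ∈ S)
    (h : ∀ (ℓ : ℕ) (hℓ : ℓ.Prime) (hℓM : ¬ ℓ ∣ M) (hℓS : ℓ ∉ S),
      ∃ n : ℤ, chig (CuspForm.heckeAlgebra.T hℓ hℓM hℓS) = n) :
    Nonempty (chig.range →+* O') := by
  have hle : chig.range ≤ (Int.castRingHom ℂ).range := by
    apply h52i_range_le S chig hMS
    intro ℓ hℓ hℓM hℓS
    obtain ⟨n, hn⟩ := h ℓ hℓ hℓM hℓS
    exact ⟨n, by rw [hn]; rfl⟩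
  let e : ℤ ≃+* (Int.castRingHom ℂ).range := RingEquiv.ofLeftInverse
    (g := fun z : ℂ => ⌊z.re⌋) (f := Int.castRingHom ℂ) (fun n => by simp)
  exact ⟨((Int.castRingHom O').comp (e.symm : (Int.castRingHom ℂ).range →+* ℤ)).comp
    (Subring.inclusion hle)⟩

/-- **A degree-one prime of `ℤ[α]`.**  For an algebraic integer `α` and a finite set `F` there is
a prime `lam ∉ F` such that every eigencharacter `chig` (of any level, away from any `S`
containing the primes of the level) with values in `ℤ[α]` admits an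
`iota : chig.range →+* ℤ_[lam]`. -/
theorem h52i_exists_iota_adjoin (α : ℂ) (hα : IsIntegral ℤ α) (F : Finset ℕ) :
    ∃ (lam : ℕ) (hlam : lam.Prime), lam ∉ F ∧
      (haveI : Fact lam.Prime := ⟨hlam⟩
       ∀ (M : ℕ) [NeZero M] (S : Set ℕ) (chig : CuspForm.heckeAlgebra M 2 S →+* ℂ),
        (∀ q : ℕ, q.Prime → q ∣ M → q ∈ S) →
        (∀ (ℓ : ℕ) (hℓ : ℓ.Prime) (hℓM : ¬ ℓ ∣ M) (hℓS : ℓ ∉ S),
          chig (CuspForm.heckeAlgebra.T hℓ hℓM hℓS) ∈ Algebra.adjoin ℤ ({α} : Set ℂ)) →
        Nonempty (chig.range →+* ℤ_[lam])) := by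
  obtain ⟨lam, hlam, hlamF, r, hr⟩ :=
    h52i_exists_prime_root (minpoly ℤ α) (minpoly.monic hα) (minpoly.irreducible hα) F
  refine ⟨lam, hlam, hlamF, ?_⟩
  haveI : Fact lam.Prime := ⟨hlam⟩
  intro M _ S chig hMS h
  have hle : chig.range ≤ (Algebra.adjoin ℤ ({α} : Set ℂ)).toSubring :=
    h52i_range_le S chig hMS _ h
  let φ₁ : AdjoinRoot (minpoly ℤ α) →+* ℤ_[lam] :=
    AdjoinRoot.lift (algebraMap ℤ ℤ_[lam]) r (by
      rw [← Polynomial.aeval_def]; exact hr)
  let φ₂ : (Algebra.adjoin ℤ ({α} : Set ℂ)) →+* AdjoinRoot (minpoly ℤ α) :=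
    ((minpoly.equivAdjoin hα).symm : (Algebra.adjoin ℤ ({α} : Set ℂ)) →+*
      AdjoinRoot (minpoly ℤ α))
  exact ⟨(φ₁.comp φ₂).comp (Subring.inclusion hle)⟩

end Fermat.Agent.S58
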