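import Fermat.Agent.S58.H52Iota

/-!
# S58, leaf IOTA-INT (helper52)

`h52i_iotaInt` : the interface Prop `h54s_IotaInt` of `S58/H54Iface.lean` **with the extra
hypothesis** `hMS : ∀ q, q.Prime → q ∣ M → q ∈ S` (which holds in every use: `S ⊇ primes N`,
`M ∣ N`).

The hypothesis cannot be dropped: for `q ∣ M`, `q ∉ S` the Hecke algebra away from `S` contains
`U_q`, and `chig (U_q)` need not be rational (level `22`, `S = {11}`: the `U_2`-eigenvalues of the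
oldforms are `-1 ± i`, and there is no ring homomorphism `ℤ[i] → ℤ_[3]`).
-/

set_option autoImplicit false
set_option linter.style.haveILetI false

noncomputable section

namespace Fermat.Agent.S58

/-- **IOTA-INT.**  An eigencharacter (away from a set `S` containing the primes of the level)
with integer values on the generators `T_ℓ` has its range inside `ℤ`, hence maps to
`ℤ_[lam]`. -/
theorem h52i_iotaInt (M : ℕ) [NeZero M] (S : Finset ℕ)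
    (chig : CuspForm.heckeAlgebra M 2 (↑S : Set ℕ) →+* ℂ) (a : ℕ → ℤ)
    (hMS : ∀ q : ℕ, q.Prime → q ∣ M → q ∈ S)
    (h : ∀ (ℓ : ℕ) (hℓ : ℓ.Prime) (hℓM : ¬ ℓ ∣ M) (hℓS : ℓ ∉ (↑S : Set ℕ)),
      chig (CuspForm.heckeAlgebra.T hℓ hℓM hℓS) = ((a ℓ : ℤ) : ℂ))
    (lam : ℕ) [Fact lam.Prime] : ∃ iota : chig.range →+* ℤ_[lam],
      ∀ (ℓ : ℕ) (hℓ : ℓ.Prime) (hℓM : ¬ ℓ ∣ M) (hℓS : ℓ ∉ (↑S : Set ℕ)),
        (iota.comp chig.rangeRestrict) (CuspForm.heckeAlgebra.T hℓ hℓM hℓS)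
          = ((a ℓ : ℤ) : ℤ_[lam]) := by
  have hex : ∀ (ℓ : ℕ) (hℓ : ℓ.Prime) (hℓM : ¬ ℓ ∣ M) (hℓS : ℓ ∉ (↑S : Set ℕ)),
      ∃ n : ℤ, chig (CuspForm.heckeAlgebra.T hℓ hℓM hℓS) = n :=
    fun ℓ hℓ hℓM hℓS => ⟨a ℓ, h ℓ hℓ hℓM hℓS⟩
  have hMS' : ∀ q : ℕ, q.Prime → q ∣ M → q ∈ (↑S : Set ℕ) :=
    fun q hq hqM => Finset.mem_coe.mpr (hMS q hq hqM)
  obtain ⟨iota⟩ := h52i_exists_iota_of_int ℤ_[lam] (↑S : Set ℕ) chig hMS' hex
  refine ⟨iota, fun ℓ hℓ hℓM hℓS => ?_⟩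
  rw [RingHom.comp_apply]
  exact h52i_iota_int chig iota _ (a ℓ) (h ℓ hℓ hℓM hℓS)

end Fermat.Agent.S58
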