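import Mathlib

/-!
# S58, leaf IOTA (helper52), part A: a degree-one prime for a monic irreducible integer polynomial

`h52i_exists_prime_root`: for a monic irreducible `P ∈ ℤ[X]` and a finite set `F` of numbers
there are a prime `lam ∉ F` and a root of `P` in `ℤ_[lam]`
(Schur's elementary argument + separability + Hensel's lemma).
-/

set_option autoImplicit false
set_option linter.style.haveILetI false

open Polynomial

namespace Fermat.Agent.S58

/-- **Schur.**  A non-constant integer polynomial has a value divisible by a prime outside any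
given finite set. -/
theorem h52i_schur (Q : ℤ[X]) (hQ : 0 < Q.natDegree) (F : Finset ℕ) :
    ∃ lam : ℕ, lam.Prime ∧ lam ∉ F ∧ ∃ a : ℤ, (lam : ℤ) ∣ Q.eval a := by
  classical
  -- a prime outside `F`
  have hprime : ∃ lam : ℕ, lam.Prime ∧ lam ∉ F := by
    obtain ⟨l, hl1, hl2⟩ := Nat.exists_infinite_primes (F.sup id + 1)
    refine ⟨l, hl2, fun hmem => ?_⟩
    have : l ≤ F.sup id := Finset.le_sup (f := id) hmem
    omega
  set c : ℤ := Q.coeff 0 with hc
  set Q₁ : ℤ[X] := Q.divX with hQ₁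
  have hQeq : Q = C c + X * Q₁ := by
    have := Polynomial.divX_mul_X_add Q
    rw [← this]; ring
  by_cases hc0 : c = 0
  · obtain ⟨l, hl, hlF⟩ := hprime
    refine ⟨l, hl, hlF, 0, ?_⟩
    have : Q.eval 0 = 0 := by
      rw [← Polynomial.coeff_zero_eq_eval_zero]; exact hc0
    rw [this]; exact dvd_zero _
  set m : ℤ := ∏ l ∈ F.filter Nat.Prime, (l : ℤ) with hm
  have hm0 : m ≠ 0 := by
    rw [hm]
    apply Finset.prod_ne_zero_iff.mpr
    intro l hl
    have := (Finset.mem_filter.mp hl).2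
    exact_mod_cast this.ne_zero
  have hmdvd : ∀ l ∈ F, l.Prime → (l : ℤ) ∣ m := by
    intro l hl hlp
    rw [hm]
    exact Finset.dvd_prod_of_mem (fun l : ℕ => (l : ℤ)) (Finset.mem_filter.mpr ⟨hl, hlp⟩)
  have hQ₁0 : Q₁ ≠ 0 := by
    intro h0
    rw [h0, mul_zero, add_zero] at hQeq
    rw [hQeq, natDegree_C] at hQ
    exact lt_irrefl _ hQ
  -- the auxiliary polynomial `K(x) = m x Q₁(c m x)`
  set L : ℤ[X] := C (c * m) * X with hL
  have hL0 : L.natDegree ≠ 0 := by
    rw [hL, natDegree_C_mul_X _ (mul_ne_zero hc0 hm0)]; exact one_ne_zero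
  set K : ℤ[X] := C m * X * Q₁.comp L with hK
  have hcomp0 : Q₁.comp L ≠ 0 := by
    intro h0
    rcases (Polynomial.comp_eq_zero_iff.mp h0) with h | h
    · exact hQ₁0 h
    · have := h.2
      have hL' : L.natDegree = 0 := by rw [this, natDegree_C]
      exact hL0 hL'
  have hK0 : K ≠ 0 := by
    rw [hK]
    exact mul_ne_zero (mul_ne_zero (by simpa using hm0) X_ne_zero) hcomp0
  have hK2 : K + 2 ≠ 0 := by
    intro h0
    have := congrArg (Polynomial.eval 0) h0
    simp [hK] at this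
  have hKK : K * (K + 2) ≠ 0 := mul_ne_zero hK0 hK2
  obtain ⟨x, hx⟩ : ∃ x : ℤ, (K * (K + 2)).eval x ≠ 0 := by
    by_contra hcon
    push Not at hcon
    exact hKK (Polynomial.eq_zero_of_infinite_isRoot _
      (Set.infinite_of_forall_exists_gt (fun a => ⟨a + 1, hcon _, by omega⟩)))
  rw [eval_mul, eval_add] at hx
  have hx1 : K.eval x ≠ 0 := fun h => hx (by rw [h, zero_mul])
  have hx2 : K.eval x + 2 ≠ 0 := fun h => hx (by
    have : Polynomial.eval x (2 : ℤ[X]) = 2 := by simp
    rw [this, h, mul_zero])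
  -- the value
  have hval : Q.eval (c * m * x) = c * (1 + K.eval x) := by
    conv_lhs => rw [hQeq]
    simp only [hK, hL, eval_add, eval_mul, eval_C, eval_X, eval_comp]
    ring
  set G : ℤ := 1 + K.eval x with hG
  have hKm : m ∣ K.eval x := by
    simp only [hK, eval_mul, eval_C, eval_X]
    exact ⟨x * eval x (Q₁.comp L), by ring⟩
  by_cases hG0 : G = 0
  · obtain ⟨l, hl, hlF⟩ := hprime
    refine ⟨l, hl, hlF, c * m * x, ?_⟩
    rw [hval, hG0, mul_zero]; exact dvd_zero _
  have hGabs : G.natAbs ≠ 1 := by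
    intro h1
    rcases Int.natAbs_eq G with h | h
    · rw [h1] at h
      apply hx1
      have : G = 1 := by simpa using h
      rw [hG] at this; linarith
    · rw [h1] at h
      apply hx2
      have : G = -1 := by simpa using h
      rw [hG] at this; linarith
  obtain ⟨l, hl, hlG⟩ := Nat.exists_prime_and_dvd hGabs
  have hlG' : (l : ℤ) ∣ G := Int.natCast_dvd.mpr hlG
  refine ⟨l, hl, fun hlF => ?_, c * m * x, ?_⟩
  · have h1 : (l : ℤ) ∣ K.eval x := (hmdvd l hlF hl).trans hKm
    have h2 : (l : ℤ) ∣ 1 := by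
      have := dvd_sub hlG' h1
      rw [hG] at this
      simpa using this
    have h3 : (l : ℤ) = 1 ∨ (l : ℤ) = -1 := Int.isUnit_iff.mp (isUnit_of_dvd_one h2)
    rcases h3 with h3 | h3
    · have : l = 1 := by exact_mod_cast h3
      exact hl.one_lt.ne' this
    · have : (0 : ℤ) ≤ l := Int.natCast_nonneg l
      omega
  · rw [hval]; exact Dvd.dvd.mul_left hlG' c

/-- **Bezout over `ℤ`** for a monic irreducible polynomial and its derivative. -/
theorem h52i_bezout_int (P : ℤ[X]) (hP : P.Monic) (hirr : Irreducible P) :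
    ∃ d : ℤ, d ≠ 0 ∧ ∃ U V : ℤ[X], U * P + V * derivative P = C d := by
  have hirrQ : Irreducible (P.map (algebraMap ℤ ℚ)) :=
    (Polynomial.Monic.irreducible_iff_irreducible_map_fraction_map hP).mp hirr
  have hsep : (P.map (algebraMap ℤ ℚ)).Separable := hirrQ.separable
  obtain ⟨u, v, huv⟩ := hsep
  obtain ⟨b₁, hb₁m, hb₁⟩ := IsLocalization.integerNormalization_spec (nonZeroDivisors ℤ) u
  obtain ⟨b₂, hb₂m, hb₂⟩ := IsLocalization.integerNormalization_spec (nonZeroDivisors ℤ) v
  set U₀ := IsLocalization.integerNormalization (nonZeroDivisors ℤ) u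
  set V₀ := IsLocalization.integerNormalization (nonZeroDivisors ℤ) v
  refine ⟨(b₁ : ℤ) * (b₂ : ℤ), mul_ne_zero (nonZeroDivisors.ne_zero hb₁m)
    (nonZeroDivisors.ne_zero hb₂m), C (b₂ : ℤ) * U₀, C (b₁ : ℤ) * V₀, ?_⟩
  apply Polynomial.map_injective (algebraMap ℤ ℚ) (IsFractionRing.injective ℤ ℚ)
  simp only [Polynomial.map_add, Polynomial.map_mul, Polynomial.map_C, hb₁, hb₂,
    ← Polynomial.derivative_map]
  have e : ∀ (b : ℤ) (w : ℚ[X]), b • w = C ((algebraMap ℤ ℚ) b) * w := by
    intro b w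
    rw [zsmul_eq_mul]; simp
  rw [e, e, map_mul, C_mul]
  linear_combination (C ((algebraMap ℤ ℚ) b₁) * C ((algebraMap ℤ ℚ) b₂)) * huv

/-- **A degree-one prime.**  A monic irreducible integer polynomial has a root in `ℤ_[lam]` for
some prime `lam` outside any given finite set. -/
theorem h52i_exists_prime_root (P : ℤ[X]) (hP : P.Monic) (hirr : Irreducible P) (F : Finset ℕ) :
    ∃ (lam : ℕ) (hlam : lam.Prime), lam ∉ F ∧
      (haveI : Fact lam.Prime := ⟨hlam⟩; ∃ r : ℤ_[lam], Polynomial.aeval r P = 0) := by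
  classical
  obtain ⟨d, hd0, U, V, hUV⟩ := h52i_bezout_int P hP hirr
  have hdeg : 0 < P.natDegree := by
    rcases Nat.eq_zero_or_pos P.natDegree with h | h
    · exfalso
      have h1 : P = 1 := by
        have := Polynomial.eq_C_of_natDegree_eq_zero h
        rw [this]
        have hl : P.leadingCoeff = 1 := hP
        rw [Polynomial.leadingCoeff, h] at hl
        rw [hl]; simp
      exact hirr.not_isUnit (h1 ▸ isUnit_one)
    · exact h
  obtain ⟨lam, hlam, hlamF, a, ha⟩ :=
    h52i_schur P hdeg (F ∪ d.natAbs.primeFactors)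
  have hlamF' : lam ∉ F := fun h => hlamF (Finset.mem_union_left _ h)
  have hlamd : ¬ (lam : ℤ) ∣ d := by
    intro h
    apply hlamF
    apply Finset.mem_union_right
    rw [Nat.mem_primeFactors]
    exact ⟨hlam, Int.natCast_dvd.mp h, by simpa using hd0⟩
  refine ⟨lam, hlam, hlamF', ?_⟩
  haveI : Fact lam.Prime := ⟨hlam⟩
  have hev : ∀ R : ℤ[X], Polynomial.aeval ((a : ℤ) : ℤ_[lam]) R = ((R.eval a : ℤ) : ℤ_[lam]) := by
    intro R
    have := Polynomial.aeval_algebraMap_apply_eq_algebraMap_eval (R := ℤ) (A := ℤ_[lam]) a R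
    simpa using this
  -- `P'(a)` is a unit mod `lam`
  have hder : ¬ (lam : ℤ) ∣ (derivative P).eval a := by
    intro h
    apply hlamd
    have := congrArg (Polynomial.eval a) hUV
    simp only [eval_add, eval_mul, eval_C] at this
    rw [← this]
    exact dvd_add (Dvd.dvd.mul_left ha _) (Dvd.dvd.mul_left h _)
  have hn1 : ‖Polynomial.aeval ((a : ℤ) : ℤ_[lam]) P‖ < 1 := by
    rw [hev]; exact (PadicInt.norm_int_lt_one_iff_dvd _).mpr ha
  have hn2 : ‖Polynomial.aeval ((a : ℤ) : ℤ_[lam]) (derivative P)‖ = 1 := by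
    rw [hev]
    have h1 : ¬ ‖(((derivative P).eval a : ℤ) : ℤ_[lam])‖ < 1 := fun h =>
      hder ((PadicInt.norm_int_lt_one_iff_dvd _).mp h)
    exact le_antisymm (PadicInt.norm_le_one _) (not_lt.mp h1)
  have hnorm : ‖Polynomial.aeval ((a : ℤ) : ℤ_[lam]) P‖ <
      ‖Polynomial.aeval ((a : ℤ) : ℤ_[lam]) (derivative P)‖ ^ 2 := by
    rw [hn2]; simpa using hn1
  obtain ⟨z, hz, -⟩ := hensels_lemma hnorm
  exact ⟨z, hz⟩

end Fermat.Agent.S58
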