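import Fermat.Prelude.Def_CuspForm_Newforms

/-!
# S58, leaf NEWFORM DESCENT (helper52)

`h52s_exists_newform` : every normalised eigenform `f` of level `N > 0` has an underlying
newform (in the sense of the Prelude: a normalised eigenform whose system of good eigenvalues
does not occur at any proper divisor of its level) `g` of some level `M ∣ N` with
`a_ℓ(g) = a_ℓ(f)` for all primes `ℓ ∤ N`.

Proof: strong induction on the level.
-/

set_option autoImplicit false

open ModularFormClass

namespace Fermat.Agent.S58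

/-- **Newform descent.**  A normalised eigenform of level `N` has an underlying newform of
level `M ∣ N` with the same eigenvalues at the primes not dividing `N`. -/
theorem h52s_exists_newform :
    ∀ (N : ℕ), 0 < N → ∀ (f : CuspForm (CongruenceSubgroup.Gamma0 N) 2),
      f.IsNormalizedEigenform →
      ∃ M : ℕ, M ∣ N ∧ ∃ g : CuspForm (CongruenceSubgroup.Gamma0 M) 2, g.IsNewform ∧
        ∀ ℓ : ℕ, ℓ.Prime → ¬ ℓ ∣ N → qCoeff g ℓ = qCoeff f ℓ := by
  intro N
  induction N using Nat.strong_induction_on with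
  | _ N ih =>
    intro hN f hf
    by_cases hnew : f.IsNewform
    · exact ⟨N, dvd_rfl, f, hnew, fun _ _ _ => rfl⟩
    · have h1 : ∃ M : ℕ, M ∣ N ∧ M ≠ N ∧ CuspForm.GoodEigensystemOccursAt f M := by
        by_contra hcon
        apply hnew
        refine ⟨hf, fun M hMN hne hocc => hcon ⟨M, hMN, hne, hocc⟩⟩
      obtain ⟨M, hMN, hne, g, hg, hgf⟩ := h1
      have hMpos : 0 < M := Nat.pos_of_dvd_of_pos hMN hN
      have hlt : M < N := lt_of_le_of_ne (Nat.le_of_dvd hN hMN) hne
      obtain ⟨M', hM'M, g', hg', hg'g⟩ := ih M hlt hMpos g hg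
      refine ⟨M', hM'M.trans hMN, g', hg', fun ℓ hℓ hℓN => ?_⟩
      have hℓM : ¬ ℓ ∣ M := fun h => hℓN (h.trans hMN)
      rw [hg'g ℓ hℓ hℓM, hgf ℓ hℓ hℓN]

/-- the level of a newform underlying an eigenform of positive level is positive. -/
theorem h52s_pos_of_dvd {M N : ℕ} (hN : 0 < N) (h : M ∣ N) : 0 < M :=
  Nat.pos_of_dvd_of_pos h hN

end Fermat.Agent.S58
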