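import Fermat.Agent.S58.H54Top
import Fermat.Agent.S58.H78ECore
import Fermat.Prelude.Def_FLTPrelim_ModularRep

/-!
# S58: the frozen statement from the `hres`-free core of S36 (helper54)

`h54s_s58_of_core : h54s_S36Core → (frozen statement of S58)`; the E-side inputs are the landed
theorems `h78c_eCoreFrob`, `h78c_eCoreInertia` of helper78.  The hypotheses `p ≠ 2`,
`W.ModRepIsIrreducible p` and `¬ p ^ 2 ∣ N` of the frozen statement are not used.
-/

set_option autoImplicit false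

namespace Fermat.Agent.S58

open WeierstrassCurve

/-- **S58 from the `hres`-free core of S36.** -/
theorem h54s_s58_of_core (h36 : h54s_S36Core)
    (W : WeierstrassCurve ℤ) (hss : W.IsSemistableModel) (N : ℕ)
    (p : ℕ) [Fact p.Prime] (_hp2 : p ≠ 2) (_hirr : W.ModRepIsIrreducible p)
    (_hp2N : ¬ p ^ 2 ∣ N)
    (hN : W.IsModularModelOfLevel N) (hbad : ∀ ℓ : ℕ, ℓ.Prime → (ℓ : ℤ) ∣ W.Δ → ℓ ∣ N)
    (hN3 : ∀ q : ℕ, q.Prime → ¬ q ^ 3 ∣ N) :
    W.IsModularModelOfLevel W.conductorLevel :=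
  h54s_s58_of h36 h78c_eCoreFrob h78c_eCoreInertia W hss N hN hbad hN3

end Fermat.Agent.S58
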