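import Fermat.Prelude.Def_CuspForm_HeckeGaloisRepDatum
import Fermat.Prelude.Def_CuspForm_Newforms
import Fermat.Prelude.Def_GaloisRep_LocalConditions
import Fermat.Prelude.Def_FLTPrelim_Modularity
import Fermat.Prelude.Def_WeierstrassCurve_ConductorLevel
import Fermat.Agent.S29.Skeleton
import Fermat.Agent.S30.AdicClosure

/-!
# S58 (conductor-level matching): frozen interface

Sub-architect: helper54.  Every declaration is a frozen interface `Prop`; nothing is assumed.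

## Route (no `hres`, no `hirr`, no `p`)

`W` semistable, modular of a cube-free level `N` divisible by the bad primes, `R = rad Δ`.

1. newform descent (`h52s_exists_newform`): a newform `g` of level `M ∣ N`, `a_ℓ(g) = a_ℓ(W)` for
   `ℓ ∤ N`.
2. `M ∣ R`.  Let `q ∣ M`, `lam` an odd prime `≠ q`, `S = {lam} ∪ primes N`, `O' = ℤ_[lam]`
   (`h54s_IotaInt`).
   * `q ∥ M`, `q ∤ Δ`: S35 gives `ρ` with `charpoly ρ(Frob_q) = X² ∓ (q + 1) X + q`; the transfer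
     (`h54s_ECoreFrob` + continuity of `ρ` + weak Chebotarev + Krull) gives
     `tr ρ(Frob_q) = a_q(W)`; contradiction with the point count (`h42pc_apOfModel_ne`).
   * `q² ∣ M`: the `hres`-free core of S36 (`h54s_S36Core`) gives `ρ` not unipotent on inertia at
     `q`; the transfer (`h54s_ECoreInertia`) gives `charpoly ρ(σ) = (X - 1)²` for `σ ∈ I_q`.
3. level-up (`h52s_levelUp`) to `R`: eigenform `h` of level `R`, `a_ℓ(h) = a_ℓ(g)` for `ℓ ∤ R`.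
4. `a_{ℓ₀}(h) = a_{ℓ₀}(W)` at the primes `ℓ₀ ∣ N`, `ℓ₀ ∤ R`: landed `h22f1_level` for `h` +
   `h54s_ECoreFrob` + weak Chebotarev + `h22f1_eq_zero_of_forall_dvd`.
-/

set_option autoImplicit false

open Polynomial

noncomputable section

namespace Fermat.Agent.S58

open Fermat.Agent.S29 (GQ)
open Fermat.Agent.S30 (acTrace)

local notation "Qbar" => AlgebraicClosure ℚ

/-! ## E-side -/

/-- **E-CORE at a Frobenius element.**  `σ₀` a Frobenius element at a good prime `ℓ₀ ≠ lam`.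
There is a number field `L` such that whenever `σ₀` acts on `L` as the `k`-th power of a
Frobenius element `f` at a good prime `ℓ ≠ lam`, then
`Q_k(a_ℓ(W), ℓ) ≡ a_{ℓ₀}(W)` and `ℓ ^ k ≡ ℓ₀` modulo `lam ^ n`.

Proof sketch: `L ⊇ ℚ(E[lam ^ n], μ_{lam ^ n})`; on `E[lam ^ n]`: `f² - a_ℓ f + ℓ = 0`
(`h78e_frobRel`), hence `(f ^ k)² - Q_k f ^ k + ℓ ^ k = 0`, and `σ₀ = f ^ k`,
`σ₀² - a_{ℓ₀} σ₀ + ℓ₀ = 0`; `ℓ ^ k ≡ ℓ₀` by the action on `μ_{lam ^ n}`; so `Q_k - a_{ℓ₀}` kills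
`E[lam ^ n]`, which contains a point of exact order `lam ^ n`. -/
def h54s_ECoreFrob : Prop :=
  ∀ (W : WeierstrassCurve ℤ), W.Δ ≠ 0 → ∀ lam : ℕ, lam.Prime → ∀ n : ℕ,
    ∀ ℓ₀ : ℕ, ℓ₀.Prime → W.IsGoodPrimeFor ℓ₀ → ℓ₀ ≠ lam →
    ∀ A₀ : ValuationSubring Qbar, A₀.LiesOverPrime ℓ₀ → ∀ σ₀ : GQ, A₀.IsFrobeniusAt σ₀ ℓ₀ →
    ∃ L : IntermediateField ℚ Qbar, FiniteDimensional ℚ L ∧
      ∀ ℓ : ℕ, ℓ.Prime → W.IsGoodPrimeFor ℓ → ℓ ≠ lam →
      ∀ A : ValuationSubring Qbar, A.LiesOverPrime ℓ → ∀ f : GQ, A.IsFrobeniusAt f ℓ →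
      ∀ k : ℕ, (∀ x ∈ L, σ₀ x = (f ^ k) x) →
        (lam : ℤ) ^ n ∣ acTrace (W.apOfModel ℓ) (ℓ : ℤ) k - W.apOfModel ℓ₀ ∧
        (lam : ℤ) ^ n ∣ (ℓ : ℤ) ^ k - (ℓ₀ : ℤ)

/-- **E-CORE on inertia.**  `σ₀` in an inertia group at a prime `q ≠ lam` at which `W` is
semistable.  There is a number field `L` such that whenever `σ₀` acts on `L` as the `k`-th power
of a Frobenius element `f` at a good prime `ℓ ≠ lam`, then `Q_k(a_ℓ(W), ℓ) ≡ 2` and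
`ℓ ^ k ≡ 1` modulo `lam ^ n`.  (Same proof with `h78u_unipotent_int`.) -/
def h54s_ECoreInertia : Prop :=
  ∀ (W : WeierstrassCurve ℤ), W.Δ ≠ 0 → ∀ lam : ℕ, lam.Prime → ∀ n : ℕ,
    ∀ q : ℕ, q.Prime → q ≠ lam → ((q : ℤ) ∣ W.Δ → ¬ (q : ℤ) ∣ W.c₄) →
    ∀ A₀ : ValuationSubring Qbar, A₀.LiesOverPrime q → ∀ σ₀ ∈ A₀.inertiaSubgroupIn ℚ,
    ∃ L : IntermediateField ℚ Qbar, FiniteDimensional ℚ L ∧
      ∀ ℓ : ℕ, ℓ.Prime → W.IsGoodPrimeFor ℓ → ℓ ≠ lam →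
      ∀ A : ValuationSubring Qbar, A.LiesOverPrime ℓ → ∀ f : GQ, A.IsFrobeniusAt f ℓ →
      ∀ k : ℕ, (∀ x ∈ L, σ₀ x = (f ^ k) x) →
        (lam : ℤ) ^ n ∣ acTrace (W.apOfModel ℓ) (ℓ : ℤ) k - 2 ∧
        (lam : ℤ) ^ n ∣ (ℓ : ℤ) ^ k - 1

/-! ## The coefficient embedding -/

/-- **IOTA-INT.**  An eigencharacter with integer values on the generators `T_ℓ` has its range
inside `ℤ`, hence maps to `ℤ_[lam]`. -/
def h54s_IotaInt : Prop :=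
  ∀ (M : ℕ) [NeZero M] (S : Finset ℕ)
    (chig : CuspForm.heckeAlgebra M 2 (↑S : Set ℕ) →+* ℂ) (a : ℕ → ℤ),
    (∀ (ℓ : ℕ) (hℓ : ℓ.Prime) (hℓM : ¬ ℓ ∣ M) (hℓS : ℓ ∉ (↑S : Set ℕ)),
      chig (CuspForm.heckeAlgebra.T hℓ hℓM hℓS) = ((a ℓ : ℤ) : ℂ)) →
    ∀ (lam : ℕ) [Fact lam.Prime], ∃ iota : chig.range →+* ℤ_[lam],
      ∀ (ℓ : ℕ) (hℓ : ℓ.Prime) (hℓM : ¬ ℓ ∣ M) (hℓS : ℓ ∉ (↑S : Set ℕ)),
        (iota.comp chig.rangeRestrict) (CuspForm.heckeAlgebra.T hℓ hℓM hℓS)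
          = ((a ℓ : ℤ) : ℤ_[lam])

/-! ## The input from S36 -/

/-- **The `hres`-free core of S36** (the frozen statement of S36 without `hres` and
`lam ≠ 2`; this is what `Fermat.Agent.S36.h37u_s36_of` proves from its three inputs). -/
def h54s_S36Core : Prop :=
  ∀ {M : ℕ} [NeZero M] {g : CuspForm (CongruenceSubgroup.Gamma0 M) 2} (_ : g.IsNewform)
    (lam : ℕ) [Fact lam.Prime] (S : Finset ℕ)
    (O' : Type) [CommRing O'] [IsDomain O'] [IsDiscreteValuationRing O']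
    [IsAdicComplete (IsLocalRing.maximalIdeal O') O'] [Finite (IsLocalRing.ResidueField O')]
    [CharZero O'] (_ : (lam : O') ∈ IsLocalRing.maximalIdeal O')
    (chig : CuspForm.heckeAlgebra M 2 (↑S : Set ℕ) →+* ℂ)
    (_ : ∀ (ℓ : ℕ) (hℓ : ℓ.Prime) (hℓM : ¬ ℓ ∣ M) (hℓS : ℓ ∉ (↑S : Set ℕ)),
      chig (CuspForm.heckeAlgebra.T hℓ hℓM hℓS) = ModularFormClass.qCoeff g ℓ)
    (iota : chig.range →+* O')
    (_ : lam ∈ S) (_ : ∀ q : ℕ, q.Prime → q ∣ M → q ∈ S),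
    ∃ (O'' : Type) (_ : CommRing O'') (_ : IsDomain O'') (_ : IsDiscreteValuationRing O'')
      (_ : IsAdicComplete (IsLocalRing.maximalIdeal O'') O'')
      (_ : Finite (IsLocalRing.ResidueField O''))
      (_ : CharZero O'') (_ : Algebra O' O'') (_ : Module.Finite O' O'')
      (_ : IsLocalHom (algebraMap O' O'')),
      Function.Injective (algebraMap O' O'') ∧
      ∃ ρ : GaloisRepAdic O'',
        (∀ (ℓ : ℕ) (hℓ : ℓ.Prime) (hℓM : ¬ ℓ ∣ M) (hℓS : ℓ ∉ (↑S : Set ℕ)),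
          ∀ A : ValuationSubring (AlgebraicClosure ℚ), A.LiesOverPrime ℓ →
            ∀ σ : AlgebraicClosure ℚ ≃ₐ[ℚ] AlgebraicClosure ℚ, A.IsFrobeniusAt σ ℓ →
              LinearMap.charpoly (ρ.ρ σ) =
                X ^ 2 - C (algebraMap O' O'' ((iota.comp chig.rangeRestrict)
                  (CuspForm.heckeAlgebra.T hℓ hℓM hℓS))) * X + C ((ℓ : O''))) ∧
        (∀ q : ℕ, q.Prime → q ≠ lam → M.factorization q = 2 →
          ¬ ρ.IsUnipotentOnInertiaAt q)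

end Fermat.Agent.S58
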