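import Fermat.Agent.S58.H54Cond
import Fermat.Agent.S36.Top5

/-!
# S58 from the last open block of S36 (helper54)

`h54s_s36Core_of_loc : H92Loc → h54s_S36Core` (wiring of `Fermat.Agent.S36.h37u_s36_of_loc`) and
`h54s_s58_of_loc : H92Loc → ` the frozen statement of S58.
-/

set_option autoImplicit false

namespace Fermat.Agent.S58

open WeierstrassCurve

/-- The `hres`-free core of S36 from the last open block of S36. -/
theorem h54s_s36Core_of_loc (hL : Fermat.Agent.S36.H92Loc) : h54s_S36Core := by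
  intro M _ g hg lam _ S O' _ _ _ _ _ _ hlamO' chig hchig iota hlamS hMS
  exact Fermat.Agent.S36.h37u_s36_of_loc hL hg lam S O' hlamO' chig hchig iota hlamS hMS

/-- **S58 from the last open block of S36.** -/
theorem h54s_s58_of_loc (hL : Fermat.Agent.S36.H92Loc)
    (W : WeierstrassCurve ℤ) (hss : W.IsSemistableModel) (N : ℕ)
    (p : ℕ) [Fact p.Prime] (hp2 : p ≠ 2) (hirr : W.ModRepIsIrreducible p)
    (hp2N : ¬ p ^ 2 ∣ N)
    (hN : W.IsModularModelOfLevel N) (hbad : ∀ ℓ : ℕ, ℓ.Prime → (ℓ : ℤ) ∣ W.Δ → ℓ ∣ N)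
    (hN3 : ∀ q : ℕ, q.Prime → ¬ q ^ 3 ∣ N) :
    W.IsModularModelOfLevel W.conductorLevel :=
  h54s_s58_of_core (h54s_s36Core_of_loc hL) W hss N p hp2 hirr hp2N hN hbad hN3

end Fermat.Agent.S58
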