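import Fermat.Agent.S58.H54Iface
import Fermat.Agent.S34.DetInertia
import Fermat.Agent.S31.TraceInvariance
import Fermat.Agent.Cheb.WeakChebotarev

/-!
# S58: the transfer on the `ρ`-side (helper54)

`h54s_rho_transfer`: let `ρ` be a `lam`-adic representation (over a discrete valuation ring `O`
with `lam ∈ m_O`) whose Frobenius elements at the primes `ℓ ∉ T` have characteristic polynomial
`X² - a_ℓ X + ℓ` with integers `a_ℓ`.  If `σ ∈ G_ℚ` and integers `t`, `e` are such that for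
every `n` there is a number field `L` with: `σ = f ^ k` on `L`, `f` a Frobenius at `ℓ ∉ T`,
implies `Q_k(a_ℓ, ℓ) ≡ t` and `ℓ ^ k ≡ e` modulo `lam ^ n`, then `tr ρ(σ) = t` and
`det ρ(σ) = e`.

Proof: continuity of `ρ`, weak Chebotarev, Krull's intersection theorem (as in
`Fermat.Agent.S34.detInertia`).
-/

set_option autoImplicit false

open Polynomial

noncomputable section

namespace Fermat.Agent.S58

open Fermat.Agent.S29 (GQ)
open Fermat.Agent.S30 (acTrace)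
open Fermat.Agent.S31 (TI_Small TI_trace_mem TI_trace_pow TI_map_acTrace)
open Fermat.Agent.S34 (DI_det_sub_one_mem DI_det_of_charpoly)

local notation "Qbar" => AlgebraicClosure ℚ

/-- The characteristic polynomial of an endomorphism of a free module of rank two. -/
theorem h54s_charpoly_rank_two {T : Type*} [CommRing T] [Nontrivial T] {V : Type*}
    [AddCommGroup V] [Module T V] [Module.Free T V] [Module.Finite T V]
    (hV : Module.finrank T V = 2) (f : Module.End T V) :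
    LinearMap.charpoly f = X ^ 2 - C (LinearMap.trace T V f) * X + C (LinearMap.det f) := by
  classical
  let B := Module.Free.chooseBasis T V
  have hcard : Fintype.card (Module.Free.ChooseBasisIndex T V) = 2 := by
    rw [← Module.finrank_eq_card_chooseBasisIndex, hV]
  let e : Module.Free.ChooseBasisIndex T V ≃ Fin 2 := Fintype.equivFinOfCardEq hcard
  let B' : Module.Basis (Fin 2) T V := B.reindex e
  rw [← LinearMap.charpoly_toMatrix f B', Matrix.charpoly_fin_two,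
    LinearMap.trace_eq_matrix_trace T B' f, ← LinearMap.det_toMatrix B' f]

/-- An integer divisible by `lam ^ n` lies in `m ^ n`. -/
theorem h54s_int_mem_pow {O : Type*} [CommRing O] [IsLocalRing O] {lam : ℕ}
    (hlamO : (lam : O) ∈ IsLocalRing.maximalIdeal O) (n : ℕ) (c : ℤ)
    (h : (lam : ℤ) ^ n ∣ c) : (c : O) ∈ IsLocalRing.maximalIdeal O ^ n := by
  obtain ⟨b, rfl⟩ := h
  push_cast
  exact Ideal.mul_mem_right _ _ (Ideal.pow_mem_pow hlamO n)

/-- **The transfer on the `ρ`-side.** -/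
theorem h54s_rho_transfer {O : Type} [CommRing O] [IsDomain O] [IsDiscreteValuationRing O]
    {lam : ℕ} (hlamO : (lam : O) ∈ IsLocalRing.maximalIdeal O)
    (ρ : GaloisRepAdic O) (a : ℕ → ℤ) (T : Finset ℕ)
    (hcp : ∀ ℓ : ℕ, ℓ.Prime → ℓ ∉ T → ∀ A : ValuationSubring Qbar, A.LiesOverPrime ℓ →
      ∀ f : GQ, A.IsFrobeniusAt f ℓ →
        LinearMap.charpoly (ρ.ρ f) = X ^ 2 - C ((a ℓ : ℤ) : O) * X + C ((ℓ : ℕ) : O))
    (σ : GQ) (t e : ℤ)
    (hE : ∀ n : ℕ, ∃ L : IntermediateField ℚ Qbar, FiniteDimensional ℚ L ∧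
      ∀ ℓ : ℕ, ℓ.Prime → ℓ ∉ T →
      ∀ A : ValuationSubring Qbar, A.LiesOverPrime ℓ → ∀ f : GQ, A.IsFrobeniusAt f ℓ →
      ∀ k : ℕ, (∀ x ∈ L, σ x = (f ^ k) x) →
        (lam : ℤ) ^ n ∣ acTrace (a ℓ) (ℓ : ℤ) k - t ∧ (lam : ℤ) ^ n ∣ (ℓ : ℤ) ^ k - e) :
    LinearMap.trace O ρ.V (ρ.ρ σ) = (t : O) ∧ LinearMap.det (ρ.ρ σ) = (e : O) := by
  have key : ∀ n : ℕ,
      LinearMap.trace O ρ.V (ρ.ρ σ) - (t : O) ∈ IsLocalRing.maximalIdeal O ^ n ∧
      LinearMap.det (ρ.ρ σ) - (e : O) ∈ IsLocalRing.maximalIdeal O ^ n := by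
    intro n
    obtain ⟨L₁, hL₁, h₁⟩ := hE n
    obtain ⟨L₃, hL₃, h₃⟩ := ρ.isAdicContinuous n
    have hfd : FiniteDimensional ℚ ↥(L₁ ⊔ L₃) := IntermediateField.finiteDimensional_sup L₁ L₃
    obtain ⟨ℓ, hℓ, hℓT, A, hA, f, hf, k, hk⟩ :=
      Fermat.Agent.Cheb.weakChebotarev (L₁ ⊔ L₃) hfd σ T
    have hle₁ : L₁ ≤ L₁ ⊔ L₃ := le_sup_left
    have hle₃ : L₃ ≤ L₁ ⊔ L₃ := le_sup_right
    obtain ⟨hE1, hE2⟩ := h₁ ℓ hℓ hℓT A hA f hf k (fun x hx => hk x (hle₁ hx))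
    have hs' : ∀ x ∈ L₁ ⊔ L₃, ((f ^ k)⁻¹ * σ) x = x := fun x hx => by
      rw [AlgEquiv.mul_apply, hk x hx]
      exact (f ^ k).symm_apply_apply x
    have hσeq : σ = f ^ k * ((f ^ k)⁻¹ * σ) := by rw [mul_inv_cancel_left]
    have hs₃ : TI_Small (IsLocalRing.maximalIdeal O ^ n) (ρ.ρ ((f ^ k)⁻¹ * σ) - 1) :=
      fun v => by
        rw [LinearMap.sub_apply, Module.End.one_apply]
        exact h₃ _ (fun x hx => hs' x (hle₃ hx)) v
    have hcpf := hcp ℓ hℓ hℓT A hA f hf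
    have hρσ : ρ.ρ σ = ρ.ρ f ^ k * ρ.ρ ((f ^ k)⁻¹ * σ) := by
      conv_lhs => rw [hσeq]
      rw [map_mul, map_pow]
    constructor
    · -- the trace
      have h1 : LinearMap.trace O ρ.V (ρ.ρ f ^ k) = acTrace ((a ℓ : ℤ) : O) ((ℓ : ℕ) : O) k :=
        TI_trace_pow ρ.finrank_eq (ρ.ρ f) _ _ hcpf k
      have h2 : acTrace ((a ℓ : ℤ) : O) ((ℓ : ℕ) : O) k
          = ((acTrace (a ℓ) (ℓ : ℤ) k : ℤ) : O) := by
        have := TI_map_acTrace (Int.castRingHom O) (a ℓ) (ℓ : ℤ) k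
        simp only [eq_intCast, Int.cast_natCast] at this
        exact this.symm
      have h3 : LinearMap.trace O ρ.V (ρ.ρ f ^ k * (ρ.ρ ((f ^ k)⁻¹ * σ) - 1))
          ∈ IsLocalRing.maximalIdeal O ^ n :=
        TI_trace_mem (TI_Small.mul_left _ hs₃)
      have h4 : ((acTrace (a ℓ) (ℓ : ℤ) k - t : ℤ) : O) ∈ IsLocalRing.maximalIdeal O ^ n :=
        h54s_int_mem_pow hlamO n _ hE1
      have e1 : LinearMap.trace O ρ.V (ρ.ρ σ) - (t : O)
          = LinearMap.trace O ρ.V (ρ.ρ f ^ k * (ρ.ρ ((f ^ k)⁻¹ * σ) - 1))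
            + ((acTrace (a ℓ) (ℓ : ℤ) k - t : ℤ) : O) := by
        rw [hρσ, mul_sub, mul_one, map_sub, h1, h2]
        push_cast
        ring
      rw [e1]
      exact Ideal.add_mem _ h3 h4
    · -- the determinant
      have hdetf : LinearMap.det (ρ.ρ f) = ((ℓ : ℕ) : O) :=
        DI_det_of_charpoly ρ.finrank_eq _ _ _ hcpf
      have hdets := DI_det_sub_one_mem hs₃
      have h4 : (((ℓ : ℤ) ^ k - e : ℤ) : O) ∈ IsLocalRing.maximalIdeal O ^ n :=
        h54s_int_mem_pow hlamO n _ hE2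
      have e1 : LinearMap.det (ρ.ρ σ) - (e : O)
          = ((ℓ : ℕ) : O) ^ k * (LinearMap.det (ρ.ρ ((f ^ k)⁻¹ * σ)) - 1)
            + (((ℓ : ℤ) ^ k - e : ℤ) : O) := by
        rw [hρσ, map_mul, map_pow, hdetf]
        push_cast
        ring
      rw [e1]
      exact Ideal.add_mem _ (Ideal.mul_mem_left _ _ hdets) h4
  have hbot : (⨅ i : ℕ, IsLocalRing.maximalIdeal O ^ i) = ⊥ :=
    Ideal.iInf_pow_eq_bot_of_isLocalRing _ (IsLocalRing.maximalIdeal.isMaximal O).ne_top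
  constructor
  · have hmem : LinearMap.trace O ρ.V (ρ.ρ σ) - (t : O)
        ∈ (⨅ i : ℕ, IsLocalRing.maximalIdeal O ^ i) :=
      (Ideal.mem_iInf).mpr fun n => (key n).1
    rw [hbot, Ideal.mem_bot] at hmem
    exact sub_eq_zero.mp hmem
  · have hmem : LinearMap.det (ρ.ρ σ) - (e : O)
        ∈ (⨅ i : ℕ, IsLocalRing.maximalIdeal O ^ i) :=
      (Ideal.mem_iInf).mpr fun n => (key n).2
    rw [hbot, Ideal.mem_bot] at hmem
    exact sub_eq_zero.mp hmem

end Fermat.Agent.S58
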