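import Fermat.Agent.S58.H54Iface
import Fermat.Agent.S35.HK.F1h22

/-!
# S58, step 5 (helper54): the eigenvalues at the good primes dividing the old level

`h54s_step5`: a normalised eigenform `h` of level `R` whose eigenvalues agree with `a_ℓ(W)`
outside a finite set of primes has `a_{ℓ₀}(h) = a_{ℓ₀}(W)` at every good prime `ℓ₀ ∤ R`.

Proof: landed `h22f1_level` (the eigenvalue at `ℓ₀` is, modulo `p ^ n`, the `k`-th trace
polynomial of the eigenvalue at `ℓ` whenever a Frobenius at `ℓ₀` is the `k`-th power of a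
Frobenius at `ℓ` on a suitable number field), the same statement for `W` (`h54s_ECoreFrob`),
weak Chebotarev and `h22f1_eq_zero_of_forall_dvd`.
-/

set_option autoImplicit false

open Polynomial

noncomputable section

namespace Fermat.Agent.S58

open Fermat.Agent.S29 (GQ)
open Fermat.Agent.S30 (acTrace)
open Fermat.Agent.S31 (TI_map_acTrace)
open Fermat.Agent.S35 (h22f1_level h22f1_eq_zero_of_forall_dvd)

local notation "Qbar" => AlgebraicClosure ℚ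

/-- **Step 5.** -/
theorem h54s_step5 (hEF : h54s_ECoreFrob) (W : WeierstrassCurve ℤ) (hΔ : W.Δ ≠ 0)
    (R : ℕ) [NeZero R] (h : CuspForm (CongruenceSubgroup.Gamma0 R) 2)
    (hh : h.IsNormalizedEigenform) (T : Finset ℕ)
    (hagree : ∀ ℓ : ℕ, ℓ.Prime → ℓ ∉ T →
      ModularFormClass.qCoeff h ℓ = ((W.apOfModel ℓ : ℤ) : ℂ))
    (ℓ₀ : ℕ) (hℓ₀ : ℓ₀.Prime) (hℓ₀R : ¬ ℓ₀ ∣ R) (hgood : W.IsGoodPrimeFor ℓ₀) :
    ModularFormClass.qCoeff h ℓ₀ = ((W.apOfModel ℓ₀ : ℤ) : ℂ) := by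
  -- the auxiliary prime
  obtain ⟨p, hp, hpℓ₀⟩ : ∃ p : ℕ, p.Prime ∧ p ≠ ℓ₀ := by
    by_cases h2 : ℓ₀ = 2
    · exact ⟨3, Nat.prime_three, by omega⟩
    · exact ⟨2, Nat.prime_two, fun h' => h2 h'.symm⟩
  have : Fact p.Prime := ⟨hp⟩
  have hR0 : R ≠ 0 := NeZero.ne R
  have hℓ₀p : ¬ ℓ₀ ∣ p := fun h => hpℓ₀ ((Nat.prime_dvd_prime_iff_eq hℓ₀ hp).mp h).symm
  have h1 : ¬ ℓ₀ ∣ R * p := fun h => (hℓ₀.dvd_mul.mp h).elim hℓ₀R hℓ₀p
  obtain ⟨A₀, σ₀, hA₀, hσ₀⟩ := Fermat.Agent.S54.exists_isFrobeniusAt ℓ₀ hℓ₀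
  rw [← sub_eq_zero]
  refine h22f1_eq_zero_of_forall_dvd hp _ fun n => ?_
  obtain ⟨L₁, hL₁, hlev₁⟩ := h22f1_level R p ℓ₀ hℓ₀ h1 A₀ hA₀ σ₀ hσ₀ n
  obtain ⟨L₂, hL₂, hlev₂⟩ := hEF W hΔ p hp n ℓ₀ hℓ₀ hgood (fun h => hpℓ₀ h.symm) A₀ hA₀ σ₀ hσ₀
  have hfd : FiniteDimensional ℚ ↥(L₁ ⊔ L₂) := IntermediateField.finiteDimensional_sup L₁ L₂
  obtain ⟨ℓ, hℓ, hℓS, A, hA, f, hf, k, hk⟩ :=
    Fermat.Agent.Cheb.weakChebotarev (L₁ ⊔ L₂) hfd σ₀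
      (T ∪ R.primeFactors ∪ {p} ∪ W.Δ.natAbs.primeFactors)
  have hℓT : ℓ ∉ T := fun h => hℓS (Finset.mem_union_left _ (Finset.mem_union_left _
    (Finset.mem_union_left _ h)))
  have hℓR : ¬ ℓ ∣ R := fun h =>
    hℓS (Finset.mem_union_left _ (Finset.mem_union_left _ (Finset.mem_union_right _
      (Nat.mem_primeFactors.mpr ⟨hℓ, h, hR0⟩))))
  have hℓp : ℓ ≠ p := fun h =>
    hℓS (Finset.mem_union_left _ (Finset.mem_union_right _ (Finset.mem_singleton.mpr h)))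
  have hℓgood : W.IsGoodPrimeFor ℓ := by
    intro hdvd
    apply hℓS
    refine Finset.mem_union_right _ (Nat.mem_primeFactors.mpr ⟨hℓ, ?_, ?_⟩)
    · exact Int.natCast_dvd.mp hdvd
    · exact Int.natAbs_ne_zero.mpr hΔ
  have hℓp' : ¬ ℓ ∣ p := fun h => hℓp ((Nat.prime_dvd_prime_iff_eq hℓ hp).mp h)
  have h3 : ¬ ℓ ∣ R * p := fun h => (hℓ.dvd_mul.mp h).elim hℓR hℓp'
  obtain ⟨b₁, hb₁, e₁⟩ := hlev₁ ℓ hℓ h3 A hA f hf k
    (fun x hx => hk x (le_sup_left (a := L₁) hx)) h hh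
  obtain ⟨⟨c, hc⟩, -⟩ := hlev₂ ℓ hℓ hℓgood hℓp A hA f hf k
    (fun x hx => hk x (le_sup_right (b := L₂) hx))
  refine ⟨b₁ + (c : ℂ), hb₁.add isIntegral_algebraMap, ?_⟩
  have e2 : acTrace (ModularFormClass.qCoeff h ℓ) ((ℓ : ℕ) : ℂ) k
      = ((acTrace (W.apOfModel ℓ) (ℓ : ℤ) k : ℤ) : ℂ) := by
    rw [hagree ℓ hℓ hℓT]
    have := TI_map_acTrace (Int.castRingHom ℂ) (W.apOfModel ℓ) (ℓ : ℤ) k
    simp only [eq_intCast, Int.cast_natCast] at this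
    exact this.symm
  have e3 : ((acTrace (W.apOfModel ℓ) (ℓ : ℤ) k : ℤ) : ℂ) - ((W.apOfModel ℓ₀ : ℤ) : ℂ)
      = (p : ℂ) ^ n * (c : ℂ) := by
    have := congrArg (Int.cast : ℤ → ℂ) hc
    push_cast at this
    exact this
  rw [e2] at e₁
  linear_combination e₁ + e3

end Fermat.Agent.S58
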