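import Fermat.Agent.S58.H54Iface
import Fermat.Agent.S58.H54Rho
import Fermat.Agent.S58.H54Step5
import Fermat.Agent.S58.H52Newform
import Fermat.Agent.S58.H52LevelUp
import Fermat.Agent.S58.H52Iota
import Fermat.Agent.S58.H42PointCount
import Fermat.Agent.S35.Top4

/-!
# S58 (conductor-level matching): the conditional assembly (helper54)

`h54s_s58_of` : the frozen statement of S58 (without its unused hypotheses) from
`h54s_S36Core` (the `hres`-free core of S36), `h54s_ECoreFrob` and `h54s_ECoreInertia`.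
-/

set_option autoImplicit false

open Polynomial

noncomputable section

namespace Fermat.Agent.S58

open Fermat.Agent.S29 (GQ)
open Fermat.Agent.S30 (acTrace)
open Fermat.Agent.S31 (TI_trace_of_charpoly)

local notation "Qbar" => AlgebraicClosure ℚ

/-! ## Elementary preliminaries -/

/-- The level and the discriminant are nonzero. -/
theorem h54s_ne_zero (W : WeierstrassCurve ℤ) (N : ℕ)
    (hbad : ∀ ℓ : ℕ, ℓ.Prime → (ℓ : ℤ) ∣ W.Δ → ℓ ∣ N)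
    (hN3 : ∀ q : ℕ, q.Prime → ¬ q ^ 3 ∣ N) : N ≠ 0 ∧ W.Δ ≠ 0 := by
  have hN0 : N ≠ 0 := by
    rintro rfl
    exact hN3 2 Nat.prime_two (dvd_zero _)
  refine ⟨hN0, fun hΔ => ?_⟩
  obtain ⟨ℓ, hℓN, hℓ⟩ := Nat.exists_infinite_primes (N + 1)
  have h1 : ℓ ∣ N := hbad ℓ hℓ (by rw [hΔ]; exact dvd_zero _)
  have h2 : ℓ ≤ N := Nat.le_of_dvd (Nat.pos_of_ne_zero hN0) h1
  omega

/-- A squarefree number all of whose prime factors divide `R` divides `R`. -/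
theorem h54s_dvd_of_primes {M R : ℕ} (hM : M ≠ 0) (hR : R ≠ 0)
    (h : ∀ q : ℕ, q.Prime → q ∣ M → ¬ q ^ 2 ∣ M ∧ q ∣ R) : M ∣ R := by
  rw [← Nat.factorization_le_iff_dvd hM hR]
  intro q
  by_cases hq : q.Prime
  · by_cases hqM : q ∣ M
    · obtain ⟨h2, hqR⟩ := h q hq hqM
      have h3 : ¬ 2 ≤ M.factorization q := fun hle =>
        h2 ((hq.pow_dvd_iff_le_factorization hM).mpr hle)
      have h4 : 1 ≤ R.factorization q :=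
        (hq.pow_dvd_iff_le_factorization hR).mp (by rwa [pow_one])
      omega
    · rw [Nat.factorization_eq_zero_of_not_dvd hqM]
      exact Nat.zero_le _
  · rw [Nat.factorization_eq_zero_of_not_prime M hq]
    exact Nat.zero_le _

/-- An auxiliary prime different from `q`. -/
theorem h54s_exists_prime_ne (q : ℕ) : ∃ lam : ℕ, lam.Prime ∧ lam ≠ q := by
  by_cases h2 : q = 2
  · exact ⟨3, Nat.prime_three, by omega⟩
  · exact ⟨2, Nat.prime_two, fun h' => h2 h'.symm⟩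

theorem h54s_lam_mem (lam : ℕ) [Fact lam.Prime] :
    (lam : ℤ_[lam]) ∈ IsLocalRing.maximalIdeal ℤ_[lam] := by
  rw [PadicInt.maximalIdeal_eq_span_p]
  exact Ideal.mem_span_singleton_self _

theorem h54s_lam_mem_of_local (lam : ℕ) [Fact lam.Prime] (O'' : Type) [CommRing O'']
    [IsLocalRing O''] [Algebra ℤ_[lam] O''] [IsLocalHom (algebraMap ℤ_[lam] O'')] :
    (lam : O'') ∈ IsLocalRing.maximalIdeal O'' := by
  have h1 : (lam : O'') = algebraMap ℤ_[lam] O'' (lam : ℤ_[lam]) :=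
    (map_natCast (algebraMap ℤ_[lam] O'') lam).symm
  rw [h1, IsLocalRing.mem_maximalIdeal, mem_nonunits_iff]
  intro hu
  exact (IsLocalRing.mem_maximalIdeal _).mp (h54s_lam_mem lam)
    (isUnit_of_map_unit (algebraMap ℤ_[lam] O'') _ hu)

/-! ## The set-up for S35 / S36 -/

/-- The eigencharacter of `g` away from `S = {lam} ∪ primes(N)` and its integral `iota`. -/
theorem h54s_setup (W : WeierstrassCurve ℤ) {N : ℕ} (hN0 : N ≠ 0) {M : ℕ} [NeZero M]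
    (hMN : M ∣ N) {g : CuspForm (CongruenceSubgroup.Gamma0 M) 2} (hg : g.IsNewform)
    (hga : ∀ ℓ : ℕ, ℓ.Prime → ¬ ℓ ∣ N →
      ModularFormClass.qCoeff g ℓ = ((W.apOfModel ℓ : ℤ) : ℂ))
    (lam : ℕ) [Fact lam.Prime] :
    ∃ (chig : CuspForm.heckeAlgebra M 2 (↑(insert lam N.primeFactors : Finset ℕ) : Set ℕ) →+* ℂ)
      (iota : chig.range →+* ℤ_[lam]),
      (∀ (ℓ : ℕ) (hℓ : ℓ.Prime) (hℓM : ¬ ℓ ∣ M)
        (hℓS : ℓ ∉ (↑(insert lam N.primeFactors : Finset ℕ) : Set ℕ)),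
        chig (CuspForm.heckeAlgebra.T hℓ hℓM hℓS) = ModularFormClass.qCoeff g ℓ) ∧
      (∀ (ℓ : ℕ) (hℓ : ℓ.Prime) (hℓM : ¬ ℓ ∣ M)
        (hℓS : ℓ ∉ (↑(insert lam N.primeFactors : Finset ℕ) : Set ℕ)),
        (iota.comp chig.rangeRestrict) (CuspForm.heckeAlgebra.T hℓ hℓM hℓS)
          = ((W.apOfModel ℓ : ℤ) : ℤ_[lam])) := by
  have hS : ∀ r : ℕ, r.Prime → r ∣ M →
      r ∈ (↑(insert lam N.primeFactors : Finset ℕ) : Set ℕ) := fun r hr hrM =>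
    Finset.mem_coe.mpr (Finset.mem_insert_of_mem
      (Nat.mem_primeFactors.mpr ⟨hr, hrM.trans hMN, hN0⟩))
  have hnotN : ∀ ℓ : ℕ, ℓ.Prime →
      ℓ ∉ (↑(insert lam N.primeFactors : Finset ℕ) : Set ℕ) → ¬ ℓ ∣ N := fun ℓ hℓ hℓS h =>
    hℓS (Finset.mem_coe.mpr (Finset.mem_insert_of_mem (Nat.mem_primeFactors.mpr ⟨hℓ, h, hN0⟩)))
  have hchig : ∀ (ℓ : ℕ) (hℓ : ℓ.Prime) (hℓM : ¬ ℓ ∣ M)
      (hℓS : ℓ ∉ (↑(insert lam N.primeFactors : Finset ℕ) : Set ℕ)),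
      h52s_eigenChar (dvd_refl M) hg.1 (↑(insert lam N.primeFactors : Finset ℕ) : Set ℕ) hS
        (CuspForm.heckeAlgebra.T hℓ hℓM hℓS) = ModularFormClass.qCoeff g ℓ :=
    fun ℓ hℓ hℓM hℓS => h52s_eigenChar_T (dvd_refl M) hg.1 _ hS hℓ hℓM hℓS
  have hint : ∀ (ℓ : ℕ) (hℓ : ℓ.Prime) (hℓM : ¬ ℓ ∣ M)
      (hℓS : ℓ ∉ (↑(insert lam N.primeFactors : Finset ℕ) : Set ℕ)),
      h52s_eigenChar (dvd_refl M) hg.1 (↑(insert lam N.primeFactors : Finset ℕ) : Set ℕ) hS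
        (CuspForm.heckeAlgebra.T hℓ hℓM hℓS) = ((W.apOfModel ℓ : ℤ) : ℂ) :=
    fun ℓ hℓ hℓM hℓS => (hchig ℓ hℓ hℓM hℓS).trans (hga ℓ hℓ (hnotN ℓ hℓ hℓS))
  obtain ⟨iota⟩ := h52i_exists_iota_of_int ℤ_[lam] _
    (h52s_eigenChar (dvd_refl M) hg.1 (↑(insert lam N.primeFactors : Finset ℕ) : Set ℕ) hS) hS
    (fun ℓ hℓ hℓM hℓS => ⟨W.apOfModel ℓ, hint ℓ hℓ hℓM hℓS⟩)
  refine ⟨_, iota, hchig, fun ℓ hℓ hℓM hℓS => ?_⟩
  rw [RingHom.comp_apply]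
  exact h52i_iota_int _ iota _ _ (hint ℓ hℓ hℓM hℓS)

/-! ## `q² ∤ M` -/

/-- **B2.**  The level `M` of the newform is not divisible by the square of a prime. -/
theorem h54s_not_sq_dvd (h36 : h54s_S36Core) (hEI : h54s_ECoreInertia)
    (W : WeierstrassCurve ℤ) (hss : W.IsSemistableModel) (hΔ : W.Δ ≠ 0)
    {N : ℕ} (hN0 : N ≠ 0) (hbad : ∀ ℓ : ℕ, ℓ.Prime → (ℓ : ℤ) ∣ W.Δ → ℓ ∣ N)
    (hN3 : ∀ q : ℕ, q.Prime → ¬ q ^ 3 ∣ N)
    {M : ℕ} [NeZero M] (hMN : M ∣ N)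
    {g : CuspForm (CongruenceSubgroup.Gamma0 M) 2} (hg : g.IsNewform)
    (hga : ∀ ℓ : ℕ, ℓ.Prime → ¬ ℓ ∣ N →
      ModularFormClass.qCoeff g ℓ = ((W.apOfModel ℓ : ℤ) : ℂ))
    (q : ℕ) (hq : q.Prime) : ¬ q ^ 2 ∣ M := by
  intro hq2
  have hM0 : M ≠ 0 := NeZero.ne M
  have hfact : M.factorization q = 2 := by
    have h2 : 2 ≤ M.factorization q := (hq.pow_dvd_iff_le_factorization hM0).mp hq2
    have h3 : ¬ 3 ≤ M.factorization q := fun hle =>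
      hN3 q hq (((hq.pow_dvd_iff_le_factorization hM0).mpr hle).trans hMN)
    omega
  obtain ⟨lam, hlam, hlamq⟩ := h54s_exists_prime_ne q
  have : Fact lam.Prime := ⟨hlam⟩
  obtain ⟨chig, iota, hchig, hiota⟩ := h54s_setup W hN0 hMN hg hga lam
  have hMS : ∀ r : ℕ, r.Prime → r ∣ M → r ∈ (insert lam N.primeFactors : Finset ℕ) :=
    fun r hr hrM => Finset.mem_insert_of_mem (Nat.mem_primeFactors.mpr ⟨hr, hrM.trans hMN, hN0⟩)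
  obtain ⟨O'', i1, i2, i3, i4, i5, i6, i7, i8, i9, -, ρ, hcp, hnu⟩ :=
    h36 hg lam (insert lam N.primeFactors) ℤ_[lam] (h54s_lam_mem lam) chig hchig iota
      (Finset.mem_insert_self _ _) hMS
  have hlamO : (lam : O'') ∈ IsLocalRing.maximalIdeal O'' := h54s_lam_mem_of_local lam O''
  have hnotN : ∀ ℓ : ℕ, ℓ.Prime → ℓ ∉ (insert lam N.primeFactors : Finset ℕ) → ¬ ℓ ∣ N :=
    fun ℓ hℓ hℓS h =>
      hℓS (Finset.mem_insert_of_mem (Nat.mem_primeFactors.mpr ⟨hℓ, h, hN0⟩))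
  have hcp' : ∀ ℓ : ℕ, ℓ.Prime → ℓ ∉ (insert lam N.primeFactors : Finset ℕ) →
      ∀ A : ValuationSubring Qbar, A.LiesOverPrime ℓ → ∀ f : GQ, A.IsFrobeniusAt f ℓ →
        LinearMap.charpoly (ρ.ρ f)
          = X ^ 2 - C ((W.apOfModel ℓ : ℤ) : O'') * X + C ((ℓ : ℕ) : O'') := by
    intro ℓ hℓ hℓS A hA f hf
    have hℓM : ¬ ℓ ∣ M := fun h => hnotN ℓ hℓ hℓS (h.trans hMN)
    have hℓS' : ℓ ∉ (↑(insert lam N.primeFactors : Finset ℕ) : Set ℕ) :=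
      fun h => hℓS (Finset.mem_coe.mp h)
    rw [hcp ℓ hℓ hℓM hℓS' A hA f hf, hiota ℓ hℓ hℓM hℓS', map_intCast]
  apply hnu q hq (fun h => hlamq h.symm) hfact
  intro P hP σ hσ
  have hE : ∀ n : ℕ, ∃ L : IntermediateField ℚ Qbar, FiniteDimensional ℚ L ∧
      ∀ ℓ : ℕ, ℓ.Prime → ℓ ∉ (insert lam N.primeFactors : Finset ℕ) →
      ∀ A : ValuationSubring Qbar, A.LiesOverPrime ℓ → ∀ f : GQ, A.IsFrobeniusAt f ℓ →
      ∀ k : ℕ, (∀ x ∈ L, σ x = (f ^ k) x) →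
        (lam : ℤ) ^ n ∣ acTrace (W.apOfModel ℓ) (ℓ : ℤ) k - 2 ∧
        (lam : ℤ) ^ n ∣ (ℓ : ℤ) ^ k - 1 := by
    intro n
    obtain ⟨L, hL, hLE⟩ := hEI W hΔ lam hlam n q hq (fun h => hlamq h.symm) (hss q hq) P hP σ hσ
    refine ⟨L, hL, fun ℓ hℓ hℓS A hA f hf k hk => ?_⟩
    have hgood : W.IsGoodPrimeFor ℓ := fun hdvd => hnotN ℓ hℓ hℓS (hbad ℓ hℓ hdvd)
    have hℓlam : ℓ ≠ lam := fun h => hℓS (h ▸ Finset.mem_insert_self _ _)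
    exact hLE ℓ hℓ hgood hℓlam A hA f hf k hk
  obtain ⟨htr, hdet⟩ := h54s_rho_transfer hlamO ρ W.apOfModel _ hcp' σ 2 1 hE
  rw [h54s_charpoly_rank_two ρ.finrank_eq, htr, hdet]
  simp only [Int.cast_ofNat, Int.cast_one, map_one, map_ofNat]
  ring

/-! ## `q ∣ M ⟹ q ∣ Δ` -/

/-- **B1.**  A prime exactly dividing the level `M` of the newform divides the discriminant. -/
theorem h54s_dvd_disc (hEF : h54s_ECoreFrob)
    (W : WeierstrassCurve ℤ) (hΔ : W.Δ ≠ 0)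
    {N : ℕ} (hN0 : N ≠ 0) (hbad : ∀ ℓ : ℕ, ℓ.Prime → (ℓ : ℤ) ∣ W.Δ → ℓ ∣ N)
    {M : ℕ} [NeZero M] (hMN : M ∣ N)
    {g : CuspForm (CongruenceSubgroup.Gamma0 M) 2} (hg : g.IsNewform)
    (hga : ∀ ℓ : ℕ, ℓ.Prime → ¬ ℓ ∣ N →
      ModularFormClass.qCoeff g ℓ = ((W.apOfModel ℓ : ℤ) : ℂ))
    (q : ℕ) (hq : q.Prime) (hqM : q ∣ M) (hq2 : ¬ q ^ 2 ∣ M) : (q : ℤ) ∣ W.Δ := by
  by_contra hqgood
  obtain ⟨lam, hlam, hlamq⟩ := h54s_exists_prime_ne q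
  have : Fact lam.Prime := ⟨hlam⟩
  obtain ⟨chig, iota, hchig, hiota⟩ := h54s_setup W hN0 hMN hg hga lam
  have hMS : ∀ r : ℕ, r.Prime → r ∣ M → r ∈ (insert lam N.primeFactors : Finset ℕ) :=
    fun r hr hrM => Finset.mem_insert_of_mem (Nat.mem_primeFactors.mpr ⟨hr, hrM.trans hMN, hN0⟩)
  obtain ⟨O'', i1, i2, i3, i4, i5, i6, i7, i8, i9, -, ρ, hcp, hst⟩ :=
    Fermat.Agent.S35.h37t_s35_of_tor Fermat.Agent.S35.h37t_torGate hg lam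
      (insert lam N.primeFactors) ℤ_[lam] (h54s_lam_mem lam) chig hchig iota
      (Finset.mem_insert_self _ _) hMS
  have hlamO : (lam : O'') ∈ IsLocalRing.maximalIdeal O'' := h54s_lam_mem_of_local lam O''
  have hnotN : ∀ ℓ : ℕ, ℓ.Prime → ℓ ∉ (insert lam N.primeFactors : Finset ℕ) → ¬ ℓ ∣ N :=
    fun ℓ hℓ hℓS h =>
      hℓS (Finset.mem_insert_of_mem (Nat.mem_primeFactors.mpr ⟨hℓ, h, hN0⟩))
  have hcp' : ∀ ℓ : ℕ, ℓ.Prime → ℓ ∉ (insert lam N.primeFactors : Finset ℕ) →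
      ∀ A : ValuationSubring Qbar, A.LiesOverPrime ℓ → ∀ f : GQ, A.IsFrobeniusAt f ℓ →
        LinearMap.charpoly (ρ.ρ f)
          = X ^ 2 - C ((W.apOfModel ℓ : ℤ) : O'') * X + C ((ℓ : ℕ) : O'') := by
    intro ℓ hℓ hℓS A hA f hf
    have hℓM : ¬ ℓ ∣ M := fun h => hnotN ℓ hℓ hℓS (h.trans hMN)
    have hℓS' : ℓ ∉ (↑(insert lam N.primeFactors : Finset ℕ) : Set ℕ) :=
      fun h => hℓS (Finset.mem_coe.mp h)
    rw [hcp ℓ hℓ hℓM hℓS' A hA f hf, hiota ℓ hℓ hℓM hℓS', map_intCast]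
  obtain ⟨A₀, σ₀, hA₀, hσ₀⟩ := Fermat.Agent.S54.exists_isFrobeniusAt q hq
  have hE : ∀ n : ℕ, ∃ L : IntermediateField ℚ Qbar, FiniteDimensional ℚ L ∧
      ∀ ℓ : ℕ, ℓ.Prime → ℓ ∉ (insert lam N.primeFactors : Finset ℕ) →
      ∀ A : ValuationSubring Qbar, A.LiesOverPrime ℓ → ∀ f : GQ, A.IsFrobeniusAt f ℓ →
      ∀ k : ℕ, (∀ x ∈ L, σ₀ x = (f ^ k) x) →
        (lam : ℤ) ^ n ∣ acTrace (W.apOfModel ℓ) (ℓ : ℤ) k - W.apOfModel q ∧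
        (lam : ℤ) ^ n ∣ (ℓ : ℤ) ^ k - (q : ℤ) := by
    intro n
    obtain ⟨L, hL, hLE⟩ := hEF W hΔ lam hlam n q hq hqgood (fun h => hlamq h.symm) A₀ hA₀ σ₀ hσ₀
    refine ⟨L, hL, fun ℓ hℓ hℓS A hA f hf k hk => ?_⟩
    have hgood : W.IsGoodPrimeFor ℓ := fun hdvd => hnotN ℓ hℓ hℓS (hbad ℓ hℓ hdvd)
    have hℓlam : ℓ ≠ lam := fun h => hℓS (h ▸ Finset.mem_insert_self _ _)
    exact hLE ℓ hℓ hgood hℓlam A hA f hf k hk
  obtain ⟨htr, -⟩ := h54s_rho_transfer hlamO ρ W.apOfModel _ hcp' σ₀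
    (W.apOfModel q) (q : ℤ) hE
  rcases hst q hq (fun h => hlamq h.symm) hqM hq2 A₀ hA₀ σ₀ hσ₀ with h | h
  · have h1 := TI_trace_of_charpoly ρ.finrank_eq (ρ.ρ σ₀) _ _ h
    rw [htr] at h1
    have h2 : ((W.apOfModel q : ℤ) : O'') = ((1 * ((q : ℤ) + 1) : ℤ) : O'') := by
      rw [h1]
      push_cast
      ring
    exact h42pc_apOfModel_ne W q hq 1 (Or.inl rfl) (Int.cast_injective h2)
  · have h' : LinearMap.charpoly (ρ.ρ σ₀)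
        = X ^ 2 - C (-((q : O'') + 1)) * X + C ((q : O'')) := by
      rw [h, map_neg]
      ring
    have h1 := TI_trace_of_charpoly ρ.finrank_eq (ρ.ρ σ₀) _ _ h'
    rw [htr] at h1
    have h2 : ((W.apOfModel q : ℤ) : O'') = (((-1) * ((q : ℤ) + 1) : ℤ) : O'') := by
      rw [h1]
      push_cast
      ring
    exact h42pc_apOfModel_ne W q hq (-1) (Or.inr rfl) (Int.cast_injective h2)

/-! ## The assembly -/

/-- **S58 from the `hres`-free core of S36 and the two E-side transfer statements.** -/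
theorem h54s_s58_of (h36 : h54s_S36Core) (hEF : h54s_ECoreFrob) (hEI : h54s_ECoreInertia)
    (W : WeierstrassCurve ℤ) (hss : W.IsSemistableModel) (N : ℕ)
    (hN : W.IsModularModelOfLevel N) (hbad : ∀ ℓ : ℕ, ℓ.Prime → (ℓ : ℤ) ∣ W.Δ → ℓ ∣ N)
    (hN3 : ∀ q : ℕ, q.Prime → ¬ q ^ 3 ∣ N) :
    W.IsModularModelOfLevel W.conductorLevel := by
  obtain ⟨hN0, hΔ⟩ := h54s_ne_zero W N hbad hN3
  obtain ⟨f, hf, hfa⟩ := hN
  obtain ⟨M, hMN, g, hg, hgf⟩ := h52s_exists_newform N (Nat.pos_of_ne_zero hN0) f hf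
  have hM0 : M ≠ 0 := fun h => hN0 (by rw [h] at hMN; exact zero_dvd_iff.mp hMN)
  have : NeZero M := ⟨hM0⟩
  have hgoodN : ∀ ℓ : ℕ, ℓ.Prime → ¬ ℓ ∣ N → W.IsGoodPrimeFor ℓ :=
    fun ℓ hℓ hℓN hdvd => hℓN (hbad ℓ hℓ hdvd)
  have hga : ∀ ℓ : ℕ, ℓ.Prime → ¬ ℓ ∣ N →
      ModularFormClass.qCoeff g ℓ = ((W.apOfModel ℓ : ℤ) : ℂ) :=
    fun ℓ hℓ hℓN => (hgf ℓ hℓ hℓN).trans (hfa ℓ hℓ (hgoodN ℓ hℓ hℓN) hℓN)
  -- the level of the newform divides the conductor level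
  have hR0 : W.conductorLevel ≠ 0 := W.conductorLevel_pos.ne'
  have hMR : M ∣ W.conductorLevel := by
    refine h54s_dvd_of_primes hM0 hR0 fun q hq hqM => ?_
    have h2 : ¬ q ^ 2 ∣ M := h54s_not_sq_dvd h36 hEI W hss hΔ hN0 hbad hN3 hMN hg hga q hq
    exact ⟨h2, (W.prime_dvd_conductorLevel_iff hΔ hq).mpr
      (h54s_dvd_disc hEF W hΔ hN0 hbad hMN hg hga q hq hqM h2)⟩
  -- level-up
  obtain ⟨h, hh, hha⟩ := h52s_levelUp hMR g hg.1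
  refine ⟨h, hh, fun ℓ₀ hℓ₀ hgood hℓ₀R => ?_⟩
  refine h54s_step5 hEF W hΔ W.conductorLevel h hh N.primeFactors ?_ ℓ₀ hℓ₀ hℓ₀R hgood
  intro ℓ hℓ hℓT
  have hℓN : ¬ ℓ ∣ N := fun h => hℓT (Nat.mem_primeFactors.mpr ⟨hℓ, h, hN0⟩)
  have hℓR : ¬ ℓ ∣ W.conductorLevel := fun h =>
    hℓN (hbad ℓ hℓ ((W.prime_dvd_conductorLevel_iff hΔ hℓ).mp h))
  exact (hha ℓ hℓ hℓR).trans (hga ℓ hℓ hℓN)

end Fermat.Agent.S58
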