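import Fermat.Agent.S31.TraceInvariance
import Fermat.Agent.Tors.Qbar

/-!
# S58, leaf L2 (helper78): algebra for the charpoly transfer

* `h78t_lucas` : in a ring, `x * x - a x + d = 0` implies
  `x ^ k * x ^ k - V_k x ^ k + d ^ k = 0`, `V_k = acTrace a d k` the Lucas sequence (integers).
* `h78t_dvd_of_kills` : an integer killing `E[m](Qbar)` is divisible by `m`.
-/

set_option autoImplicit false

namespace Fermat.Agent.S58

open Fermat.Agent.S30 (acTrace)

/-- The Lucas identity: a root of `X² - a X + d` has `k`-th power a root of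
`X² - V_k X + d ^ k`. -/
theorem h78t_lucas {E : Type*} [Ring E] (x : E) (a d : ℤ)
    (h : x * x - (a : E) * x + (d : E) = 0) (k : ℕ) :
    x ^ k * x ^ k - ((acTrace a d k : ℤ) : E) * x ^ k + ((d ^ k : ℤ) : E) = 0 := by
  set y : E := (a : E) - x with hy
  have hax : Commute (a : E) x := Int.cast_commute a x
  have hc : Commute x y := (hax.symm).sub_right (Commute.refl x)
  have hxy : x * y = (d : E) := by
    have h1 : x * y = -(x * x - (a : E) * x) := by
      rw [hy, mul_sub, ← hax.eq]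
      abel
    rw [h1, eq_neg_of_add_eq_zero_left h, neg_neg]
  have hsum : x + y = (a : E) := by rw [hy]; abel
  have hpow : x ^ k + y ^ k = ((acTrace a d k : ℤ) : E) := by
    refine Fermat.Agent.S31.TI_pow_add_pow hc (fun k => ((acTrace a d k : ℤ) : E)) ?_ ?_ ?_ k
    · simp [Fermat.Agent.S30.acTrace_zero]
    · simp only [Fermat.Agent.S30.acTrace_one]
      exact hsum.symm
    · intro j
      simp only [Fermat.Agent.S30.acTrace_add_two]
      rw [hsum, hxy]
      push_cast
      rfl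
  have hyx : y ^ k * x ^ k = ((d ^ k : ℤ) : E) := by
    rw [← (hc.symm).mul_pow, hc.symm.eq, hxy]
    push_cast
    rfl
  rw [← hpow, add_mul, ← hyx]
  abel

open WeierstrassCurve WeierstrassCurve.Affine in
/-- An integer killing `E[m](Qbar)` is divisible by `m`. -/
theorem h78t_dvd_of_kills (W : WeierstrassCurve ℚ) (hΔ : W.Δ ≠ 0) {m : ℕ} (hm : m ≠ 0) (c : ℤ)
    (hc : ∀ Q : (W⁄(AlgebraicClosure ℚ)).Point, m • Q = 0 → c • Q = 0) : (m : ℤ) ∣ c := by
  set g : ℕ := Int.gcd c m with hg
  have hgm : g ∣ m := by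
    have h := Int.gcd_dvd_right c (m : ℤ)
    exact_mod_cast h
  have hg0 : g ≠ 0 := fun h0 => hm (Nat.eq_zero_of_zero_dvd (h0 ▸ hgm))
  have hle : Submodule.torsionBy ℤ (W⁄(AlgebraicClosure ℚ)).Point (m : ℕ) ≤
      Submodule.torsionBy ℤ (W⁄(AlgebraicClosure ℚ)).Point (g : ℕ) := by
    intro Q hQ
    rw [Submodule.mem_torsionBy_iff] at hQ ⊢
    have hQ' : m • Q = 0 := by
      rw [← natCast_zsmul]; exact hQ
    have hb : (g : ℤ) = c * Int.gcdA c m + m * Int.gcdB c m := Int.gcd_eq_gcd_ab c m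
    rw [hb, add_smul, mul_comm c, mul_comm (m : ℤ), mul_smul, mul_smul, hc Q hQ', hQ, smul_zero,
      add_zero]
    exact zsmul_zero _
  have hfin := Fermat.Agent.Tors.finite_torsionBy_qbar W hΔ g hg0
  have hcard : Nat.card (Submodule.torsionBy ℤ (W⁄(AlgebraicClosure ℚ)).Point (m : ℕ)) ≤
      Nat.card (Submodule.torsionBy ℤ (W⁄(AlgebraicClosure ℚ)).Point (g : ℕ)) :=
    Nat.card_le_card_of_injective (Submodule.inclusion hle) (Submodule.inclusion_injective hle)
  rw [Fermat.Agent.Tors.card_torsionBy_qbar W hΔ m hm,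
    Fermat.Agent.Tors.card_torsionBy_qbar W hΔ g hg0] at hcard
  have hmg : m ≤ g := by
    by_contra hlt
    have hlt := Nat.lt_of_not_le hlt
    have : g ^ 2 < m ^ 2 := Nat.pow_lt_pow_left hlt (by norm_num)
    omega
  have hgeq : g = m := le_antisymm (Nat.le_of_dvd (Nat.pos_of_ne_zero hm) hgm) hmg
  have h := Int.gcd_dvd_left c (m : ℤ)
  rw [← hg, hgeq] at h
  exact h

end Fermat.Agent.S58
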