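import Fermat.Agent.S58.H78Trans
import Fermat.Agent.S58.H78Nodal2

/-!
# S58, leaf L2 (helper78): the two consequences of the charpoly transfer

Let `ρ : GaloisRepAdic O` satisfy `h78t_HCP W ρ S₀` (Frobenius characteristic polynomials
`X² - a_r(W) X + r` at all primes `r` outside the finite set `S₀`), `lam` a non-unit of `O`.

* `h78t_frob` : at **every** good prime `q ≠ lam` of `W` (also `q ∈ S₀`), every Frobenius element
  at `q` has characteristic polynomial `X² - a_q(W) X + q`.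
* `h78t_unip` : at every prime `q ≠ lam` at which the model `W` is semistable,
  `ρ.IsUnipotentOnInertiaAt q`.
-/

set_option autoImplicit false

open Polynomial

namespace Fermat.Agent.S58

open WeierstrassCurve WeierstrassCurve.Affine
open Fermat.Agent.S29 (GQ)

local notation "Qbar" => AlgebraicClosure ℚ

/-- The characteristic polynomial of an endomorphism of a free module of rank two. -/
theorem h78t_charpoly_of_finrank_two {T : Type*} [CommRing T] [Nontrivial T] {V : Type*}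
    [AddCommGroup V] [Module T V] [Module.Free T V] [Module.Finite T V]
    (hV : Module.finrank T V = 2) (f : Module.End T V) :
    LinearMap.charpoly f = X ^ 2 - C (LinearMap.trace T V f) * X + C (LinearMap.det f) := by
  classical
  let B := Module.Free.chooseBasis T V
  have hcard : Fintype.card (Module.Free.ChooseBasisIndex T V) = 2 := by
    rw [← Module.finrank_eq_card_chooseBasisIndex, hV]
  let e : Module.Free.ChooseBasisIndex T V ≃ Fin 2 := Fintype.equivFinOfCardEq hcard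
  let B' : Module.Basis (Fin 2) T V := B.reindex e
  rw [← LinearMap.charpoly_toMatrix f B', Matrix.charpoly_fin_two,
    LinearMap.trace_eq_matrix_trace T B' f, ← LinearMap.det_toMatrix B' f]

/-- **Charpoly transfer at a good prime.** -/
theorem h78t_frob (W : WeierstrassCurve ℤ) (hΔ : W.Δ ≠ 0) {lam : ℕ} [Fact lam.Prime]
    {O : Type} [CommRing O] [IsLocalRing O] [IsNoetherianRing O]
    (hlamO : (lam : O) ∈ IsLocalRing.maximalIdeal O)
    (ρ : GaloisRepAdic O) (S₀ : Finset ℕ) (hcp : h78t_HCP W ρ S₀)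
    {q : ℕ} (hq : q.Prime) (hqlam : q ≠ lam) (hgood : W.IsGoodPrimeFor q)
    (A : ValuationSubring Qbar) (hA : A.LiesOverPrime q) (f : Qbar ≃ₐ[ℚ] Qbar)
    (hf : A.IsFrobeniusAt f q) :
    LinearMap.charpoly (ρ.ρ f) = X ^ 2 - C ((W.apOfModel q : ℤ) : O) * X + C ((q : ℕ) : O) := by
  have hlam : lam.Prime := Fact.out
  have hpZ : (lam : ℤ_[lam]) ∈ IsLocalRing.maximalIdeal ℤ_[lam] := by
    rw [PadicInt.maximalIdeal_eq_span_p]
    exact Ideal.mem_span_singleton_self _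
  obtain ⟨χ, hχcont, -, hχfrob, -⟩ := Fermat.Agent.S30.cycCharAdic lam hlam ℤ_[lam] hpZ
  have hχσ : ((χ f : ℤ_[lam]ˣ) : ℤ_[lam]) = (((q : ℕ) : ℤ) : ℤ_[lam]) := by
    rw [hχfrob q hq hqlam A hA f hf, Int.cast_natCast]
  have hrel : ∀ (n : ℕ) (Q : ((W.map (Int.castRingHom ℚ))⁄Qbar).Point), (lam ^ n) • Q = 0 →
      f • f • Q - (W.apOfModel q) • f • Q + ((q : ℕ) : ℤ) • Q = 0 := by
    intro n Q hQ
    have hn : ¬ q ∣ lam ^ n := fun h =>
      hqlam ((Nat.prime_dvd_prime_iff_eq hq hlam).mp (hq.dvd_of_dvd_pow h))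
    exact h78e_frobRel W hq hgood A hA f hf hn Q hQ
  obtain ⟨htr, hdet⟩ := h78t_trace_det W hΔ hlamO ρ S₀ hcp χ hχcont hχfrob f
    (W.apOfModel q) ((q : ℕ) : ℤ) hχσ hrel
  rw [h78t_charpoly_of_finrank_two ρ.finrank_eq, htr, hdet, Int.cast_natCast]

/-- **Unipotent inertia transfer.** -/
theorem h78t_unip (W : WeierstrassCurve ℤ) (hΔ : W.Δ ≠ 0) {lam : ℕ} [Fact lam.Prime]
    {O : Type} [CommRing O] [IsLocalRing O] [IsNoetherianRing O]
    (hlamO : (lam : O) ∈ IsLocalRing.maximalIdeal O)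
    (ρ : GaloisRepAdic O) (S₀ : Finset ℕ) (hcp : h78t_HCP W ρ S₀)
    {q : ℕ} (hq : q.Prime) (hqlam : q ≠ lam) (hss : (q : ℤ) ∣ W.Δ → ¬ (q : ℤ) ∣ W.c₄) :
    ρ.IsUnipotentOnInertiaAt q := by
  intro A hA σ hσ
  have hlam : lam.Prime := Fact.out
  have hpZ : (lam : ℤ_[lam]) ∈ IsLocalRing.maximalIdeal ℤ_[lam] := by
    rw [PadicInt.maximalIdeal_eq_span_p]
    exact Ideal.mem_span_singleton_self _
  obtain ⟨χ, hχcont, hχin, hχfrob, -⟩ := Fermat.Agent.S30.cycCharAdic lam hlam ℤ_[lam] hpZ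
  have hχσ : ((χ σ : ℤ_[lam]ˣ) : ℤ_[lam]) = ((1 : ℤ) : ℤ_[lam]) := by
    rw [hχin q hq hqlam A hA σ hσ, Units.val_one, Int.cast_one]
  have hrel : ∀ (n : ℕ) (Q : ((W.map (Int.castRingHom ℚ))⁄Qbar).Point), (lam ^ n) • Q = 0 →
      σ • σ • Q - (2 : ℤ) • σ • Q + (1 : ℤ) • Q = 0 := by
    intro n Q hQ
    have hn : ¬ q ∣ lam ^ n := fun h =>
      hqlam ((Nat.prime_dvd_prime_iff_eq hq hlam).mp (hq.dvd_of_dvd_pow h))
    have h := h78u_unipotent_int W hΔ hq hss A hA hn hσ Q hQ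
    rw [smul_sub] at h
    have e2 : (2 : ℤ) • σ • Q = σ • Q + σ • Q := two_zsmul _
    have e1 : (1 : ℤ) • Q = Q := one_zsmul _
    rw [e2, e1]
    have h' : σ • σ • Q - (σ • Q + σ • Q) + Q = (σ • σ • Q - σ • Q) - (σ • Q - Q) := by abel
    rw [h', h, sub_self]
  obtain ⟨htr, hdet⟩ := h78t_trace_det W hΔ hlamO ρ S₀ hcp χ hχcont hχfrob σ 2 1 hχσ hrel
  rw [h78t_charpoly_of_finrank_two ρ.finrank_eq, htr, hdet]
  simp only [Int.cast_ofNat, Int.cast_one, map_one, map_ofNat]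
  ring

end Fermat.Agent.S58
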