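import Fermat.Agent.S52.H78Inertia

/-!
# S58, E-side (helper78): unipotent inertia at a multiplicative prime, any residue characteristic

The S52 leaf `Fermat.Agent.S52.h78_unipotent_int` assumes that the residue characteristic is odd.
Here the three local ingredients are redone without any hypothesis on `2` (except `2 ≠ 0`):

* `h78u_twist_ht` : twisted invariance of the component height;
* `h78u_delta`    : the size of the cocycle `(σ e - e, σ t - t)` of a `2`-torsion point `(e, t)`;
* `h78u_inertia_unipotent` : `σ • (σ • P - P) = σ • P - P` for torsion points of order prime to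
  the residue characteristic, for a curve one of whose translates is a nodal model.
-/

set_option autoImplicit false
set_option linter.unusedSectionVars false

namespace Fermat.Agent.S58

open WeierstrassCurve Fermat.Agent.S05 Fermat.Agent.S05.H76 Fermat.Agent.S13 Fermat.Agent.S52
open scoped WeierstrassCurve.Affine

section Twist

variable {K : Type*} [Field K] [DecidableEq K]

/-- Twisted invariance of the height (no hypothesis on the residue characteristic). -/
theorem h78u_twist_ht (A : ValuationSubring K) (N : WeierstrassCurve K) (r₁ r₂ : K)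
    (hV : NodalVal A.valuation N r₁ r₂)
    (σ : K →+* K) (hσA : ∀ a ∈ A, σ a - a ∈ A.nonunits)
    (hσv : ∀ z : K, A.valuation (σ z) = A.valuation z)
    (δ δt : K) (hδw : A.valuation δ ≤ A.valuation N.a₄)
    (hd₁ : A.valuation (δt - r₁ * δ) ≤ A.valuation N.a₄)
    (hd₂ : A.valuation (δt - r₂ * δ) ≤ A.valuation N.a₄)
    {X Y X' Y' : K} (h : N.toAffine.Nonsingular X Y) (h' : N.toAffine.Nonsingular X' Y')
    (hX : X' = σ X + δ) (hY : Y' = σ Y + δt) :
    ht A.valuation N r₁ (.some X' Y' h') = ht A.valuation N r₁ (.some X Y h) := by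
  set v := A.valuation with hv
  have hw : v N.a₄ < 1 := hV.hw
  have hδ1 : v δ < 1 := lt_of_le_of_lt hδw hw
  have hr₁A : r₁ ∈ A := (A.valuation_le_one_iff _).mp hV.hr₁
  have hr₂A : r₂ ∈ A := (A.valuation_le_one_iff _).mp hV.hr₂
  have hσr₁ : v (σ r₁ - r₁) < 1 := A.mem_nonunits_iff.mp (hσA r₁ hr₁A)
  have hσr₂ : v (σ r₂ - r₂) < 1 := A.mem_nonunits_iff.mp (hσA r₂ hr₂A)
  -- branch transfer
  have branch : ∀ r : K, v (σ r - r) < 1 → v (δt - r * δ) ≤ v N.a₄ → v N.a₄ < v X →
      v (Y - r * X) < v X → v (Y' - r * X') < v X := by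
    intro r hr hd hwX hb
    have e : Y' - r * X' = σ (Y - r * X) + (σ r - r) * σ X + (δt - r * δ) := by
      rw [hX, hY, map_sub, map_mul]; ring
    rw [e]
    have hX0 : v X ≠ 0 := fun h0 => by rw [h0] at hwX; exact not_lt_zero hwX
    refine v.map_add_lt (v.map_add_lt ?_ ?_) ?_
    · rw [hσv]; exact hb
    · rw [map_mul, hσv]
      exact mul_lt_of_lt_one_left (zero_lt_iff.mpr hX0) hr
    · exact lt_of_le_of_lt hd hwX
  by_cases h1 : 1 ≤ v X
  · -- identity component
    have hX' : 1 ≤ v X' := by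
      rw [hX, v.map_add_eq_of_lt_left (by rw [hσv]; exact lt_of_lt_of_le hδ1 h1), hσv]
      exact h1
    rw [ht_Z v N r₁ h h1, ht_Z v N r₁ h' hX']
  · push Not at h1
    by_cases hM : v X ≤ v N.a₄
    · -- middle component
      have hX' : v X' ≤ v N.a₄ := by
        rw [hX]
        exact v.map_add_le (by rw [hσv]; exact hM) hδw
      rw [ht_M v N r₁ h hw hM, ht_M v N r₁ h' hw hX']
    · push Not at hM
      have hX' : v X' = v X := by
        rw [hX, v.map_add_eq_of_lt_left (by rw [hσv]; exact lt_of_le_of_lt hδw hM), hσv]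
      have h1' : v X' < 1 := by rw [hX']; exact h1
      have hM' : v N.a₄ < v X' := by rw [hX']; exact hM
      by_cases hb : v (Y - r₁ * X) < v X
      · have hb' : v (Y' - r₁ * X') < v X' := by
          rw [hX']; exact branch r₁ hσr₁ hd₁ hM hb
        rw [ht_plus v N r₁ h h1 hM hb, ht_plus v N r₁ h' h1' hM' hb', hX']
      · have hc := (hV.model.equation_iff X Y).mp h.1
        have hb₂ : v (Y - r₂ * X) < v X := by
          rcases branch_cases v hc h1 hM with h3 | h3
          · exact absurd h3 hb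
          · exact h3
        have hb₂' : v (Y' - r₂ * X') < v X' := by
          rw [hX']; exact branch r₂ hσr₂ hd₂ hM hb₂
        rw [ht_minus v N r₁ r₂ h hV.hr h1 hM hb₂, ht_minus v N r₁ r₂ h' hV.hr h1' hM' hb₂', hX']

end Twist

variable {R : Type*} {S : Type*} {K : Type*} [CommRing R] [Field S] [Field K]
  [DecidableEq K] [Algebra R S] [Algebra R K] [Algebra S K] [IsScalarTower R S K]

/-- The cocycle `δ = σ e - e`, `δt = σ t - t` of the `2`-torsion point `(e, t)` is small with
respect to the coefficient `a₄` of the translated model. -/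
theorem h78u_delta (W' : Affine R) (A : ValuationSubring K) {e t r₁ r₂ : K}
    (hV : NodalVal A.valuation (h78_vc e t • (W'⁄K)) r₁ r₂) (h20 : (2 : K) ≠ 0)
    (he : e ∈ A) {σ : K ≃ₐ[S] K} (hσ : σ ∈ A.inertiaSubgroupIn S) :
    A.valuation (σ e - e) ≤ A.valuation (h78_vc e t • (W'⁄K)).a₄ ∧
    A.valuation ((σ t - t) - r₁ * (σ e - e)) ≤ A.valuation (h78_vc e t • (W'⁄K)).a₄ ∧
    A.valuation ((σ t - t) - r₂ * (σ e - e)) ≤ A.valuation (h78_vc e t • (W'⁄K)).a₄ := by
  set Wk : WeierstrassCurve K := W'⁄K with hWk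
  have s₁ : σ Wk.a₁ = Wk.a₁ := L2.algEquiv_algebraMap σ W'.a₁
  have s₂ : σ Wk.a₂ = Wk.a₂ := L2.algEquiv_algebraMap σ W'.a₂
  have s₃ : σ Wk.a₃ = Wk.a₃ := L2.algEquiv_algebraMap σ W'.a₃
  have s₄ : σ Wk.a₄ = Wk.a₄ := L2.algEquiv_algebraMap σ W'.a₄
  have s₆ : σ Wk.a₆ = Wk.a₆ := L2.algEquiv_algebraMap σ W'.a₆
  have h3 : Wk.a₃ + e * Wk.a₁ + 2 * t = 0 := by
    rw [← h78_vc_a₃]; exact hV.model.a₃
  have h6 : Wk.a₆ + e * Wk.a₄ + e ^ 2 * Wk.a₂ + e ^ 3 - t * Wk.a₃ - t ^ 2 - e * t * Wk.a₁ = 0 := by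
    rw [← h78_vc_a₆]; exact hV.model.a₆
  have h3' : Wk.a₃ + σ e * Wk.a₁ + 2 * σ t = 0 := by
    have := congrArg σ h3
    simpa [s₁, s₃, map_ofNat] using this
  have h6' : Wk.a₆ + σ e * Wk.a₄ + σ e ^ 2 * Wk.a₂ + σ e ^ 3 - σ t * Wk.a₃ - σ t ^ 2
      - σ e * σ t * Wk.a₁ = 0 := by
    have := congrArg σ h6
    simpa [s₁, s₂, s₃, s₄, s₆, map_ofNat] using this
  set δ := σ e - e with hδ
  set δt := σ t - t with hδt'
  set w := (h78_vc e t • Wk).a₄ with hw
  have hδt : 2 * δt = -(Wk.a₁ * δ) := by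
    rw [hδ, hδt']
    linear_combination h3' - h3
  have hwe : w = Wk.a₄ + 2 * e * Wk.a₂ - t * Wk.a₁ + 3 * e ^ 2 := h78_vc_a₄ Wk e t
  have ha₁ : Wk.a₁ = -(r₁ + r₂) := by
    have e₁ := hV.model.a₁
    rwa [h78_vc_a₁] at e₁
  have hB : Wk.a₁ ^ 2 + 4 * Wk.a₂ + 12 * e = (r₁ - r₂) ^ 2 := by
    have e₂ := hV.model.a₂
    rw [h78_vc_a₂] at e₂
    rw [ha₁]
    linear_combination 4 * e₂
  have key : δ * (4 * w + (r₁ - r₂) ^ 2 * δ + 4 * δ ^ 2) = 0 := by
    rw [← hB, hwe, hδ]
    linear_combination 4 * h6' + (Wk.a₃ + σ e * Wk.a₁ + 2 * σ t) * h3' - 4 * h6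
      - (Wk.a₃ + e * Wk.a₁ + 2 * t) * h3 - 2 * Wk.a₁ * (σ e - e) * h3
  have e₁ : 2 * (δt - r₁ * δ) = -((r₁ - r₂) * δ) := by
    rw [mul_sub, hδt, ha₁]; ring
  have e₂ : 2 * (δt - r₂ * δ) = (r₁ - r₂) * δ := by
    rw [mul_sub, hδt, ha₁]; ring
  rcases mul_eq_zero.mp key with h0 | h0
  · -- `δ = 0`
    have hδt0 : δt = 0 := by
      have : 2 * δt = 0 := by rw [hδt, h0, mul_zero, neg_zero]
      exact (mul_eq_zero.mp this).resolve_left h20
    rw [h0, hδt0]
    simp
  · have hδm : A.valuation δ < 1 := A.mem_nonunits_iff.mp (H86.inertia_apply_mem A hσ he).2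
    have h2le : A.valuation (2 : K) ≤ 1 := by
      have h8 : (2 : K) = 1 + 1 := by norm_num
      rw [h8]
      exact (A.valuation).map_add_le (le_of_eq (map_one _)) (le_of_eq (map_one _))
    have h2ne : A.valuation (2 : K) ≠ 0 := (A.valuation.ne_zero_iff).mpr h20
    have h4 : A.valuation (4 : K) = A.valuation (2 : K) * A.valuation (2 : K) := by
      have : (4 : K) = 2 * 2 := by norm_num
      rw [this, map_mul]
    have h4le : A.valuation (4 : K) ≤ 1 := by
      rw [h4]
      calc A.valuation (2 : K) * A.valuation (2 : K) ≤ 1 * 1 := by gcongr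
        _ = 1 := one_mul 1
    have e1 : 4 * w = -(δ * ((r₁ - r₂) ^ 2 + 4 * δ)) := by linear_combination h0
    have e2 : A.valuation ((r₁ - r₂) ^ 2 + 4 * δ) = 1 := by
      rw [Valuation.map_add_eq_of_lt_left]
      · rw [map_pow, hV.hr, one_pow]
      · rw [map_pow, hV.hr, one_pow, map_mul]
        calc A.valuation (4 : K) * A.valuation δ ≤ 1 * A.valuation δ := by gcongr
          _ = A.valuation δ := one_mul _
          _ < 1 := hδm
    have e3 : A.valuation (4 : K) * A.valuation w = A.valuation δ := by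
      have := congrArg A.valuation e1
      rwa [map_mul, Valuation.map_neg, map_mul, e2, mul_one] at this
    have hδw : A.valuation δ ≤ A.valuation w := by
      rw [← e3]
      calc A.valuation (4 : K) * A.valuation w ≤ 1 * A.valuation w := by gcongr
        _ = A.valuation w := one_mul _
    have hd : ∀ z : K, (2 * z = -((r₁ - r₂) * δ) ∨ 2 * z = (r₁ - r₂) * δ) →
        A.valuation z ≤ A.valuation w := by
      intro z hz
      have hz' : A.valuation (2 : K) * A.valuation z = A.valuation δ := by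
        rcases hz with hz | hz
        · have := congrArg A.valuation hz
          rwa [map_mul, Valuation.map_neg, map_mul, hV.hr, one_mul] at this
        · have := congrArg A.valuation hz
          rwa [map_mul, map_mul, hV.hr, one_mul] at this
      have h5 : A.valuation (2 : K) * A.valuation z
          = A.valuation (2 : K) * (A.valuation (2 : K) * A.valuation w) := by
        rw [hz', ← e3, h4, mul_assoc]
      have h6 : A.valuation z = A.valuation (2 : K) * A.valuation w :=
        mul_left_cancel₀ h2ne h5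
      rw [h6]
      calc A.valuation (2 : K) * A.valuation w ≤ 1 * A.valuation w := by gcongr
        _ = A.valuation w := one_mul _
    exact ⟨hδw, hd _ (Or.inl e₁), hd _ (Or.inr e₂)⟩

/-- **Unipotent inertia** for a curve with integral coefficients one of whose translates (over `K`)
is a nodal model; no hypothesis on the residue characteristic. -/
theorem h78u_inertia_unipotent (W' : Affine R) (A : ValuationSubring K)
    (ha₁ : (W'⁄K).a₁ ∈ A) (ha₂ : (W'⁄K).a₂ ∈ A) (ha₃ : (W'⁄K).a₃ ∈ A) (ha₄ : (W'⁄K).a₄ ∈ A)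
    (ha₆ : (W'⁄K).a₆ ∈ A) {e t r₁ r₂ : K}
    (hV : NodalVal A.valuation (h78_vc e t • (W'⁄K)) r₁ r₂) (h20 : (2 : K) ≠ 0)
    (he : e ∈ A) {σ : K ≃ₐ[S] K} (hσ : σ ∈ A.inertiaSubgroupIn S)
    (hσv : ∀ z : K, A.valuation (σ z) = A.valuation z)
    {n : ℕ} (hn : (n : K) ∉ A.nonunits) (P : (W'⁄K).Point) (hP : n • P = 0) :
    σ • (σ • P - P) = σ • P - P := by
  set N : WeierstrassCurve K := h78_vc e t • (W'⁄K) with hN
  set φ := vcPoint (W'⁄K) (h78_vc e t) with hφ
  obtain ⟨hδ, hd₁, hd₂⟩ := h78u_delta W' A hV h20 he hσ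
  have hσA : ∀ a ∈ A, (σ : K →+* K) a - a ∈ A.nonunits :=
    fun a ha => (H86.inertia_apply_mem A hσ ha).2
  -- preimages
  obtain ⟨Pe, hPe⟩ := h78_vcPoint_surjective (W'⁄K) e t P
  obtain ⟨Pe', hPe'⟩ := h78_vcPoint_surjective (W'⁄K) e t (σ • P)
  -- the heights agree
  have hht : ht A.valuation N r₁ Pe' = ht A.valuation N r₁ Pe := by
    rcases Pe with _ | ⟨X, Y, h⟩
    · -- `P = 0`
      have hP0 : P = 0 := by rw [← hPe]; rfl
      have : φ Pe' = 0 := by rw [hPe', hP0]; exact smul_zero σ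
      have hPe'0 : Pe' = 0 := vcPoint_injective (W'⁄K) (h78_vc e t) (this.trans (map_zero φ).symm)
      rw [hPe'0]; rfl
    · rcases Pe' with _ | ⟨X', Y', h'⟩
      · exfalso
        have h0 : σ • P = 0 := by rw [← hPe']; rfl
        have hP0 : P = 0 := by
          have := congrArg (fun Q => σ⁻¹ • Q) h0
          simpa using this
        rw [← hPe] at hP0
        exact Affine.Point.some_ne_zero _ hP0
      · have e1 : φ (.some X Y h) = .some (X + e) (Y + t)
            ((vc_nonsingular_iff (W'⁄K) (h78_vc e t) X Y).mp h |> fun hh => by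
              simpa [h78_vcX, h78_vcY] using hh) := by
          rw [hφ, vcPoint_some]
          simp only [h78_vcX, h78_vcY]
        have e1' : φ (.some X' Y' h') = .some (X' + e) (Y' + t)
            ((vc_nonsingular_iff (W'⁄K) (h78_vc e t) X' Y').mp h' |> fun hh => by
              simpa [h78_vcX, h78_vcY] using hh) := by
          rw [hφ, vcPoint_some]
          simp only [h78_vcX, h78_vcY]
        rw [e1] at hPe
        rw [e1'] at hPe'
        obtain ⟨hns, hs⟩ := L2.smul_some W' σ
          (x := X + e) (y := Y + t) ((vc_nonsingular_iff (W'⁄K) (h78_vc e t) X Y).mp h |> fun hh => by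
              simpa [h78_vcX, h78_vcY] using hh)
        rw [← hPe, hs] at hPe'
        simp only [Affine.Point.some.injEq] at hPe'
        obtain ⟨hx, hy⟩ := hPe'
        refine h78u_twist_ht A N r₁ r₂ hV (σ : K →+* K) hσA hσv (σ e - e) (σ t - t) hδ hd₁ hd₂
          h h' ?_ ?_
        · have : X' = σ (X + e) - e := by rw [← hx]; ring
          rw [this, map_add]
          simp only [RingHom.coe_coe]
          ring
        · have : Y' = σ (Y + t) - t := by rw [← hy]; ring
          rw [this, map_add]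
          simp only [RingHom.coe_coe]
          ring
  -- the difference lies in the identity component of the nodal model
  have hZ : L2.TypeZ A.valuation N (Pe' - Pe) := L2.typeZ_sub_of_ht_eq hV hht
  have hφQ : φ (Pe' - Pe) = σ • P - P := by rw [map_sub, hPe, hPe']
  have hnQ : n • (σ • P - P) = 0 := by
    rw [smul_sub, hP, ← smul_comm, hP, smul_zero, sub_zero]
  have hII := kernelTorsionFree A (W := (W'⁄K)) ha₁ ha₂ ha₃ ha₄ ha₆ hn
  rw [← hφQ] at hnQ ⊢
  rcases hZ with h0 | ⟨X, Y, h, hQ, hX⟩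
  · rw [h0, map_zero]; exact smul_zero σ
  · rw [hQ] at hnQ ⊢
    have hns : (W'⁄K).toAffine.Nonsingular (X + e) (Y + t) := by
      have := (vc_nonsingular_iff (W'⁄K) (h78_vc e t) X Y).mp h
      simpa [h78_vcX, h78_vcY] using this
    have e1 : φ (.some X Y h) = .some (X + e) (Y + t) hns := by
      rw [hφ, vcPoint_some]
      simp only [h78_vcX, h78_vcY]
    rw [e1] at hnQ ⊢
    rcases eq_or_lt_of_le hX with hx1 | hx1
    · -- unit `X`
      have hXA : X ∈ A := (A.valuation_le_one_iff _).mp (le_of_eq hx1.symm)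
      have hxA : X + e ∈ A := A.add_mem _ _ hXA he
      have hnod := L2.nodal_unit_nonsingular hV h.1 hx1.symm
      have hns' : (W'⁄K).a₁ * (Y + t) - (3 * (X + e) ^ 2 + 2 * (W'⁄K).a₂ * (X + e) + (W'⁄K).a₄) ∉ A.nonunits ∨
          2 * (Y + t) + (W'⁄K).a₁ * (X + e) + (W'⁄K).a₃ ∉ A.nonunits := by
        by_contra hcon
        push Not at hcon
        apply hnod
        constructor
        · have : N.a₁ * Y - (3 * X ^ 2 + 2 * N.a₂ * X + N.a₄) =
              (W'⁄K).a₁ * (Y + t) - (3 * (X + e) ^ 2 + 2 * (W'⁄K).a₂ * (X + e) + (W'⁄K).a₄) := by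
            rw [hN, h78_vc_a₁, h78_vc_a₂, h78_vc_a₄]; ring
          rw [this]
          exact A.mem_nonunits_iff.mp hcon.1
        · have : 2 * Y + N.a₁ * X + N.a₃ = 2 * (Y + t) + (W'⁄K).a₁ * (X + e) + (W'⁄K).a₃ := by
            rw [hN, h78_vc_a₁, h78_vc_a₃]; ring
          rw [this]
          exact A.mem_nonunits_iff.mp hcon.2
      exact H86.inertia_smul_eq_of_nonsingular_reduction W' A ha₁ ha₂ ha₃ ha₄ ha₆ n hII hσ hns
        hxA hns' hnQ
    · -- `X ∉ A`: kernel of reduction
      exfalso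
      have hXA : X ∉ A := fun hx' =>
        absurd ((A.valuation_le_one_iff _).mpr hx') (not_le.mpr hx1)
      have hxA : X + e ∉ A := fun hx' => hXA (by
        have := sub_mem hx' he
        simpa using this)
      have := hII _ (Or.inr ⟨X + e, Y + t, hns, rfl, hxA⟩) hnQ
      exact Affine.Point.some_ne_zero hns this

end Fermat.Agent.S58
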