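import Mathlib

/-!
# S58, E-side transfer (helper87): algebra of the power sums `P_k(a, ℓ)`

`h87eP a ℓ k` is the integer `α ^ k + β ^ k` where `α, β` are the roots of `X² - a X + ℓ`
(defined by the recursion `P₀ = 2`, `P₁ = a`, `P_{k+2} = a P_{k+1} - ℓ P_k`).

* `h87e_pow_rel` : in any ring, `x² - a x + ℓ = 0` implies `x^k x^k - P_k x^k + ℓ^k = 0`.
* `h87e_trace_pow`, `h87e_det_pow` : for a `2 × 2` matrix with trace `a` and determinant `ℓ`,
  `tr (M ^ k) = P_k` and `det (M ^ k) = ℓ ^ k`.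
-/

set_option autoImplicit false

open Polynomial

namespace Fermat.Agent.S58

/-- The power sums of the roots of `X² - a X + ℓ`. -/
def h87eP (a ℓ : ℤ) : ℕ → ℤ
  | 0 => 2
  | 1 => a
  | (k + 2) => a * h87eP a ℓ (k + 1) - ℓ * h87eP a ℓ k

@[simp] theorem h87eP_zero (a ℓ : ℤ) : h87eP a ℓ 0 = 2 := rfl

@[simp] theorem h87eP_one (a ℓ : ℤ) : h87eP a ℓ 1 = a := rfl

theorem h87eP_succ_succ (a ℓ : ℤ) (k : ℕ) :
    h87eP a ℓ (k + 2) = a * h87eP a ℓ (k + 1) - ℓ * h87eP a ℓ k := rfl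

/-- Commutative version of `h87e_pow_rel`. -/
theorem h87e_pow_rel_comm {C : Type*} [CommRing C] (a ℓ : ℤ) (x : C)
    (h : x * x - (a : C) * x + (ℓ : C) = 0) (k : ℕ) :
    x ^ k * x ^ k - (h87eP a ℓ k : C) * x ^ k + (ℓ : C) ^ k = 0 := by
  set y : C := (a : C) - x with hy
  have hxy : x * y = (ℓ : C) := by rw [hy]; linear_combination -h
  have hs : ∀ k : ℕ, x ^ k + y ^ k = (h87eP a ℓ k : C) ∧
      x ^ (k + 1) + y ^ (k + 1) = (h87eP a ℓ (k + 1) : C) := by
    intro k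
    induction k with
    | zero =>
      refine ⟨?_, ?_⟩
      · simp only [pow_zero, h87eP_zero]; push_cast; ring
      · simp only [zero_add, pow_one, h87eP_one]; rw [hy]; ring
    | succ k ih =>
      refine ⟨ih.2, ?_⟩
      have e : x ^ (k + 1 + 1) + y ^ (k + 1 + 1) =
          (x + y) * (x ^ (k + 1) + y ^ (k + 1)) - (x * y) * (x ^ k + y ^ k) := by ring
      rw [e, ih.1, ih.2, hxy, h87eP_succ_succ]
      have hxy' : x + y = (a : C) := by rw [hy]; ring
      rw [hxy']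
      push_cast
      ring
  have h1 := (hs k).1
  have h2 : (ℓ : C) ^ k = x ^ k * y ^ k := by rw [← hxy, mul_pow]
  rw [← h1, h2]
  ring

/-- The polynomial `X² - a X + ℓ` divides `X^k X^k - P_k X^k + ℓ^k`. -/
theorem h87e_dvd (a ℓ : ℤ) (k : ℕ) :
    (X ^ 2 - C a * X + C ℓ : ℤ[X]) ∣ X ^ k * X ^ k - C (h87eP a ℓ k) * X ^ k + C ℓ ^ k := by
  set f : ℤ[X] := X ^ 2 - C a * X + C ℓ with hf
  have hroot : (AdjoinRoot.root f) * (AdjoinRoot.root f) -
      ((a : ℤ) : AdjoinRoot f) * (AdjoinRoot.root f) + ((ℓ : ℤ) : AdjoinRoot f) = 0 := by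
    have h := AdjoinRoot.eval₂_root f
    rw [hf] at h
    simp only [eval₂_add, eval₂_sub, eval₂_mul, eval₂_pow, eval₂_X, eval₂_C] at h
    rw [← hf] at h
    have e1 : (AdjoinRoot.of f) a = ((a : ℤ) : AdjoinRoot f) := by simp
    have e2 : (AdjoinRoot.of f) ℓ = ((ℓ : ℤ) : AdjoinRoot f) := by simp
    rw [e1, e2] at h
    rw [← h]
    ring
  have key := h87e_pow_rel_comm a ℓ (AdjoinRoot.root f) hroot k
  rw [← AdjoinRoot.mk_eq_zero]
  simp only [map_add, map_sub, map_mul, map_pow, AdjoinRoot.mk_X, AdjoinRoot.mk_C]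
  have e1 : (AdjoinRoot.of f) (h87eP a ℓ k) = ((h87eP a ℓ k : ℤ) : AdjoinRoot f) := by simp
  have e2 : (AdjoinRoot.of f) ℓ = ((ℓ : ℤ) : AdjoinRoot f) := by simp
  rw [e1, e2]
  exact key

/-- In any ring, `x² - a x + ℓ = 0` implies `x^k x^k - P_k x^k + ℓ^k = 0`. -/
theorem h87e_pow_rel {R : Type*} [Ring R] (a ℓ : ℤ) (x : R)
    (h : x * x - a • x + ℓ • (1 : R) = 0) (k : ℕ) :
    x ^ k * x ^ k - (h87eP a ℓ k) • x ^ k + (ℓ ^ k) • (1 : R) = 0 := by
  obtain ⟨g, hg⟩ := h87e_dvd a ℓ k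
  have h0 : aeval x (X ^ 2 - C a * X + C ℓ : ℤ[X]) = 0 := by
    simp only [map_add, map_sub, map_mul, map_pow, aeval_X, aeval_C]
    rw [pow_two, ← h]
    simp [Algebra.smul_def]
  have h1 := congrArg (aeval x) hg
  rw [map_mul, h0, zero_mul] at h1
  simp only [map_add, map_sub, map_mul, map_pow, aeval_X, aeval_C] at h1
  rw [← h1]
  simp [Algebra.smul_def]

/-- Trace of a power of a `2 × 2` matrix with trace `a` and determinant `ℓ`. -/
theorem h87e_trace_pow {R : Type*} [CommRing R] (a ℓ : ℤ) (M : Matrix (Fin 2) (Fin 2) R)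
    (ht : M.trace = (a : R)) (hd : M.det = (ℓ : R)) (k : ℕ) :
    (M ^ k).trace = (h87eP a ℓ k : R) := by
  have hCH : M ^ 2 = M.trace • M - M.det • (1 : Matrix _ _ R) := by
    ext i j
    fin_cases i <;> fin_cases j <;>
      simp [pow_two, Matrix.mul_apply, Fin.sum_univ_two, Matrix.trace_fin_two,
        Matrix.det_fin_two] <;> ring
  have hrec : ∀ k : ℕ,
      (M ^ (k + 2)).trace = M.trace * (M ^ (k + 1)).trace - M.det * (M ^ k).trace := by
    intro k
    have : M ^ (k + 2) = M.trace • M ^ (k + 1) - M.det • M ^ k := by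
      rw [pow_add, hCH, mul_sub, Matrix.mul_smul, Matrix.mul_smul, mul_one, pow_succ]
    rw [this, Matrix.trace_sub, Matrix.trace_smul, Matrix.trace_smul, smul_eq_mul, smul_eq_mul]
  induction k using Nat.strong_induction_on with
  | _ k ih =>
    rcases k with _ | _ | k
    · simp
    · simpa using ht
    · rw [hrec k, ih (k + 1) (by omega), ih k (by omega), ht, hd, h87eP_succ_succ]
      push_cast
      ring

/-- Determinant of a power. -/
theorem h87e_det_pow {R : Type*} [CommRing R] (ℓ : ℤ) (M : Matrix (Fin 2) (Fin 2) R)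
    (hd : M.det = (ℓ : R)) (k : ℕ) : (M ^ k).det = (ℓ : R) ^ k := by
  rw [Matrix.det_pow, hd]

end Fermat.Agent.S58
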