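import Fermat.Agent.S58.H87ETransfer
import Fermat.Agent.S58.H78Nodal2
import Fermat.Agent.S30.CycCharAdic
import Fermat.Prelude.Def_GaloisRep_LocalConditions

/-!
# S58, E-side transfer (helper87): the characteristic polynomials of a representation with the
Frobenius characteristic polynomials of an elliptic curve

Let `W` be an integral Weierstrass model with `Δ ≠ 0`, `p` a prime, `O` a noetherian local ring
with `p ∈ 𝔪`, and `ρ : GaloisRepAdic O` such that for all primes `ℓ` outside a finite set `F`,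
good for `W`, every Frobenius element at `ℓ` has characteristic polynomial
`X² - a_ℓ(W) X + ℓ`.  Then

* `h87e_isUnipotentOnInertiaAt` : `ρ.IsUnipotentOnInertiaAt q` for every prime `q ≠ p` at which
  `W` is semistable (good or multiplicative reduction);
* `h87e_charpoly_frobenius` : every Frobenius element at a good prime `q ≠ p` (`q ∈ F` allowed)
  has characteristic polynomial `X² - a_q(W) X + q`.

Both follow from `h87e_charpoly_of_relation` (a relation `τ² - t τ + d = 0` on all `E[p^n]`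
together with `χ_p(τ) = d` forces `charpoly ρ(τ) = X² - t X + d`), which combines
`h87e_transfer` with the continuity of `ρ` and the Krull intersection theorem.  No Tate module
and no basis of `E[p^n]` is used.
-/

set_option autoImplicit false

open Polynomial

namespace Fermat.Agent.S58

open WeierstrassCurve WeierstrassCurve.Affine

local notation "Qbar" => AlgebraicClosure ℚ
local notation "Γℚ" => (AlgebraicClosure ℚ ≃ₐ[ℚ] AlgebraicClosure ℚ)

/-- The coordinates of an element of `I • ⊤` lie in `I`. -/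
theorem h87e_repr_mem {O V ι : Type*} [CommRing O] [AddCommGroup V] [Module O V]
    (b : Module.Basis ι O V) (I : Ideal O) (v : V) (hv : v ∈ I • (⊤ : Submodule O V)) (i : ι) :
    b.repr v i ∈ I := by
  refine Submodule.smul_induction_on hv ?_ ?_
  · intro r hr w _
    rw [map_smul, Finsupp.smul_apply, smul_eq_mul]
    exact I.mul_mem_right _ hr
  · intro x y hx hy
    rw [map_add, Finsupp.add_apply]
    exact I.add_mem hx hy

/-- Trace and determinant of a `2 × 2` matrix from its characteristic polynomial. -/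
theorem h87e_trace_det_of_charpoly {R : Type*} [CommRing R] [Nontrivial R]
    (M : Matrix (Fin 2) (Fin 2) R) (a d : R) (h : M.charpoly = X ^ 2 - C a * X + C d) :
    M.trace = a ∧ M.det = d := by
  rw [Matrix.charpoly_fin_two] at h
  constructor
  · have h1 := congrArg (fun p => p.coeff 1) h
    simpa [Polynomial.coeff_X, Polynomial.coeff_C] using h1
  · have h0 := congrArg (fun p => p.coeff 0) h
    simpa [Polynomial.coeff_X, Polynomial.coeff_C] using h0

/-- Matrix congruences: if `Mτ = Mσ ^ k * Mg` with `Mg ≡ 1` modulo `I`, `tr Mσ = a` and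
`det Mσ = ℓ`, then `tr Mτ ≡ P_k(a, ℓ)` and `det Mτ ≡ ℓ ^ k` modulo `I`. -/
theorem h87e_matrix_congr {R : Type*} [CommRing R] (I : Ideal R)
    (Mτ Mσ Mg : Matrix (Fin 2) (Fin 2) R) (k : ℕ) (hM : Mτ = Mσ ^ k * Mg)
    (hg : ∀ i j, Mg i j - (1 : Matrix (Fin 2) (Fin 2) R) i j ∈ I) (a ℓ : ℤ)
    (htr : Mσ.trace = (a : R)) (hdet : Mσ.det = (ℓ : R)) :
    Mτ.trace - ((h87eP a ℓ k : ℤ) : R) ∈ I ∧ Mτ.det - ((ℓ ^ k : ℤ) : R) ∈ I := by
  have hMg : Mg.map (Ideal.Quotient.mk I) = 1 := by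
    ext i j
    rw [Matrix.map_apply]
    have h1 := Ideal.Quotient.eq_zero_iff_mem.mpr (hg i j)
    rw [map_sub, sub_eq_zero] at h1
    rw [h1, Matrix.one_apply, Matrix.one_apply]
    split_ifs
    · exact map_one _
    · exact map_zero _
  have hMπ : Mτ.map (Ideal.Quotient.mk I) = (Mσ.map (Ideal.Quotient.mk I)) ^ k := by
    have h1 := congrArg (RingHom.mapMatrix (m := Fin 2) (Ideal.Quotient.mk I)) hM
    rw [map_mul, map_pow] at h1
    simp only [RingHom.mapMatrix_apply] at h1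
    rw [h1, hMg, mul_one]
  have htrπ : (Mσ.map (Ideal.Quotient.mk I)).trace = ((a : ℤ) : R ⧸ I) := by
    rw [← AddMonoidHom.map_trace (Ideal.Quotient.mk I), htr, map_intCast]
  have hdetπ : (Mσ.map (Ideal.Quotient.mk I)).det = ((ℓ : ℤ) : R ⧸ I) := by
    have h1 := RingHom.map_det (Ideal.Quotient.mk I) Mσ
    rw [RingHom.mapMatrix_apply] at h1
    rw [← h1, hdet, map_intCast]
  have h1 := h87e_trace_pow a ℓ _ htrπ hdetπ k
  have h2 := h87e_det_pow ℓ _ hdetπ k
  rw [← hMπ] at h1 h2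
  constructor
  · apply Ideal.Quotient.eq_zero_iff_mem.mp
    rw [map_sub, AddMonoidHom.map_trace (Ideal.Quotient.mk I), h1, map_intCast, sub_self]
  · apply Ideal.Quotient.eq_zero_iff_mem.mp
    have h3 := RingHom.map_det (Ideal.Quotient.mk I) Mτ
    rw [RingHom.mapMatrix_apply] at h3
    rw [map_sub, h3, h2, map_intCast, Int.cast_pow, sub_self]

/-- An element of a noetherian local ring lying in all powers of the maximal ideal is `0`. -/
theorem h87e_eq_zero_of_forall_mem {O : Type*} [CommRing O] [IsLocalRing O] [IsNoetherianRing O]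
    (x : O) (hx : ∀ n : ℕ, x ∈ IsLocalRing.maximalIdeal O ^ n) : x = 0 := by
  have hkrull : ⨅ i : ℕ, IsLocalRing.maximalIdeal O ^ i = ⊥ :=
    Ideal.iInf_pow_eq_bot_of_isLocalRing _ (IsLocalRing.maximalIdeal.isMaximal O).ne_top
  have h1 : x ∈ ⨅ i : ℕ, IsLocalRing.maximalIdeal O ^ i := by
    rw [Ideal.mem_iInf]
    exact hx
  rw [hkrull] at h1
  exact (Submodule.mem_bot O).mp h1

/-- An integer divisible by `p ^ n` lies in `𝔪 ^ n` when `p ∈ 𝔪`. -/
theorem h87e_intCast_mem {O : Type*} [CommRing O] [IsLocalRing O] (p : ℕ)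
    (hpO : (p : O) ∈ IsLocalRing.maximalIdeal O) (n : ℕ) (z : ℤ) (hz : (p : ℤ) ^ n ∣ z) :
    (z : O) ∈ IsLocalRing.maximalIdeal O ^ n := by
  obtain ⟨c, rfl⟩ := hz
  push_cast
  exact Ideal.mul_mem_right _ _ (Ideal.pow_mem_pow hpO n)

/-- **Characteristic polynomial from a relation on the torsion points.** -/
theorem h87e_charpoly_of_relation (W : WeierstrassCurve ℤ) (hΔ : W.Δ ≠ 0) (p : ℕ)
    [Fact p.Prime] {O : Type} [CommRing O] [IsLocalRing O] [IsNoetherianRing O]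
    (hpO : (p : O) ∈ IsLocalRing.maximalIdeal O) (ρ : GaloisRepAdic O) (F : Finset ℕ)
    (hρ : ∀ ℓ : ℕ, ℓ.Prime → ℓ ∉ F → W.IsGoodPrimeFor ℓ →
      ∀ A : ValuationSubring Qbar, A.LiesOverPrime ℓ → ∀ σ : Γℚ, A.IsFrobeniusAt σ ℓ →
        LinearMap.charpoly (ρ.ρ σ) = X ^ 2 - C ((W.apOfModel ℓ : ℤ) : O) * X + C (ℓ : O))
    (τ : Γℚ) (t : ℤ) (d : ℕ)
    (hrel : ∀ (n : ℕ) (Q : ((W.map (Int.castRingHom ℚ))⁄Qbar).Point), (p ^ n) • Q = 0 →
      τ • τ • Q - t • τ • Q + (d : ℤ) • Q = 0)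
    (χ : Γℚ →* ℤ_[p]ˣ)
    (hχc : ∀ n : ℕ, ∃ L : IntermediateField ℚ Qbar, FiniteDimensional ℚ L ∧
        ∀ σ : Γℚ, (∀ x ∈ L, σ x = x) →
          ((χ σ : ℤ_[p]ˣ) : ℤ_[p]) - 1 ∈ IsLocalRing.maximalIdeal ℤ_[p] ^ n)
    (hχf : ∀ ℓ : ℕ, ℓ.Prime → ℓ ≠ p →
        ∀ A : ValuationSubring Qbar, A.LiesOverPrime ℓ →
          ∀ σ : Γℚ, A.IsFrobeniusAt σ ℓ → ((χ σ : ℤ_[p]ˣ) : ℤ_[p]) = (ℓ : ℤ_[p]))
    (hχτ : ((χ τ : ℤ_[p]ˣ) : ℤ_[p]) = (d : ℤ_[p])) :
    LinearMap.charpoly (ρ.ρ τ) = X ^ 2 - C (t : O) * X + C (d : O) := by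
  classical
  obtain ⟨b⟩ : Nonempty (Module.Basis (Fin 2) O ρ.V) :=
    ⟨Module.finBasisOfFinrankEq O ρ.V ρ.finrank_eq⟩
  have hcp : ∀ g : Γℚ, LinearMap.charpoly (ρ.ρ g) =
      X ^ 2 - C (LinearMap.toMatrix b b (ρ.ρ g)).trace * X +
        C (LinearMap.toMatrix b b (ρ.ρ g)).det := by
    intro g
    rw [← LinearMap.charpoly_toMatrix (ρ.ρ g) b, Matrix.charpoly_fin_two]
  have key : ∀ n : ℕ,
      (LinearMap.toMatrix b b (ρ.ρ τ)).trace - (t : O) ∈ IsLocalRing.maximalIdeal O ^ n ∧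
      (LinearMap.toMatrix b b (ρ.ρ τ)).det - (d : O) ∈ IsLocalRing.maximalIdeal O ^ n := by
    intro n
    obtain ⟨L, hL, hLρ⟩ := ρ.isAdicContinuous n
    obtain ⟨ℓ, A, σ, k, hℓ, hℓF, hℓp, hgood, hA, hσ, hfix, hdt, hdd⟩ :=
      h87e_transfer W hΔ p τ t d hrel χ hχc hχf hχτ n L hL F
    have hτ : τ = σ ^ k * ((σ ^ k)⁻¹ * τ) := by rw [mul_inv_cancel_left]
    have hMg : ∀ i j, LinearMap.toMatrix b b (ρ.ρ ((σ ^ k)⁻¹ * τ)) i j -
        (1 : Matrix (Fin 2) (Fin 2) O) i j ∈ IsLocalRing.maximalIdeal O ^ n := by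
      intro i j
      have h2 : b.repr (ρ.ρ ((σ ^ k)⁻¹ * τ) (b j) - b j) i ∈ IsLocalRing.maximalIdeal O ^ n :=
        h87e_repr_mem b _ _ (hLρ _ hfix (b j)) i
      rw [map_sub, Finsupp.sub_apply, Module.Basis.repr_self, Finsupp.single_apply] at h2
      rw [LinearMap.toMatrix_apply, Matrix.one_apply]
      by_cases hij : i = j
      · rw [if_pos hij]
        rw [if_pos hij.symm] at h2
        exact h2
      · rw [if_neg hij]
        rw [if_neg (fun h => hij h.symm)] at h2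
        exact h2
    have hMτ : LinearMap.toMatrix b b (ρ.ρ τ) =
        (LinearMap.toMatrix b b (ρ.ρ σ)) ^ k * LinearMap.toMatrix b b (ρ.ρ ((σ ^ k)⁻¹ * τ)) := by
      conv_lhs => rw [hτ]
      rw [map_mul, map_pow, LinearMap.toMatrix_mul, ← LinearMap.toMatrix_pow]
    have hcpσ : (LinearMap.toMatrix b b (ρ.ρ σ)).charpoly =
        X ^ 2 - C ((W.apOfModel ℓ : ℤ) : O) * X + C (ℓ : O) := by
      rw [LinearMap.charpoly_toMatrix (ρ.ρ σ) b]
      exact hρ ℓ hℓ hℓF hgood A hA σ hσ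
    obtain ⟨htr, hdet⟩ := h87e_trace_det_of_charpoly (LinearMap.toMatrix b b (ρ.ρ σ))
      ((W.apOfModel ℓ : ℤ) : O) (ℓ : O) hcpσ
    have hdet' : (LinearMap.toMatrix b b (ρ.ρ σ)).det = (((ℓ : ℕ) : ℤ) : O) := by
      rw [hdet, Int.cast_natCast]
    obtain ⟨h1, h2⟩ := h87e_matrix_congr (IsLocalRing.maximalIdeal O ^ n) _ _ _ k hMτ hMg
      (W.apOfModel ℓ) (ℓ : ℤ) htr hdet'
    constructor
    · have h3 := h87e_intCast_mem p hpO n _ hdt
      have h4 := Ideal.add_mem _ h1 h3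
      have e : (LinearMap.toMatrix b b (ρ.ρ τ)).trace - (t : O) =
          (LinearMap.toMatrix b b (ρ.ρ τ)).trace - ((h87eP (W.apOfModel ℓ) ℓ k : ℤ) : O) +
            ((h87eP (W.apOfModel ℓ) ℓ k - t : ℤ) : O) := by
        push_cast
        ring
      rw [e]
      exact h4
    · have h3 := h87e_intCast_mem p hpO n _ hdd
      have h4 := Ideal.add_mem _ h2 h3
      have e : (LinearMap.toMatrix b b (ρ.ρ τ)).det - (d : O) =
          (LinearMap.toMatrix b b (ρ.ρ τ)).det - (((ℓ : ℤ) ^ k : ℤ) : O) +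
            (((ℓ : ℤ) ^ k - d : ℤ) : O) := by
        push_cast
        ring
      rw [e]
      exact h4
  have htr : (LinearMap.toMatrix b b (ρ.ρ τ)).trace = (t : O) :=
    sub_eq_zero.mp (h87e_eq_zero_of_forall_mem _ fun n => (key n).1)
  have hdet : (LinearMap.toMatrix b b (ρ.ρ τ)).det = (d : O) :=
    sub_eq_zero.mp (h87e_eq_zero_of_forall_mem _ fun n => (key n).2)
  have hfinal := hcp τ
  rw [htr, hdet] at hfinal
  exact hfinal

end Fermat.Agent.S58
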