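import Fermat.Agent.S58.H87ECharpoly

/-!
# S58, E-side transfer (helper87): final statements

For an integral Weierstrass model `W` with `Δ ≠ 0`, a prime `p`, a noetherian local ring `O` with
`p ∈ 𝔪` and `ρ : GaloisRepAdic O` having the Frobenius characteristic polynomials
`X² - a_ℓ(W) X + ℓ` of `W` at all good primes `ℓ` outside a finite set `F`:

* `h87e_isUnipotentOnInertiaAt` : `ρ.IsUnipotentOnInertiaAt q` for every prime `q ≠ p` at which
  `W` is semistable;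
* `h87e_charpoly_frobenius` : `charpoly ρ(Frob_q) = X² - a_q(W) X + q` at every good prime
  `q ≠ p`, including the primes of `F`.
-/

set_option autoImplicit false

open Polynomial

namespace Fermat.Agent.S58

open WeierstrassCurve WeierstrassCurve.Affine

local notation "Qbar" => AlgebraicClosure ℚ
local notation "Γℚ" => (AlgebraicClosure ℚ ≃ₐ[ℚ] AlgebraicClosure ℚ)

theorem h87e_not_dvd_pow {p q : ℕ} (hp : p.Prime) (hq : q.Prime) (hqp : q ≠ p) (n : ℕ) :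
    ¬ q ∣ p ^ n := by
  intro h
  exact hqp ((Nat.prime_dvd_prime_iff_eq hq hp).mp (hq.dvd_of_dvd_pow h))

/-- **(C2) Unipotent inertia.**  A representation with the Frobenius characteristic polynomials
of `W` is unipotent on inertia at every prime `q ≠ p` where `W` is semistable. -/
theorem h87e_isUnipotentOnInertiaAt (W : WeierstrassCurve ℤ) (hΔ : W.Δ ≠ 0) (p : ℕ)
    [Fact p.Prime] {O : Type} [CommRing O] [IsLocalRing O] [IsNoetherianRing O]
    (hpO : (p : O) ∈ IsLocalRing.maximalIdeal O) (ρ : GaloisRepAdic O) (F : Finset ℕ)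
    (hρ : ∀ ℓ : ℕ, ℓ.Prime → ℓ ∉ F → W.IsGoodPrimeFor ℓ →
      ∀ A : ValuationSubring Qbar, A.LiesOverPrime ℓ → ∀ σ : Γℚ, A.IsFrobeniusAt σ ℓ →
        LinearMap.charpoly (ρ.ρ σ) = X ^ 2 - C ((W.apOfModel ℓ : ℤ) : O) * X + C (ℓ : O))
    {q : ℕ} (hq : q.Prime) (hqp : q ≠ p) (hss : (q : ℤ) ∣ W.Δ → ¬ (q : ℤ) ∣ W.c₄) :
    ρ.IsUnipotentOnInertiaAt q := by
  intro P hP τ hτ
  have hp : p.Prime := Fact.out
  have hpZ : (p : ℤ_[p]) ∈ IsLocalRing.maximalIdeal ℤ_[p] := by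
    rw [PadicInt.maximalIdeal_eq_span_p]
    exact Ideal.mem_span_singleton_self _
  obtain ⟨χ, hχc, hχi, hχf, -⟩ := Fermat.Agent.S30.cycCharAdic p hp ℤ_[p] hpZ
  have h := h87e_charpoly_of_relation W hΔ p hpO ρ F hρ τ 2 1 ?_ χ hχc hχf ?_
  · rw [h]
    simp only [Int.cast_ofNat, Nat.cast_one, map_one]
    have : (C (2 : O) : O[X]) = 2 := map_ofNat C 2
    rw [this]
    ring
  · intro n Q hQ
    have h1 := h78u_unipotent_int W hΔ hq hss P hP (n := p ^ n) (h87e_not_dvd_pow hp hq hqp n)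
      hτ Q hQ
    rw [smul_sub] at h1
    have e : τ • τ • Q - (2 : ℤ) • τ • Q + ((1 : ℕ) : ℤ) • Q =
        (τ • τ • Q - τ • Q) - (τ • Q - Q) := by
      rw [show (2 : ℤ) = 1 + 1 from rfl, add_zsmul, one_zsmul, Nat.cast_one, one_zsmul]
      abel
    rw [e, h1, sub_self]
  · rw [hχi q hq hqp P hP τ hτ]
    simp

/-- **(C1) Frobenius at every good prime.**  A representation with the Frobenius characteristic
polynomials of `W` at the good primes outside `F` has them at every good prime `q ≠ p`. -/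
theorem h87e_charpoly_frobenius (W : WeierstrassCurve ℤ) (hΔ : W.Δ ≠ 0) (p : ℕ)
    [Fact p.Prime] {O : Type} [CommRing O] [IsLocalRing O] [IsNoetherianRing O]
    (hpO : (p : O) ∈ IsLocalRing.maximalIdeal O) (ρ : GaloisRepAdic O) (F : Finset ℕ)
    (hρ : ∀ ℓ : ℕ, ℓ.Prime → ℓ ∉ F → W.IsGoodPrimeFor ℓ →
      ∀ A : ValuationSubring Qbar, A.LiesOverPrime ℓ → ∀ σ : Γℚ, A.IsFrobeniusAt σ ℓ →
        LinearMap.charpoly (ρ.ρ σ) = X ^ 2 - C ((W.apOfModel ℓ : ℤ) : O) * X + C (ℓ : O))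
    {q : ℕ} (hq : q.Prime) (hqp : q ≠ p) (hgood : W.IsGoodPrimeFor q)
    (A : ValuationSubring Qbar) (hA : A.LiesOverPrime q) (τ : Γℚ) (hτ : A.IsFrobeniusAt τ q) :
    LinearMap.charpoly (ρ.ρ τ) = X ^ 2 - C ((W.apOfModel q : ℤ) : O) * X + C (q : O) := by
  have hp : p.Prime := Fact.out
  have hpZ : (p : ℤ_[p]) ∈ IsLocalRing.maximalIdeal ℤ_[p] := by
    rw [PadicInt.maximalIdeal_eq_span_p]
    exact Ideal.mem_span_singleton_self _
  obtain ⟨χ, hχc, -, hχf, -⟩ := Fermat.Agent.S30.cycCharAdic p hp ℤ_[p] hpZ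
  refine h87e_charpoly_of_relation W hΔ p hpO ρ F hρ τ (W.apOfModel q) q ?_ χ hχc hχf ?_
  · intro n Q hQ
    exact h78e_frobRel W hq hgood A hA τ hτ (h87e_not_dvd_pow hp hq hqp n) Q hQ
  · exact hχf q hq hqp A hA τ hτ

/-- **(C3) Unramified-type consequence.**  At a good prime `q ≠ p` the inertia elements have
characteristic polynomial `(X - 1) ^ 2` (special case of (C2)). -/
theorem h87e_isUnipotentOnInertiaAt_of_good (W : WeierstrassCurve ℤ) (hΔ : W.Δ ≠ 0) (p : ℕ)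
    [Fact p.Prime] {O : Type} [CommRing O] [IsLocalRing O] [IsNoetherianRing O]
    (hpO : (p : O) ∈ IsLocalRing.maximalIdeal O) (ρ : GaloisRepAdic O) (F : Finset ℕ)
    (hρ : ∀ ℓ : ℕ, ℓ.Prime → ℓ ∉ F → W.IsGoodPrimeFor ℓ →
      ∀ A : ValuationSubring Qbar, A.LiesOverPrime ℓ → ∀ σ : Γℚ, A.IsFrobeniusAt σ ℓ →
        LinearMap.charpoly (ρ.ρ σ) = X ^ 2 - C ((W.apOfModel ℓ : ℤ) : O) * X + C (ℓ : O))
    {q : ℕ} (hq : q.Prime) (hqp : q ≠ p) (hgood : W.IsGoodPrimeFor q) :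
    ρ.IsUnipotentOnInertiaAt q :=
  h87e_isUnipotentOnInertiaAt W hΔ p hpO ρ F hρ hq hqp (fun h => absurd h hgood)

end Fermat.Agent.S58
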