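import Fermat.Agent.S58.H87EAlg
import Fermat.Agent.S58.H78FrobRel
import Fermat.Agent.Cheb.WeakChebotarev
import Fermat.Agent.S13.AsmGroups
import Fermat.Agent.Tors.Qbar

/-!
# S58, E-side transfer (helper87): from a relation on `E[p^n]` to Frobenius congruences

Let `τ ∈ Gal(Qbar/ℚ)` satisfy `τ² - t τ + d = 0` on `E[p^n]` and act on the `p`-power roots of
unity through `d` (i.e. `χ τ = d` for the `p`-adic cyclotomic character `χ`).  Then for every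
finite extension `L` of `ℚ` and every finite set `F` of primes there are a good prime `ℓ ∉ F`, a
Frobenius element `σ` at `ℓ` and `k` with `τ = σ ^ k` on `L`, such that
`P_k(a_ℓ, ℓ) ≡ t` and `ℓ ^ k ≡ d` modulo `p ^ n` (`h87e_transfer`).

Ingredients: the Eichler–Shimura relation on `E[p^n]` (`h78e_frobRel`), the weak Chebotarev
theorem, `#E[m] = m²` (exponent of `E[m]`), and the algebra of `H87EAlg`.
-/

set_option autoImplicit false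

namespace Fermat.Agent.S58

open WeierstrassCurve WeierstrassCurve.Affine

local notation "Qbar" => AlgebraicClosure ℚ
local notation "Γℚ" => (AlgebraicClosure ℚ ≃ₐ[ℚ] AlgebraicClosure ℚ)

theorem h87e_ΔQ_ne_zero (W : WeierstrassCurve ℤ) (hΔ : W.Δ ≠ 0) :
    (W.map (Int.castRingHom ℚ)).Δ ≠ 0 := by
  rw [WeierstrassCurve.map_Δ]
  simpa using hΔ

/-- **Exponent of `E[m]`**: an integer killing `E[m]` is divisible by `m`. -/
theorem h87e_dvd_of_kills (W : WeierstrassCurve ℤ) (hΔ : W.Δ ≠ 0) (m : ℕ) (hm : m ≠ 0) (c : ℤ)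
    (h : ∀ Q : ((W.map (Int.castRingHom ℚ))⁄Qbar).Point, m • Q = 0 → c • Q = 0) :
    (m : ℤ) ∣ c := by
  set WQ : WeierstrassCurve ℚ := W.map (Int.castRingHom ℚ) with hWQ
  have hΔQ : WQ.Δ ≠ 0 := h87e_ΔQ_ne_zero W hΔ
  set g : ℕ := Int.gcd c m with hg
  have hg0 : g ≠ 0 := by
    rw [hg]
    intro h0
    rw [Int.gcd_eq_zero_iff] at h0
    exact hm (by exact_mod_cast h0.2)
  have hgm : g ∣ m := by
    have : (g : ℤ) ∣ (m : ℤ) := Int.gcd_dvd_right c m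
    exact_mod_cast this
  have hsub : ∀ Q : (WQ⁄Qbar).Point, Q ∈ Submodule.torsionBy ℤ (WQ⁄Qbar).Point (m : ℕ) →
      Q ∈ Submodule.torsionBy ℤ (WQ⁄Qbar).Point (g : ℕ) := by
    intro Q hQ
    rw [Submodule.mem_torsionBy_iff] at hQ ⊢
    have hQ' : m • Q = 0 := by rw [← hQ, natCast_zsmul]
    have h1 : c • Q = 0 := h Q hQ'
    have hb : (g : ℤ) = c * Int.gcdA c m + m * Int.gcdB c m := Int.gcd_eq_gcd_ab c m
    rw [hb, add_smul, mul_comm c, mul_comm (m : ℤ), mul_smul, mul_smul, h1, hQ, zsmul_zero,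
      zsmul_zero, add_zero]
  have hfin : Finite (Submodule.torsionBy ℤ (WQ⁄Qbar).Point (g : ℕ)) :=
    Tors.finite_torsionBy_qbar WQ hΔQ g hg0
  have hcard := Nat.card_le_card_of_injective
    (fun Q : Submodule.torsionBy ℤ (WQ⁄Qbar).Point (m : ℕ) =>
      (⟨Q.1, hsub Q.1 Q.2⟩ : Submodule.torsionBy ℤ (WQ⁄Qbar).Point (g : ℕ)))
    (fun Q Q' hQQ => Subtype.ext (by simpa using congrArg Subtype.val hQQ))
  rw [Tors.card_torsionBy_qbar WQ hΔQ m hm, Tors.card_torsionBy_qbar WQ hΔQ g hg0] at hcard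
  have hmg : m ≤ g := by
    by_contra hlt
    rw [not_le] at hlt
    have : g ^ 2 < m ^ 2 := Nat.pow_lt_pow_left hlt (by norm_num)
    omega
  have hgeq : g = m := le_antisymm (Nat.le_of_dvd (Nat.pos_of_ne_zero hm) hgm) hmg
  have : (g : ℤ) ∣ c := Int.gcd_dvd_left c m
  rw [hgeq] at this
  exact this

/-- The Eichler–Shimura relation for the `k`-th power of a Frobenius element at a good prime
`ℓ ∤ m`, on `E[m]`. -/
theorem h87e_frob_pow_rel (W : WeierstrassCurve ℤ) {ℓ : ℕ} (hℓ : ℓ.Prime)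
    (hgood : W.IsGoodPrimeFor ℓ) (A : ValuationSubring Qbar) (hA : A.LiesOverPrime ℓ)
    (σ : Γℚ) (hσ : A.IsFrobeniusAt σ ℓ) {m : ℕ} (hm : ¬ ℓ ∣ m) (k : ℕ)
    (Q : ((W.map (Int.castRingHom ℚ))⁄Qbar).Point) (hQ : m • Q = 0) :
    (σ ^ k) • (σ ^ k) • Q - (h87eP (W.apOfModel ℓ) ℓ k) • (σ ^ k) • Q + ((ℓ : ℤ) ^ k) • Q = 0 := by
  let T := Submodule.torsionBy ℤ ((W.map (Int.castRingHom ℚ))⁄Qbar).Point (m : ℕ)
  let x : AddMonoid.End T := DistribMulAction.toAddMonoidEnd Γℚ T σ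
  have hx : x * x - (W.apOfModel ℓ) • x + (ℓ : ℤ) • (1 : AddMonoid.End T) = 0 := by
    ext q
    have hq : m • (q : ((W.map (Int.castRingHom ℚ))⁄Qbar).Point) = 0 := by
      have := q.2
      rw [Submodule.mem_torsionBy_iff] at this
      rw [← this, natCast_zsmul]
    have h := h78e_frobRel W hℓ hgood A hA σ hσ hm
      (q : ((W.map (Int.castRingHom ℚ))⁄Qbar).Point) hq
    change ((σ • σ • q - (W.apOfModel ℓ) • σ • q + (ℓ : ℤ) • q : T) :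
      ((W.map (Int.castRingHom ℚ))⁄Qbar).Point) = 0
    exact h
  have key := h87e_pow_rel (W.apOfModel ℓ) (ℓ : ℤ) x hx k
  have hQT : Q ∈ Submodule.torsionBy ℤ ((W.map (Int.castRingHom ℚ))⁄Qbar).Point (m : ℕ) := by
    rw [Submodule.mem_torsionBy_iff, natCast_zsmul]
    exact hQ
  have hxk : x ^ k = DistribMulAction.toAddMonoidEnd Γℚ T (σ ^ k) := by
    rw [map_pow]
  rw [hxk] at key
  have h1 := congrArg (fun f : AddMonoid.End T =>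
    ((f ⟨Q, hQT⟩ : T) : ((W.map (Int.castRingHom ℚ))⁄Qbar).Point)) key
  exact h1

/-- **The transfer.**  If `τ² - t τ + d = 0` on every `E[p^n]` and `χ τ = d`, then `τ` is
approximated on any finite extension by powers `σ ^ k` of Frobenius elements at good primes `ℓ`
with `P_k(a_ℓ, ℓ) ≡ t` and `ℓ ^ k ≡ d` modulo `p ^ n`. -/
theorem h87e_transfer (W : WeierstrassCurve ℤ) (hΔ : W.Δ ≠ 0) (p : ℕ) [Fact p.Prime]
    (τ : Γℚ) (t : ℤ) (d : ℕ)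
    (hrel : ∀ (n : ℕ) (Q : ((W.map (Int.castRingHom ℚ))⁄Qbar).Point), (p ^ n) • Q = 0 →
      τ • τ • Q - t • τ • Q + (d : ℤ) • Q = 0)
    (χ : Γℚ →* ℤ_[p]ˣ)
    (hχc : ∀ n : ℕ, ∃ L : IntermediateField ℚ Qbar, FiniteDimensional ℚ L ∧
        ∀ σ : Γℚ, (∀ x ∈ L, σ x = x) →
          ((χ σ : ℤ_[p]ˣ) : ℤ_[p]) - 1 ∈ IsLocalRing.maximalIdeal ℤ_[p] ^ n)
    (hχf : ∀ ℓ : ℕ, ℓ.Prime → ℓ ≠ p →
        ∀ A : ValuationSubring Qbar, A.LiesOverPrime ℓ →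
          ∀ σ : Γℚ, A.IsFrobeniusAt σ ℓ → ((χ σ : ℤ_[p]ˣ) : ℤ_[p]) = (ℓ : ℤ_[p]))
    (hχτ : ((χ τ : ℤ_[p]ˣ) : ℤ_[p]) = (d : ℤ_[p]))
    (n : ℕ) (L : IntermediateField ℚ Qbar) (hL : FiniteDimensional ℚ L) (F : Finset ℕ) :
    ∃ (ℓ : ℕ) (A : ValuationSubring Qbar) (σ : Γℚ) (k : ℕ), ℓ.Prime ∧ ℓ ∉ F ∧ ℓ ≠ p ∧
      W.IsGoodPrimeFor ℓ ∧ A.LiesOverPrime ℓ ∧ A.IsFrobeniusAt σ ℓ ∧
      (∀ x ∈ L, ((σ ^ k)⁻¹ * τ) x = x) ∧
      ((p : ℤ) ^ n ∣ h87eP (W.apOfModel ℓ) ℓ k - t) ∧ ((p : ℤ) ^ n ∣ (ℓ : ℤ) ^ k - d) := by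
  have hp : p.Prime := Fact.out
  have hpn0 : p ^ n ≠ 0 := pow_ne_zero n hp.ne_zero
  have hΔQ : (W.map (Int.castRingHom ℚ)).Δ ≠ 0 := h87e_ΔQ_ne_zero W hΔ
  have : Finite (S13.Tors (W.map (Int.castRingHom ℚ)) (p ^ n)) :=
    Tors.finite_torsionBy_qbar (W.map (Int.castRingHom ℚ)) hΔQ (p ^ n) hpn0
  obtain ⟨S₁, hS₁⟩ := S13.Asm.exists_finset_fix (W := W.map (Int.castRingHom ℚ)) (p := p ^ n)
  obtain ⟨L₂, hL₂, h₂⟩ := hχc n
  let L₁ : IntermediateField ℚ Qbar := IntermediateField.adjoin ℚ (S₁ : Set Qbar)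
  have hAlg : Algebra.IsAlgebraic ℚ Qbar := AlgebraicClosure.isAlgebraic ℚ
  have hL₁ : FiniteDimensional ℚ L₁ :=
    IntermediateField.finiteDimensional_adjoin (fun x _ => (Algebra.IsIntegral.isIntegral x))
  have hfd1 : FiniteDimensional ℚ ↥(L ⊔ L₁) := IntermediateField.finiteDimensional_sup L L₁
  have hfd : FiniteDimensional ℚ ↥(L ⊔ L₁ ⊔ L₂) :=
    IntermediateField.finiteDimensional_sup (L ⊔ L₁) L₂
  obtain ⟨ℓ, hℓ, hℓF, A, hA, σ, hσ, k, hk⟩ := Cheb.weakChebotarev (L ⊔ L₁ ⊔ L₂) hfd τ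
    (F ∪ {p} ∪ W.Δ.natAbs.primeFactors)
  have hℓF1 : ℓ ∉ F := fun h => hℓF (Finset.mem_union_left _ (Finset.mem_union_left _ h))
  have hℓp : ℓ ≠ p := fun h =>
    hℓF (Finset.mem_union_left _ (Finset.mem_union_right _ (Finset.mem_singleton.mpr h)))
  have hgood : W.IsGoodPrimeFor ℓ := by
    intro hdvd
    apply hℓF
    apply Finset.mem_union_right
    rw [Nat.mem_primeFactors]
    refine ⟨hℓ, Int.natCast_dvd.mp hdvd, ?_⟩
    intro h0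
    exact hΔ (Int.natAbs_eq_zero.mp h0)
  have hle : L ≤ L ⊔ L₁ ⊔ L₂ := le_sup_left.trans le_sup_left
  have hle₁ : L₁ ≤ L ⊔ L₁ ⊔ L₂ := le_sup_right.trans le_sup_left
  have hle₂ : L₂ ≤ L ⊔ L₁ ⊔ L₂ := le_sup_right
  have hfix : ∀ x ∈ L ⊔ L₁ ⊔ L₂, ((σ ^ k)⁻¹ * τ) x = x := fun x hx => by
    rw [AlgEquiv.mul_apply, hk x hx]
    exact (σ ^ k).symm_apply_apply x
  have hτ : τ = σ ^ k * ((σ ^ k)⁻¹ * τ) := by rw [mul_inv_cancel_left]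
  -- the cyclotomic congruence
  have hdvd2 : (p : ℤ) ^ n ∣ (ℓ : ℤ) ^ k - d := by
    have h1 := h₂ ((σ ^ k)⁻¹ * τ) (fun x hx => hfix x (hle₂ hx))
    have h3 : ((χ τ : ℤ_[p]ˣ) : ℤ_[p]) =
        ((χ σ : ℤ_[p]ˣ) : ℤ_[p]) ^ k * ((χ ((σ ^ k)⁻¹ * τ) : ℤ_[p]ˣ) : ℤ_[p]) := by
      conv_lhs => rw [hτ]
      rw [map_mul, map_pow, Units.val_mul, Units.val_pow_eq_pow_val]
    rw [hχτ, hχf ℓ hℓ hℓp A hA σ hσ] at h3
    have h4 : (d : ℤ_[p]) - (ℓ : ℤ_[p]) ^ k =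
        (ℓ : ℤ_[p]) ^ k * (((χ ((σ ^ k)⁻¹ * τ) : ℤ_[p]ˣ) : ℤ_[p]) - 1) := by
      rw [h3]; ring
    have h5 : (d : ℤ_[p]) - (ℓ : ℤ_[p]) ^ k ∈ IsLocalRing.maximalIdeal ℤ_[p] ^ n := by
      rw [h4]
      exact Ideal.mul_mem_left _ _ h1
    rw [PadicInt.maximalIdeal_eq_span_p, Ideal.span_singleton_pow,
      Ideal.mem_span_singleton] at h5
    have h6 : (p : ℤ_[p]) ^ n ∣ (((d : ℤ) - (ℓ : ℤ) ^ k : ℤ) : ℤ_[p]) := by
      push_cast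
      exact h5
    have h7 := (PadicInt.pow_p_dvd_int_iff n _).mp h6
    have h8 : (ℓ : ℤ) ^ k - d = -((d : ℤ) - (ℓ : ℤ) ^ k) := by ring
    rw [h8]
    exact (dvd_neg).mpr h7
  refine ⟨ℓ, A, σ, k, hℓ, hℓF1, hℓp, hgood, hA, hσ, fun x hx => hfix x (hle hx), ?_, hdvd2⟩
  -- the trace congruence
  have hℓm : ¬ ℓ ∣ p ^ n := by
    intro h
    exact hℓp ((Nat.prime_dvd_prime_iff_eq hℓ hp).mp (hℓ.dvd_of_dvd_pow h))
  have hgQ : ∀ Q : ((W.map (Int.castRingHom ℚ))⁄Qbar).Point, (p ^ n) • Q = 0 →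
      τ • Q = (σ ^ k) • Q := by
    intro Q hQ
    have hQT : Q ∈ Submodule.torsionBy ℤ ((W.map (Int.castRingHom ℚ))⁄Qbar).Point
        ((p ^ n : ℕ) : ℤ) := by
      rw [Submodule.mem_torsionBy_iff, natCast_zsmul]
      exact hQ
    have h1 := hS₁ ((σ ^ k)⁻¹ * τ)
      (fun s hs => hfix s (hle₁ (IntermediateField.subset_adjoin ℚ _ hs))) ⟨Q, hQT⟩
    have h2 : ((σ ^ k)⁻¹ * τ) • Q = Q := congrArg Subtype.val h1
    rw [mul_smul] at h2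
    calc τ • Q = (σ ^ k) • ((σ ^ k)⁻¹ • τ • Q) := by rw [smul_inv_smul]
      _ = (σ ^ k) • Q := by rw [h2]
  have htors : ∀ (g : Γℚ) (Q : ((W.map (Int.castRingHom ℚ))⁄Qbar).Point), (p ^ n) • Q = 0 →
      (p ^ n) • (g • Q) = 0 := by
    intro g Q hQ
    rw [← natCast_zsmul, ← WeierstrassCurve.Affine.Point.algEquiv_smul_zsmul, natCast_zsmul, hQ,
      smul_zero]
  have hkill : ∀ Q : ((W.map (Int.castRingHom ℚ))⁄Qbar).Point, (p ^ n) • Q = 0 →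
      (h87eP (W.apOfModel ℓ) ℓ k - t) • Q = 0 := by
    intro Q' hQ'
    set Q := τ⁻¹ • Q' with hQdef
    have hQ : (p ^ n) • Q = 0 := htors τ⁻¹ Q' hQ'
    have hQ'eq : Q' = τ • Q := by rw [hQdef, smul_inv_smul]
    have ha := h87e_frob_pow_rel W hℓ hgood A hA σ hσ hℓm k Q hQ
    rw [← hgQ Q hQ, ← hgQ (τ • Q) (htors τ Q hQ)] at ha
    have hb := hrel n Q hQ
    obtain ⟨c, hc⟩ := hdvd2
    have hzero : ((ℓ : ℤ) ^ k - d) • Q = 0 := by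
      rw [hc, mul_smul]
      have : ((p : ℤ) ^ n) • (c • Q) = c • (((p : ℤ) ^ n) • Q) := smul_comm _ _ _
      rw [this]
      have h2 : ((p : ℤ) ^ n) • Q = (p ^ n) • Q := by
        rw [← natCast_zsmul]
        push_cast
        rfl
      rw [h2, hQ, zsmul_zero]
    rw [hQ'eq, sub_smul]
    have e : h87eP (W.apOfModel ℓ) ℓ k • τ • Q - t • τ • Q =
        (τ • τ • Q - t • τ • Q + (d : ℤ) • Q) -
          (τ • τ • Q - h87eP (W.apOfModel ℓ) ℓ k • τ • Q + ((ℓ : ℤ) ^ k) • Q) +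
            ((ℓ : ℤ) ^ k - d) • Q := by
      rw [sub_smul]
      abel
    rw [e, ha, hb, hzero]
    simp
  have := h87e_dvd_of_kills W hΔ (p ^ n) hpn0 _ hkill
  exact_mod_cast this

end Fermat.Agent.S58
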